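import Mathlib
import Fermat.Agent.S21.Prim
import Fermat.Agent.S21.ConjReflect
import Fermat.Agent.S20.Dict.MkCusp

/-!
# S16 [D]: the conjugate cusp form `f^c(z) = -conj (f (-conj z))` and its periods

`periodMap N (f^c) γ = conj (periodMap N f (j γ j))`.
-/

set_option autoImplicit false

namespace Fermat.Agent.S16D

open UpperHalfPlane ModularForm CongruenceSubgroup ModularCurve ModularCurve.Period Filter
open scoped Manifold MatrixGroups ModularForm Topology ComplexConjugate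

noncomputable section

/-- `z ↦ -conj (f (-conj z))` -/
def hcj_fun (f : ℍ → ℂ) : ℍ → ℂ := fun z => -conj (f (J • z))

theorem hcj_fun_apply (f : ℍ → ℂ) (z : ℍ) : hcj_fun f z = -conj (f (J • z)) := rfl

theorem hcj_conj_denom (γ : SL(2, ℤ)) (z : ℍ) :
    conj (denom (jConjSL γ) ((J • z : ℍ) : ℂ)) = denom γ (z : ℂ) := by
  rw [denom, denom, S21.coe_J_smul']
  simp only [map_add, map_mul, map_neg, Complex.conj_conj]
  have h10 : ((jConjSL γ : SL(2, ℤ)) : GL (Fin 2) ℝ) 1 0 = -((γ : GL (Fin 2) ℝ) 1 0) := by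
    simp
  have h11 : ((jConjSL γ : SL(2, ℤ)) : GL (Fin 2) ℝ) 1 1 = ((γ : GL (Fin 2) ℝ) 1 1) := by
    simp
  rw [h10, h11]
  simp only [Complex.ofReal_neg, map_neg, Complex.conj_ofReal]
  ring

theorem hcj_fun_slash (k : ℤ) (f : ℍ → ℂ) (γ : SL(2, ℤ)) :
    hcj_fun f ∣[k] γ = hcj_fun (f ∣[k] jConjSL γ) := by
  ext z
  rw [SL_slash_apply, hcj_fun_apply, hcj_fun_apply, SL_slash_apply, S21.J_smul_smul, map_mul,
    map_zpow₀, hcj_conj_denom]
  ring

theorem hcj_isZeroAtImInfty {G : ℍ → ℂ} (hG : IsZeroAtImInfty G) : IsZeroAtImInfty (hcj_fun G) := by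
  have h1 : Tendsto (fun z : ℍ => G (J • z)) atImInfty (𝓝 0) :=
    hG.comp S21.tendsto_J_smul_atImInfty
  have h2 : Tendsto (fun z : ℍ => conj (G (J • z))) atImInfty (𝓝 (conj (0 : ℂ))) :=
    (Complex.continuous_conj.tendsto _).comp h1
  have h3 := h2.neg
  rw [map_zero, neg_zero] at h3
  exact h3

variable {N : ℕ} [NeZero N]

theorem hcj_hasDerivAt_cuspForm (f : CuspForm (Gamma0 N) 2) (τ : ℍ) :
    HasDerivAt ((f : ℍ → ℂ) ∘ ofComplex) (deriv ((f : ℍ → ℂ) ∘ ofComplex) τ) ↑τ :=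
  (UpperHalfPlane.mdifferentiableAt_iff.mp (CuspFormClass.holo f τ)).hasDerivAt

theorem hcj_isZeroAt_slash (f : CuspForm (Gamma0 N) 2) (δ : SL(2, ℤ)) :
    IsZeroAtImInfty ((f : ℍ → ℂ) ∣[(2 : ℤ)] δ) := by
  have hcSL : IsCusp (Matrix.SpecialLinearGroup.mapGL ℝ δ • (OnePoint.infty : OnePoint ℝ)) 𝒮ℒ :=
    isCusp_SL2Z_iff'.mpr ⟨δ, rfl⟩
  have hcΓ : IsCusp (Matrix.SpecialLinearGroup.mapGL ℝ δ • (OnePoint.infty : OnePoint ℝ))
      ((Gamma0 N : Subgroup SL(2, ℤ)) : Subgroup (GL (Fin 2) ℝ)) :=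
    (Subgroup.IsArithmetic.isCusp_iff_isCusp_SL2Z _).mpr hcSL
  exact (OnePoint.isZeroAt_iff_forall_SL2Z hcSL).mp (CuspFormClass.zero_at_cusps f hcΓ) δ rfl

/-- the conjugate cusp form -/
def hcj_form (f : CuspForm (Gamma0 N) 2) : CuspForm (Gamma0 N) 2 :=
  S20.mkCuspForm (Gamma0 N) 2 (hcj_fun f)
    (by
      have h := S21.mdiff_reflect (hcj_hasDerivAt_cuspForm f)
      exact h.neg)
    (by
      intro γ hγ
      rw [hcj_fun_slash]
      congr 1
      rw [SL_slash]
      exact SlashInvariantFormClass.slash_action_eq f _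
        (Subgroup.mem_map_of_mem _ (jConjSL_mem_Gamma0 hγ)))
    (by
      intro γ
      rw [hcj_fun_slash]
      apply hcj_isZeroAtImInfty
      exact hcj_isZeroAt_slash f _)

theorem hcj_form_apply (f : CuspForm (Gamma0 N) 2) (z : ℍ) :
    hcj_form f z = -conj (f (J • z)) := rfl

/-- the period map is computed by any equivariant primitive -/
theorem hcj_periodMap_apply_of (g : CuspForm (Gamma0 N) 2) {F : ℍ → ℂ}
    (hF : HasEquivariantPrimitive N g F) (γ : Gamma0 N) (z : ℍ) :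
    periodMap N g (Additive.ofMul γ) = F ((γ : SL(2, ℤ)) • z) - F z := by
  obtain ⟨F₀, h₀, hper⟩ := ModularCurve.periodMap_def N g hF
  rw [hper, ModularCurve.Period.IsEquivariantPrimitive.periodHom_apply,
    S21.period_eq_of_hasEquivariantPrimitive g h₀ hF γ, ← hF.2.2.1.sub_eq_period γ z]

theorem hcj_hasEquivariantPrimitive (f : CuspForm (Gamma0 N) 2) :
    HasEquivariantPrimitive N (hcj_form f) (S21.reflect (S21.primF f)) := by
  refine ⟨fun τ => ?_, ?_, ?_, ?_⟩
  · exact S21.hasDerivAt_reflect (S21.hasDerivAt_primF f) τ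
  · have h1 : Tendsto (fun z : ℍ => S21.primF f (J • z)) atImInfty (𝓝 0) :=
      (S21.tendsto_primF f).comp S21.tendsto_J_smul_atImInfty
    have h2 : Tendsto (fun z : ℍ => conj (S21.primF f (J • z))) atImInfty (𝓝 (conj (0 : ℂ))) :=
      (Complex.continuous_conj.tendsto _).comp h1
    rw [map_zero] at h2
    exact h2
  · intro γ
    refine ⟨conj (periodMap N f (Additive.ofMul (jConjGamma0 N γ))), fun z => ?_⟩
    rw [S21.reflect_smul, S21.reflect_apply, ← map_sub,
      S21.periodMap_apply f (jConjGamma0 N γ) (J • z), jConjGamma0_coe]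
  · intro δ
    obtain ⟨L, hL⟩ := (S21.hasEquivariantPrimitive_primF f).2.2.2 (jConjSL δ)
    refine ⟨conj L, ?_⟩
    have h1 : Tendsto (fun w : ℍ => S21.primF f (jConjSL δ • (J • w))) atImInfty (𝓝 L) :=
      hL.comp S21.tendsto_J_smul_atImInfty
    have h2 : Tendsto (fun w : ℍ => conj (S21.primF f (jConjSL δ • (J • w)))) atImInfty
        (𝓝 (conj L)) := (Complex.continuous_conj.tendsto _).comp h1
    refine h2.congr fun w => ?_
    rw [S21.reflect_smul]

/-- **periods of the conjugate form** -/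
theorem hcj_periodMap (f : CuspForm (Gamma0 N) 2) (γ : Gamma0 N) :
    periodMap N (hcj_form f) (Additive.ofMul γ) =
      conj (periodMap N f (Additive.ofMul (jConjGamma0 N γ))) := by
  rw [hcj_periodMap_apply_of (hcj_form f) (hcj_hasEquivariantPrimitive f) γ UpperHalfPlane.I,
    S21.reflect_smul, S21.reflect_apply, ← map_sub,
    S21.periodMap_apply f (jConjGamma0 N γ) (J • UpperHalfPlane.I), jConjGamma0_coe]

/-- the involution `ι` on period maps is complex conjugation of the periods of the conjugate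
form -/
theorem hcj_charInvolution_periodMap (f : CuspForm (Gamma0 N) 2) (γ : Gamma0 N) :
    charInvolution N ℂ ℂ (periodMap N f) (Additive.ofMul γ) =
      conj (periodMap N (hcj_form f) (Additive.ofMul γ)) := by
  rw [hcj_periodMap, Complex.conj_conj]
  rfl

end

end Fermat.Agent.S16D
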