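import Mathlib
import Fermat.Prelude.Def_CuspForm_HeckeAlgebra
import Fermat.Prelude.Sol.S_ModularForm_heckeT_slash_eq_self_of_mem_Gamma0
import Fermat.Agent.S22.PeriodHecke
import Fermat.Agent.S21.Prim

/-!
# S16 [D]: Hecke equivariance of the weight two period map

For any family `g' x` with `heckeRep ℓ x * γ = g' x * heckeRep ℓ (σ x)` (`σ` a permutation):
`periodMap N (T_ℓ f) γ = ∑ x, periodMap N f (g' x)`; similarly for `U_q`.
-/

set_option autoImplicit false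

namespace Fermat.Agent.S16D

open UpperHalfPlane ModularForm CongruenceSubgroup ModularCurve
open scoped Manifold MatrixGroups ModularForm
open P2MW.S_ModularForm_heckeT_slash_eq_self_of_mem_Gamma0.ModularForm.HeckeSlashInvariance
  (heckeRep heckeRep_mul redMatrix heckeMatrix_mul_of_dvd affinePerm)

noncomputable section

/-- weight zero slash by a matrix of positive determinant -/
theorem hpe_slash_zero_apply (F : ℍ → ℂ) (A : GL (Fin 2) ℝ) (hA : 0 < A.det.val) (z : ℍ) :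
    (F ∣[(0 : ℤ)] A) z = ((A.det.val : ℝ) : ℂ)⁻¹ * F (A • z) := by
  have hσ : ∀ w : ℂ, σ A w = w := fun w => by
    rw [σ, if_pos hA]; rfl
  rw [ModularForm.slash_apply, hσ, abs_of_pos hA]
  simp only [zero_sub, neg_zero, zpow_zero, mul_one, zpow_neg, zpow_one]
  rw [mul_comm]

variable {N : ℕ} [NeZero N]

theorem hpe_primF_heckeT {ℓ : ℕ} [NeZero ℓ] (hℓ : ℓ.Prime) (hℓN : ¬ ℓ ∣ N)
    (f : CuspForm (Gamma0 N) 2) (z : ℍ) :
    S21.primF (CuspForm.heckeTLin 2 hℓ hℓN f) z =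
      ∑ x : OnePoint (ZMod ℓ), S21.primF f (heckeRep ℓ x • z) := by
  have hF := S21.isEich_eich_two f
  have h := (S22.isEich_heckeT 1 (ℓ := ℓ) hF).eich_eq
  have e2 : ((1 : ℕ) : ℤ) + 1 = 2 := by norm_num
  have e0 : (1 : ℤ) - ((1 : ℕ) : ℤ) = 0 := by norm_num
  rw [e2, e0] at h
  rw [S21.primF_apply, CuspForm.coe_heckeTLin_apply, h]
  simp only [Pi.smul_apply, Finset.sum_apply, smul_eq_mul, pow_one]
  rw [Finset.mul_sum, Finset.mul_sum, ]
  refine Finset.sum_congr rfl fun x _ => ?_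
  have hdet : (heckeRep ℓ x).det.val = (ℓ : ℝ) := by
    rw [Matrix.GeneralLinearGroup.val_det_apply]; exact S22.heckeRep_det hℓ.ne_zero x
  have hpos : 0 < (heckeRep ℓ x).det.val := by
    rw [hdet]; exact_mod_cast hℓ.pos
  rw [hpe_slash_zero_apply _ _ hpos, hdet, S21.primF_apply]
  have hℓ' : (ℓ : ℂ) ≠ 0 := by exact_mod_cast hℓ.ne_zero
  push_cast
  field_simp

theorem hpe_primF_heckeU {q : ℕ} [NeZero q] (hqN : q ∣ N)
    (f : CuspForm (Gamma0 N) 2) (z : ℍ) :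
    S21.primF (CuspForm.heckeULin 2 hqN f) z =
      ∑ x : ZMod q, S21.primF f (heckeMatrix q x.val • z) := by
  have hF := S21.isEich_eich_two f
  have h := (S22.isEich_heckeU 1 (q := q) hF).eich_eq
  have e2 : ((1 : ℕ) : ℤ) + 1 = 2 := by norm_num
  have e0 : (1 : ℤ) - ((1 : ℕ) : ℤ) = 0 := by norm_num
  rw [e2, e0] at h
  rw [S21.primF_apply, CuspForm.coe_heckeULin_apply, h]
  simp only [Pi.smul_apply, Finset.sum_apply, smul_eq_mul, pow_one]
  rw [Finset.mul_sum, Finset.mul_sum, ]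
  refine Finset.sum_congr rfl fun x _ => ?_
  have hdet : (heckeMatrix q x.val).det.val = (q : ℝ) := by
    rw [det_heckeMatrix (NeZero.ne q)]
  have hpos : 0 < (heckeMatrix q x.val).det.val := by
    rw [hdet]; exact_mod_cast Nat.pos_of_ne_zero (NeZero.ne q)
  rw [hpe_slash_zero_apply _ _ hpos, hdet, S21.primF_apply]
  have hq' : (q : ℂ) ≠ 0 := by exact_mod_cast (NeZero.ne q)
  push_cast
  field_simp

/-- abstract form: a primitive `G` of `t f` which is a sum of translates of `primF f` by matrices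
`α x`, with `α x * γ = g' x * α (σ x)`, has periods `∑ x, periodMap f (g' x)`. -/
theorem hpe_periodMap_of_translates {ι : Type*} [Fintype ι] (α : ι → GL (Fin 2) ℝ)
    (f tf : CuspForm (Gamma0 N) 2)
    (hG : ∀ z : ℍ, S21.primF tf z = ∑ x : ι, S21.primF f (α x • z))
    (γ : Gamma0 N) (g' : ι → Gamma0 N) (σ : Equiv.Perm ι)
    (hg' : ∀ x, α x * Matrix.SpecialLinearGroup.mapGL ℝ (γ : SL(2, ℤ)) =
      Matrix.SpecialLinearGroup.mapGL ℝ ((g' x : Gamma0 N) : SL(2, ℤ)) * α (σ x)) :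
    periodMap N tf (Additive.ofMul γ) = ∑ x : ι, periodMap N f (Additive.ofMul (g' x)) := by
  rw [S21.periodMap_apply tf γ UpperHalfPlane.I, hG, hG]
  have h1 : ∀ x : ι, S21.primF f (α x • ((γ : SL(2, ℤ)) • UpperHalfPlane.I)) =
      periodMap N f (Additive.ofMul (g' x)) + S21.primF f (α (σ x) • UpperHalfPlane.I) := by
    intro x
    have e : α x • ((γ : SL(2, ℤ)) • UpperHalfPlane.I) =
        ((g' x : Gamma0 N) : SL(2, ℤ)) • (α (σ x) • UpperHalfPlane.I) := by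
      calc α x • ((γ : SL(2, ℤ)) • UpperHalfPlane.I)
          = α x • (Matrix.SpecialLinearGroup.mapGL ℝ (γ : SL(2, ℤ)) • UpperHalfPlane.I) := rfl
        _ = (α x * Matrix.SpecialLinearGroup.mapGL ℝ (γ : SL(2, ℤ))) • UpperHalfPlane.I :=
            (mul_smul _ _ _).symm
        _ = (Matrix.SpecialLinearGroup.mapGL ℝ ((g' x : Gamma0 N) : SL(2, ℤ)) * α (σ x)) •
              UpperHalfPlane.I := by rw [hg' x]
        _ = Matrix.SpecialLinearGroup.mapGL ℝ ((g' x : Gamma0 N) : SL(2, ℤ)) •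
              (α (σ x) • UpperHalfPlane.I) := mul_smul _ _ _
        _ = ((g' x : Gamma0 N) : SL(2, ℤ)) • (α (σ x) • UpperHalfPlane.I) := rfl
    rw [e, S21.periodMap_apply f (g' x) (α (σ x) • UpperHalfPlane.I)]
    ring
  simp_rw [h1]
  rw [Finset.sum_add_distrib, Equiv.sum_comp σ (fun x => S21.primF f (α x • UpperHalfPlane.I))]
  ring

theorem hpe_periodMap_heckeT {ℓ : ℕ} [NeZero ℓ] (hℓ : ℓ.Prime) (hℓN : ¬ ℓ ∣ N)
    (f : CuspForm (Gamma0 N) 2) (γ : Gamma0 N) (g' : OnePoint (ZMod ℓ) → Gamma0 N)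
    (σ : Equiv.Perm (OnePoint (ZMod ℓ)))
    (hg' : ∀ x, heckeRep ℓ x * Matrix.SpecialLinearGroup.mapGL ℝ (γ : SL(2, ℤ)) =
      Matrix.SpecialLinearGroup.mapGL ℝ ((g' x : Gamma0 N) : SL(2, ℤ)) * heckeRep ℓ (σ x)) :
    periodMap N (CuspForm.heckeTLin 2 hℓ hℓN f) (Additive.ofMul γ) =
      ∑ x : OnePoint (ZMod ℓ), periodMap N f (Additive.ofMul (g' x)) :=
  hpe_periodMap_of_translates (heckeRep ℓ) f _ (hpe_primF_heckeT hℓ hℓN f) γ g' σ hg'

theorem hpe_periodMap_heckeU {q : ℕ} [NeZero q] (hqN : q ∣ N)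
    (f : CuspForm (Gamma0 N) 2) (γ : Gamma0 N) (g' : ZMod q → Gamma0 N)
    (σ : Equiv.Perm (ZMod q))
    (hg' : ∀ x, heckeMatrix q x.val * Matrix.SpecialLinearGroup.mapGL ℝ (γ : SL(2, ℤ)) =
      Matrix.SpecialLinearGroup.mapGL ℝ ((g' x : Gamma0 N) : SL(2, ℤ)) *
        heckeMatrix q (σ x).val) :
    periodMap N (CuspForm.heckeULin 2 hqN f) (Additive.ofMul γ) =
      ∑ x : ZMod q, periodMap N f (Additive.ofMul (g' x)) :=
  hpe_periodMap_of_translates (fun x : ZMod q => heckeMatrix q x.val) f _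
    (hpe_primF_heckeU hqN f) γ g' σ hg'

/-- existence of a valid family of translates for `T_ℓ` -/
theorem hpe_exists_transT {ℓ : ℕ} [Fact ℓ.Prime] (hℓN : ¬ ℓ ∣ N) (γ : Gamma0 N) :
    ∃ g' : OnePoint (ZMod ℓ) → Gamma0 N, ∀ x,
      heckeRep ℓ x * Matrix.SpecialLinearGroup.mapGL ℝ (γ : SL(2, ℤ)) =
        Matrix.SpecialLinearGroup.mapGL ℝ ((g' x : Gamma0 N) : SL(2, ℤ)) *
          heckeRep ℓ (MulAction.toPerm (redMatrix ℓ (γ : SL(2, ℤ))) x) := by
  have hγN : (N : ℤ) ∣ (γ : SL(2, ℤ)) 1 0 :=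
    (ZMod.intCast_zmod_eq_zero_iff_dvd _ _).mp (Gamma0_mem.mp γ.2)
  choose g' hg'N hg'mul using heckeRep_mul hℓN (γ : SL(2, ℤ)) hγN
  exact ⟨fun x => ⟨g' x, Gamma0_mem.mpr ((ZMod.intCast_zmod_eq_zero_iff_dvd _ _).mpr (hg'N x))⟩,
    fun x => hg'mul x⟩

/-- existence of a valid family of translates for `U_q` -/
theorem hpe_exists_transU {q : ℕ} [NeZero q] (hqN : q ∣ N) (γ : Gamma0 N) :
    ∃ (g' : ZMod q → Gamma0 N) (σ : Equiv.Perm (ZMod q)), ∀ x,
      heckeMatrix q x.val * Matrix.SpecialLinearGroup.mapGL ℝ (γ : SL(2, ℤ)) =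
        Matrix.SpecialLinearGroup.mapGL ℝ ((g' x : Gamma0 N) : SL(2, ℤ)) *
          heckeMatrix q (σ x).val := by
  have hγN : (N : ℤ) ∣ (γ : SL(2, ℤ)) 1 0 :=
    (ZMod.intCast_zmod_eq_zero_iff_dvd _ _).mp (Gamma0_mem.mp γ.2)
  have hc : (q : ℤ) ∣ (γ : SL(2, ℤ)) 1 0 := (Int.natCast_dvd_natCast.mpr hqN).trans hγN
  choose g' hg'c hg'mul using heckeMatrix_mul_of_dvd (γ : SL(2, ℤ)) hc
  have hg'N : ∀ x, g' x ∈ Gamma0 N := fun x =>
    Gamma0_mem.mpr ((ZMod.intCast_zmod_eq_zero_iff_dvd _ _).mpr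
      ((hg'c x) ▸ Dvd.dvd.mul_left hγN _))
  exact ⟨fun x => ⟨g' x, hg'N x⟩,
    affinePerm (γ : SL(2, ℤ)) ((ZMod.intCast_zmod_eq_zero_iff_dvd _ _).mpr hc),
    fun x => hg'mul x⟩

end

end Fermat.Agent.S16D
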