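import Mathlib
import Fermat.Prelude.Def_CuspForm_HeckeEvalForms
import Fermat.Agent.S16.Low.PeriodEquiv
import Fermat.Agent.S16.Low.ConjForm
import Fermat.Agent.S21

/-!
# S16 [D]: the dual chain (divisors on `Γ₀(N)` paired with cusp forms)

A divisor `D : Γ₀(N) →₀ ℤ` pairs with a function `ψ` on `Γ₀(N)`: `⟨ψ, D⟩ = ∑ D(γ) ψ(γ)`.
`hdc_Good φ t c`: for all `D` there is `D'` with `⟨pm f, D'⟩ = ⟨pm (t f), D⟩` for all cusp forms `f`
and `⟨φ, D'⟩ = c ⟨φ, D⟩`.  It is closed under integers, sums and products, and holds for the Hecke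
generators if `φ` is an Eisenstein eigenclass.  Separation: an integral parabolic hom vanishes on
every divisor killed by all cusp forms (Eichler-Shimura S21 + the conjugate form).
-/

set_option autoImplicit false

namespace Fermat.Agent.S16D

open UpperHalfPlane ModularForm CongruenceSubgroup ModularCurve ModularCurve.Period
open scoped Manifold MatrixGroups ModularForm ComplexConjugate
open P2MW.S_ModularForm_heckeT_slash_eq_self_of_mem_Gamma0.ModularForm.HeckeSlashInvariance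
  (heckeRep redMatrix)

noncomputable section

variable {N : ℕ} [NeZero N]

/-- the pairing of a function on `Γ₀(N)` with divisors -/
def hdc_pair {A : Type*} [AddCommGroup A] (ψ : Gamma0 N → A) : (Gamma0 N →₀ ℤ) →+ A :=
  Finsupp.liftAddHom (fun γ => zmultiplesHom A (ψ γ))

omit [NeZero N] in
theorem hdc_pair_single {A : Type*} [AddCommGroup A] (ψ : Gamma0 N → A) (γ : Gamma0 N) (m : ℤ) :
    hdc_pair ψ (Finsupp.single γ m) = m • ψ γ := by
  simp [hdc_pair]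

omit [NeZero N] in
theorem hdc_pair_comp {A B : Type*} [AddCommGroup A] [AddCommGroup B] (h : A →+ B)
    (ψ : Gamma0 N → A) (D : Gamma0 N →₀ ℤ) :
    hdc_pair (fun γ => h (ψ γ)) D = h (hdc_pair ψ D) := by
  have : hdc_pair (fun γ => h (ψ γ)) = h.comp (hdc_pair ψ) := by
    apply Finsupp.addHom_ext
    intro γ m
    rw [AddMonoidHom.comp_apply, hdc_pair_single, hdc_pair_single, map_zsmul]
  rw [this, AddMonoidHom.comp_apply]

omit [NeZero N] in
theorem hdc_pair_add_fun {A : Type*} [AddCommGroup A] (ψ₁ ψ₂ : Gamma0 N → A)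
    (D : Gamma0 N →₀ ℤ) :
    hdc_pair (fun γ => ψ₁ γ + ψ₂ γ) D = hdc_pair ψ₁ D + hdc_pair ψ₂ D := by
  have : hdc_pair (fun γ => ψ₁ γ + ψ₂ γ) = hdc_pair ψ₁ + hdc_pair ψ₂ := by
    apply Finsupp.addHom_ext
    intro γ m
    rw [AddMonoidHom.add_apply, hdc_pair_single, hdc_pair_single, hdc_pair_single, smul_add]
  rw [this, AddMonoidHom.add_apply]

omit [NeZero N] in
theorem hdc_pair_sub_fun {A : Type*} [AddCommGroup A] (ψ₁ ψ₂ : Gamma0 N → A)
    (D : Gamma0 N →₀ ℤ) :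
    hdc_pair (fun γ => ψ₁ γ - ψ₂ γ) D = hdc_pair ψ₁ D - hdc_pair ψ₂ D := by
  have : hdc_pair (fun γ => ψ₁ γ - ψ₂ γ) = hdc_pair ψ₁ - hdc_pair ψ₂ := by
    apply Finsupp.addHom_ext
    intro γ m
    rw [AddMonoidHom.sub_apply, hdc_pair_single, hdc_pair_single, hdc_pair_single, smul_sub]
  rw [this, AddMonoidHom.sub_apply]

omit [NeZero N] in
theorem hdc_pair_sum_single {A : Type*} [AddCommGroup A] (ψ : Gamma0 N → A) {ι : Type*}
    [Fintype ι] (g' : ι → Gamma0 N) :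
    hdc_pair ψ (∑ x : ι, Finsupp.single (g' x) (1 : ℤ)) = ∑ x : ι, ψ (g' x) := by
  rw [map_sum]
  refine Finset.sum_congr rfl fun x _ => ?_
  rw [hdc_pair_single, one_smul]

/-- the periods of `f` as a function on `Γ₀(N)` -/
def hdc_pm (f : CuspForm (Gamma0 N) 2) : Gamma0 N → ℂ :=
  fun γ => periodMap N f (Additive.ofMul γ)

theorem hdc_pm_add (f g : CuspForm (Gamma0 N) 2) (γ : Gamma0 N) :
    hdc_pm (f + g) γ = hdc_pm f γ + hdc_pm g γ := by
  have := (S21.periodMapLin N).map_add f g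
  exact congrArg (fun ψ : Additive (Gamma0 N) →+ ℂ => ψ (Additive.ofMul γ)) this

theorem hdc_pm_zsmul (a : ℤ) (f : CuspForm (Gamma0 N) 2) (γ : Gamma0 N) :
    hdc_pm (a • f) γ = a • hdc_pm f γ := by
  have := map_zsmul (S21.periodMapLin N) a f
  exact congrArg (fun ψ : Additive (Gamma0 N) →+ ℂ => ψ (Additive.ofMul γ)) this

/-- the transported property -/
def hdc_Good {n : ℕ} (φ : Gamma0 N → ZMod n) (t : Module.End ℂ (CuspForm (Gamma0 N) 2))
    (c : ZMod n) : Prop :=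
  ∀ D : Gamma0 N →₀ ℤ, ∃ D' : Gamma0 N →₀ ℤ,
    (∀ f : CuspForm (Gamma0 N) 2, hdc_pair (hdc_pm f) D' = hdc_pair (hdc_pm (t f)) D) ∧
      hdc_pair φ D' = c * hdc_pair φ D

theorem hdc_good_of_single {n : ℕ} (φ : Gamma0 N → ZMod n)
    (t : Module.End ℂ (CuspForm (Gamma0 N) 2)) (c : ZMod n)
    (h : ∀ γ : Gamma0 N, ∃ E : Gamma0 N →₀ ℤ,
      (∀ f : CuspForm (Gamma0 N) 2, hdc_pair (hdc_pm f) E = hdc_pm (t f) γ) ∧
        hdc_pair φ E = c * φ γ) : hdc_Good φ t c := by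
  intro D
  induction D using Finsupp.induction_linear with
  | zero => exact ⟨0, fun f => by rw [map_zero, map_zero], by rw [map_zero, mul_zero]⟩
  | add D₁ D₂ h₁ h₂ =>
    obtain ⟨D₁', a₁, b₁⟩ := h₁
    obtain ⟨D₂', a₂, b₂⟩ := h₂
    refine ⟨D₁' + D₂', fun f => ?_, ?_⟩
    · rw [map_add, map_add, a₁, a₂]
    · rw [map_add, map_add, b₁, b₂, mul_add]
  | single γ m =>
    obtain ⟨E, hE₁, hE₂⟩ := h γ
    refine ⟨m • E, fun f => ?_, ?_⟩
    · rw [map_zsmul, hE₁, hdc_pair_single]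
    · rw [map_zsmul, hE₂, hdc_pair_single, mul_smul_comm]

theorem hdc_good_int {n : ℕ} (φ : Gamma0 N → ZMod n) (a : ℤ) :
    hdc_Good φ (algebraMap ℤ (Module.End ℂ (CuspForm (Gamma0 N) 2)) a) (a : ZMod n) := by
  apply hdc_good_of_single
  intro γ
  refine ⟨Finsupp.single γ a, fun f => ?_, ?_⟩
  · rw [hdc_pair_single]
    have : (algebraMap ℤ (Module.End ℂ (CuspForm (Gamma0 N) 2)) a) f = a • f := by
      rw [Module.algebraMap_end_apply]
    rw [this, hdc_pm_zsmul]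
  · rw [hdc_pair_single, zsmul_eq_mul]

theorem hdc_good_add {n : ℕ} (φ : Gamma0 N → ZMod n)
    {t₁ t₂ : Module.End ℂ (CuspForm (Gamma0 N) 2)} {c₁ c₂ : ZMod n}
    (h₁ : hdc_Good φ t₁ c₁) (h₂ : hdc_Good φ t₂ c₂) : hdc_Good φ (t₁ + t₂) (c₁ + c₂) := by
  intro D
  obtain ⟨D₁, a₁, b₁⟩ := h₁ D
  obtain ⟨D₂, a₂, b₂⟩ := h₂ D
  refine ⟨D₁ + D₂, fun f => ?_, ?_⟩
  · rw [map_add, a₁, a₂, LinearMap.add_apply, ← hdc_pair_add_fun]
    congr 2
    funext γ
    rw [hdc_pm_add]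
  · rw [map_add, b₁, b₂, add_mul]

theorem hdc_good_mul {n : ℕ} (φ : Gamma0 N → ZMod n)
    {t₁ t₂ : Module.End ℂ (CuspForm (Gamma0 N) 2)} {c₁ c₂ : ZMod n}
    (h₁ : hdc_Good φ t₁ c₁) (h₂ : hdc_Good φ t₂ c₂) : hdc_Good φ (t₁ * t₂) (c₁ * c₂) := by
  intro D
  obtain ⟨D₁, a₁, b₁⟩ := h₁ D
  obtain ⟨D₂, a₂, b₂⟩ := h₂ D₁
  refine ⟨D₂, fun f => ?_, ?_⟩
  · rw [a₂, a₁, Module.End.mul_apply]
  · rw [b₂, b₁]
    ring

/-- `T_ℓ` is good for an eigenclass -/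
theorem hdc_good_heckeT {n : ℕ} (φ : Gamma0 N → ZMod n) {ℓ : ℕ} [NeZero ℓ] (hℓ : ℓ.Prime)
    (hℓN : ¬ ℓ ∣ N) (c : ZMod n)
    (hφ : ∀ (γ : Gamma0 N) (g' : OnePoint (ZMod ℓ) → Gamma0 N)
      (σ : Equiv.Perm (OnePoint (ZMod ℓ))),
      (∀ x, heckeRep ℓ x * Matrix.SpecialLinearGroup.mapGL ℝ (γ : SL(2, ℤ)) =
        Matrix.SpecialLinearGroup.mapGL ℝ ((g' x : Gamma0 N) : SL(2, ℤ)) * heckeRep ℓ (σ x)) →
      ∑ x, φ (g' x) = c * φ γ) :
    hdc_Good φ (CuspForm.heckeTLin 2 hℓ hℓN) c := by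
  have : Fact ℓ.Prime := ⟨hℓ⟩
  apply hdc_good_of_single
  intro γ
  obtain ⟨g', hg'⟩ := hpe_exists_transT hℓN γ
  refine ⟨∑ x, Finsupp.single (g' x) (1 : ℤ), fun f => ?_, ?_⟩
  · rw [hdc_pair_sum_single]
    exact (hpe_periodMap_heckeT hℓ hℓN f γ g' _ hg').symm
  · rw [hdc_pair_sum_single]
    exact hφ γ g' _ hg'

/-- `U_q` is good for an eigenclass -/
theorem hdc_good_heckeU {n : ℕ} (φ : Gamma0 N → ZMod n) {q : ℕ} [NeZero q]
    (hqN : q ∣ N) (c : ZMod n)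
    (hφ : ∀ (γ : Gamma0 N) (g' : ZMod q → Gamma0 N) (σ : Equiv.Perm (ZMod q)),
      (∀ x, heckeMatrix q x.val * Matrix.SpecialLinearGroup.mapGL ℝ (γ : SL(2, ℤ)) =
        Matrix.SpecialLinearGroup.mapGL ℝ ((g' x : Gamma0 N) : SL(2, ℤ)) *
          heckeMatrix q (σ x).val) →
      ∑ x, φ (g' x) = c * φ γ) :
    hdc_Good φ (CuspForm.heckeULin 2 hqN) c := by
  apply hdc_good_of_single
  intro γ
  obtain ⟨g', σ, hg'⟩ := hpe_exists_transU hqN γ
  refine ⟨∑ x, Finsupp.single (g' x) (1 : ℤ), fun f => ?_, ?_⟩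
  · rw [hdc_pair_sum_single]
    exact (hpe_periodMap_heckeU hqN f γ g' σ hg').symm
  · rw [hdc_pair_sum_single]
    exact hφ γ g' σ hg'

/-- every Hecke polynomial is good, with constant its Eisenstein value -/
theorem hdc_good_eval {n : ℕ} (φ : Gamma0 N → ZMod n)
    (hT : ∀ (ℓ : ℕ) (hℓ : ℓ.Prime) (hℓN : ¬ ℓ ∣ N),
      hdc_Good φ (CuspForm.heckeTLin 2 hℓ hℓN) (1 + (ℓ : ZMod n)))
    (hU : ∀ (q : ℕ) (_ : q.Prime) (hqN : q ∣ N), hdc_Good φ (CuspForm.heckeULin 2 hqN) 1)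
    (P : HeckeAlg) :
    hdc_Good φ ((CuspForm.heckeEvalForms N 2 P : CuspForm.heckeAlgebra N 2 ∅) :
        Module.End ℂ (CuspForm (Gamma0 N) 2))
      ((MvPolynomial.aeval (R := ℤ) (eisensteinSystem N) P : ℤ) : ZMod n) := by
  induction P using MvPolynomial.induction_on with
  | C a =>
    rw [CuspForm.heckeEvalForms_C, MvPolynomial.aeval_C]
    exact hdc_good_int φ a
  | add P Q hP hQ =>
    rw [map_add, map_add, Int.cast_add]
    exact hdc_good_add φ hP hQ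
  | mul_X P ℓ hP =>
    rw [map_mul, map_mul, Int.cast_mul]
    refine hdc_good_mul φ hP ?_
    have h1 : CuspForm.heckeEvalForms N 2 (MvPolynomial.X ℓ) = CuspForm.heckeFormsGen N 2 ℓ :=
      CuspForm.heckeEvalForms_heckeGen N 2 ℓ
    rw [h1, MvPolynomial.aeval_X]
    by_cases hd : (ℓ : ℕ) ∣ N
    · rw [CuspForm.heckeFormsGen_of_dvd hd, eisensteinSystem_of_dvd hd, Int.cast_one]
      exact hU ℓ ℓ.2 hd
    · rw [CuspForm.heckeFormsGen_of_not_dvd hd, eisensteinSystem_of_not_dvd hd]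
      have := hT ℓ ℓ.2 hd
      simpa using this

/-- **Separation**: an integral parabolic hom vanishes on the divisors killed by all cusp
forms. -/
theorem hdc_separation (ψ : Additive (Gamma0 N) →+ ℤ)
    (hψ : ψ ∈ parabolicHoms ℤ (Gamma0 N) ℤ) (D : Gamma0 N →₀ ℤ)
    (hD : ∀ f : CuspForm (Gamma0 N) 2, hdc_pair (hdc_pm f) D = 0) :
    hdc_pair (fun γ => ψ (Additive.ofMul γ)) D = 0 := by
  set ψC : Additive (Gamma0 N) →+ ℂ := (Int.castAddHom ℂ).comp ψ with hψC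
  have hpar : ψC ∈ parabolicHoms ℂ (Gamma0 N) ℂ := by
    intro γ hγ
    show ((ψ (Additive.ofMul γ) : ℤ) : ℂ) = 0
    rw [hψ γ hγ, Int.cast_zero]
  rw [← (S21.result N).2] at hpar
  obtain ⟨⟨f, g⟩, hfg⟩ := hpar
  rw [S21.periodHomPair_apply] at hfg
  have hpt : ∀ γ : Gamma0 N, ((ψ (Additive.ofMul γ) : ℤ) : ℂ) =
      (hdc_pm f γ + conj (hdc_pm (hcj_form f) γ)) +
        (hdc_pm g γ - conj (hdc_pm (hcj_form g) γ)) := by
    intro γ
    have := congrArg (fun χ : Additive (Gamma0 N) →+ ℂ => χ (Additive.ofMul γ)) hfg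
    simp only [AddMonoidHom.add_apply, AddMonoidHom.sub_apply] at this
    rw [hcj_charInvolution_periodMap, hcj_charInvolution_periodMap] at this
    exact this.symm
  have h1 : ((hdc_pair (fun γ => ψ (Additive.ofMul γ)) D : ℤ) : ℂ) = 0 := by
    have e := hdc_pair_comp (Int.castAddHom ℂ) (fun γ => ψ (Additive.ofMul γ)) D
    simp only [Int.coe_castAddHom] at e
    rw [← e]
    simp_rw [hpt]
    rw [hdc_pair_add_fun, hdc_pair_add_fun, hdc_pair_sub_fun]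
    have c1 := hdc_pair_comp (starRingEnd ℂ : ℂ →+* ℂ).toAddMonoidHom (hdc_pm (hcj_form f)) D
    have c2 := hdc_pair_comp (starRingEnd ℂ : ℂ →+* ℂ).toAddMonoidHom (hdc_pm (hcj_form g)) D
    simp only [RingHom.toAddMonoidHom_eq_coe, AddMonoidHom.coe_coe] at c1 c2
    rw [c1, c2, hD, hD, hD, hD]
    simp
  exact_mod_cast h1

/-- **The dual chain**: an Eisenstein eigenclass `φ` with values in `ZMod n`, taking the value `1`
and lifting to an integral parabolic hom, forces `n ∣ P(eis)` for every Hecke polynomial `P` acting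
as zero on cusp forms. -/
theorem hdc_dvd_of_eq_zero {n : ℕ} (φ : Gamma0 N → ZMod n)
    (hT : ∀ (ℓ : ℕ) (hℓ : ℓ.Prime) (hℓN : ¬ ℓ ∣ N),
      hdc_Good φ (CuspForm.heckeTLin 2 hℓ hℓN) (1 + (ℓ : ZMod n)))
    (hU : ∀ (q : ℕ) (_ : q.Prime) (hqN : q ∣ N), hdc_Good φ (CuspForm.heckeULin 2 hqN) 1)
    (γ₀ : Gamma0 N) (hγ₀ : φ γ₀ = 1)
    (ψ : Additive (Gamma0 N) →+ ℤ) (hψ : ψ ∈ parabolicHoms ℤ (Gamma0 N) ℤ)
    (hψφ : ∀ γ : Gamma0 N, ((ψ (Additive.ofMul γ) : ℤ) : ZMod n) = φ γ)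
    (P : HeckeAlg) (hP : CuspForm.heckeEvalForms N 2 P = 0) :
    (n : ℤ) ∣ MvPolynomial.aeval (R := ℤ) (eisensteinSystem N) P := by
  obtain ⟨D', h1, h2⟩ := hdc_good_eval φ hT hU P (Finsupp.single γ₀ 1)
  rw [hP] at h1
  have h3 : ∀ f : CuspForm (Gamma0 N) 2, hdc_pair (hdc_pm f) D' = 0 := by
    intro f
    rw [h1 f, hdc_pair_single, one_smul]
    show hdc_pm (0 : CuspForm (Gamma0 N) 2) γ₀ = 0
    have := (S21.periodMapLin N).map_zero
    exact congrArg (fun χ : Additive (Gamma0 N) →+ ℂ => χ (Additive.ofMul γ₀)) this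
  have h4 := hdc_separation ψ hψ D' h3
  have h5 : hdc_pair φ D' = 0 := by
    have e := hdc_pair_comp (Int.castAddHom (ZMod n)) (fun γ => ψ (Additive.ofMul γ)) D'
    simp only [Int.coe_castAddHom] at e
    have e' : (fun γ : Gamma0 N => ((ψ (Additive.ofMul γ) : ℤ) : ZMod n)) = φ := funext hψφ
    rw [e', h4, Int.cast_zero] at e
    exact e
  rw [h5, hdc_pair_single, one_smul, hγ₀, mul_one] at h2
  exact (ZMod.intCast_zmod_eq_zero_iff_dvd _ _).mp h2.symm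

end

end Fermat.Agent.S16D
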