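import Mathlib
import Fermat.Agent.S24.PermOrbits

/-!
# S16 (LOW, L1): characteristic-free bounds for permutation modules

For a permutation `s` of a finite set `I` and a field `k` of ANY characteristic:
* `s16l_twoSub k s` = functions `a` with `a (s x) = - a x` vanishing at the fixed points of `s`;
  if `s ^ 2 = 1` then `finrank + orb s ≤ card I`;
* `s16l_threeSub k u` = functions `b` with `b x + b (u x) + b (u (u x)) = 0` vanishing at the
  fixed points of `u`; if `u ^ 3 = 1` then `finrank + orb u ≤ card I`.
-/

set_option autoImplicit false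
set_option linter.unusedSectionVars false

namespace Fermat.Agent.S16

open Equiv Equiv.Perm Module Finset
open Fermat.Agent.S24 (orb)

noncomputable section

variable {I : Type*} [Fintype I] [DecidableEq I] (k : Type*) [Field k]

/-- Anti-invariant functions vanishing at the fixed points. -/
def s16l_twoSub (s : Perm I) : Submodule k (I → k) where
  carrier := {a | (∀ x, a (s x) = - a x) ∧ ∀ x, s x = x → a x = 0}
  zero_mem' := ⟨fun _ => by simp, fun _ _ => rfl⟩
  add_mem' := by
    rintro a b ⟨ha, ha'⟩ ⟨hb, hb'⟩
    refine ⟨fun x => ?_, fun x hx => ?_⟩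
    · simp only [Pi.add_apply, ha x, hb x]; ring
    · simp only [Pi.add_apply, ha' x hx, hb' x hx, add_zero]
  smul_mem' := by
    rintro c a ⟨ha, ha'⟩
    refine ⟨fun x => ?_, fun x hx => ?_⟩
    · simp only [Pi.smul_apply, ha x, smul_eq_mul]; ring
    · simp only [Pi.smul_apply, ha' x hx, smul_zero]

/-- Functions killed by the norm of `u` and vanishing at the fixed points. -/
def s16l_threeSub (u : Perm I) : Submodule k (I → k) where
  carrier := {b | (∀ x, b x + b (u x) + b (u (u x)) = 0) ∧ ∀ x, u x = x → b x = 0}
  zero_mem' := ⟨fun _ => by simp, fun _ _ => rfl⟩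
  add_mem' := by
    rintro a b ⟨ha, ha'⟩ ⟨hb, hb'⟩
    refine ⟨fun x => ?_, fun x hx => ?_⟩
    · simp only [Pi.add_apply]
      linear_combination ha x + hb x
    · simp only [Pi.add_apply, ha' x hx, hb' x hx, add_zero]
  smul_mem' := by
    rintro c a ⟨ha, ha'⟩
    refine ⟨fun x => ?_, fun x hx => ?_⟩
    · simp only [Pi.smul_apply, smul_eq_mul]
      linear_combination c * ha x
    · simp only [Pi.smul_apply, ha' x hx, smul_zero]

variable {k}

/-- Extension by zero of a function on the orbit space, supported on the chosen representatives. -/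
def s16l_iota (g : Perm I) : (Quotient (SameCycle.setoid g) → k) →ₗ[k] (I → k) where
  toFun h x := if (Quotient.mk (SameCycle.setoid g) x).out = x then
    h (Quotient.mk (SameCycle.setoid g) x) else 0
  map_add' h₁ h₂ := by
    funext x
    simp only [Pi.add_apply]
    split_ifs <;> simp
  map_smul' c h := by
    funext x
    simp only [Pi.smul_apply, smul_eq_mul, RingHom.id_apply]
    split_ifs <;> simp

theorem s16l_iota_out (g : Perm I) (h : Quotient (SameCycle.setoid g) → k)
    (q : Quotient (SameCycle.setoid g)) : s16l_iota g h q.out = h q := by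
  show (if (Quotient.mk (SameCycle.setoid g) q.out).out = q.out then
    h (Quotient.mk (SameCycle.setoid g) q.out) else 0) = h q
  rw [Quotient.out_eq, if_pos rfl]

theorem s16l_iota_of_ne (g : Perm I) (h : Quotient (SameCycle.setoid g) → k) {x y : I}
    (hxy : SameCycle g x y) (hy : (Quotient.mk (SameCycle.setoid g) x).out = x) (hne : y ≠ x) :
    s16l_iota g h y = 0 := by
  show (if (Quotient.mk (SameCycle.setoid g) y).out = y then _ else 0) = 0
  have : Quotient.mk (SameCycle.setoid g) y = Quotient.mk (SameCycle.setoid g) x :=
    Quotient.sound hxy.symm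
  rw [this, hy, if_neg (Ne.symm hne)]

/-- General principle: if `W ∩ range ι = 0`-type injectivity holds then
`finrank W + orb g ≤ card I`. -/
theorem s16l_finrank_add_orb_le (g : Perm I) (W : Submodule k (I → k))
    (hW : ∀ a ∈ W, ∀ h : Quotient (SameCycle.setoid g) → k, a + s16l_iota g h = 0 → h = 0) :
    finrank k W + orb g ≤ Fintype.card I := by
  classical
  let _ : Fintype (Quotient (SameCycle.setoid g)) := Fintype.ofFinite _
  let F : (W × (Quotient (SameCycle.setoid g) → k)) →ₗ[k] (I → k) :=
    LinearMap.coprod W.subtype (s16l_iota g)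
  have hinj : Function.Injective F := by
    rw [← LinearMap.ker_eq_bot, LinearMap.ker_eq_bot']
    rintro ⟨⟨a, ha⟩, h⟩ hF
    have hF' : a + s16l_iota g h = 0 := hF
    have h0 : h = 0 := hW a ha h hF'
    subst h0
    have : a = 0 := by simpa using hF'
    subst this
    rfl
  have := LinearMap.finrank_le_finrank_of_injective hinj
  rw [Module.finrank_prod, Module.finrank_fintype_fun_eq_card, Module.finrank_fintype_fun_eq_card]
    at this
  rw [orb, Nat.card_eq_fintype_card]
  exact this

theorem s16l_finrank_twoSub_le {s : Perm I} (hs : s ^ 2 = 1) :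
    finrank k (s16l_twoSub k s) + orb s ≤ Fintype.card I := by
  refine s16l_finrank_add_orb_le s _ ?_
  rintro a ⟨ha, ha'⟩ h hsum
  funext q
  have hq := congrFun hsum q.out
  simp only [Pi.add_apply, Pi.zero_apply, s16l_iota_out] at hq
  set x := q.out with hx
  have hout : (Quotient.mk (SameCycle.setoid s) x).out = x := by rw [hx, Quotient.out_eq]
  by_cases hfix : s x = x
  · rw [ha' x hfix, zero_add] at hq
    exact hq
  · have hsc : SameCycle s x (s x) := (SameCycle.refl s x).apply_right
    have h1 := congrFun hsum (s x)
    simp only [Pi.add_apply, Pi.zero_apply, s16l_iota_of_ne s h hsc hout hfix, add_zero] at h1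
    rw [ha x, neg_eq_zero] at h1
    rw [h1, zero_add] at hq
    exact hq

theorem s16l_finrank_threeSub_le {u : Perm I} (hu : u ^ 3 = 1) :
    finrank k (s16l_threeSub k u) + orb u ≤ Fintype.card I := by
  refine s16l_finrank_add_orb_le u _ ?_
  rintro b ⟨hb, hb'⟩ h hsum
  funext q
  have hq := congrFun hsum q.out
  simp only [Pi.add_apply, Pi.zero_apply, s16l_iota_out] at hq
  set x := q.out with hx
  have hout : (Quotient.mk (SameCycle.setoid u) x).out = x := by rw [hx, Quotient.out_eq]
  have hu3 : u (u (u x)) = x := by
    have := congrArg (fun p : Perm I => p x) hu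
    simpa [pow_succ, Perm.mul_apply] using this
  by_cases hfix : u x = x
  · rw [hb' x hfix, zero_add] at hq
    exact hq
  · have hfix2 : u (u x) ≠ x := by
      intro h2
      apply hfix
      have := hu3
      rw [h2] at this
      exact this
    have hsc1 : SameCycle u x (u x) := (SameCycle.refl u x).apply_right
    have hsc2 : SameCycle u x (u (u x)) := hsc1.apply_right
    have h1 := congrFun hsum (u x)
    simp only [Pi.add_apply, Pi.zero_apply, s16l_iota_of_ne u h hsc1 hout hfix, add_zero] at h1
    have h2 := congrFun hsum (u (u x))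
    simp only [Pi.add_apply, Pi.zero_apply, s16l_iota_of_ne u h hsc2 hout hfix2, add_zero] at h2
    have h3 := hb x
    rw [h1, h2, add_zero, add_zero] at h3
    rw [h3, zero_add] at hq
    exact hq

end

end Fermat.Agent.S16
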