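import Mathlib
import Fermat.Agent.S21.ParabolicCocycle
import Fermat.Agent.S16.Low.PermBound

/-!
# S16 (LOW, L1): the Shapiro bound over an arbitrary field

`G` acts transitively on a finite set `X`, `D : ShapiroData G X` (base point, stabiliser `Γ`,
section).  `G` is generated by `s, t` with `s² = (s t)³ = z` central, `z, t ∈ Γ`.  If `P` is a
space of homomorphisms `Γ → k` (ANY field `k`) killing `z`, `t` and all conjugates of `s` and of
`s t` lying in `Γ`, then `dim P + orb s + orb (s t) ≤ |X|`.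
-/

set_option autoImplicit false
set_option linter.unusedSectionVars false
set_option linter.style.haveILetI false

namespace Fermat.Agent.S16

open Equiv Equiv.Perm Module
open Fermat.Agent.S24 (orb)
open Fermat.Agent.S21 (ShapiroData)

noncomputable section

variable {G : Type*} [Group G] {X : Type*} [Fintype X] [DecidableEq X] [MulAction G X]
variable {k : Type*} [Field k]
variable (D : ShapiroData G X)

/-- `φ : Γ → k` is additive. -/
def s16l_IsHom (φ : D.Γ → k) : Prop := ∀ γ δ : D.Γ, φ (γ * δ) = φ γ + φ δ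

theorem s16l_IsHom.map_one {φ : D.Γ → k} (hφ : s16l_IsHom D φ) : φ 1 = 0 := by
  have := hφ 1 1
  rw [mul_one] at this
  exact left_eq_add.mp this

theorem s16l_IsHom.map_inv {φ : D.Γ → k} (hφ : s16l_IsHom D φ) (γ : D.Γ) : φ γ⁻¹ = - φ γ := by
  have := hφ γ⁻¹ γ
  rw [inv_mul_cancel, hφ.map_one] at this
  exact eq_neg_of_add_eq_zero_left this.symm

/-- The `k`-valued cocycle attached to `φ` and `v`. -/
def s16l_coc (φ : D.Γ → k) (v : X → k) (g : G) (x : X) : k :=
  φ (D.kap g x) + v (g • x) - v x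

theorem s16l_coc_mul {φ : D.Γ → k} (hφ : s16l_IsHom D φ) (v : X → k) (g h : G) (x : X) :
    s16l_coc D φ v (g * h) x = s16l_coc D φ v g (h • x) + s16l_coc D φ v h x := by
  simp only [s16l_coc, ShapiroData.kap_mul, hφ _ _, mul_smul]
  ring

theorem s16l_coc_one {φ : D.Γ → k} (hφ : s16l_IsHom D φ) (v : X → k) (x : X) :
    s16l_coc D φ v 1 x = 0 := by
  have h := s16l_coc_mul D hφ v 1 1 x
  rw [one_mul, one_smul] at h
  exact (add_eq_left.mp h.symm)

theorem s16l_coc_inv {φ : D.Γ → k} (hφ : s16l_IsHom D φ) (v : X → k) (g : G) (x : X) :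
    s16l_coc D φ v g⁻¹ (g • x) = - s16l_coc D φ v g x := by
  have h := s16l_coc_mul D hφ v g⁻¹ g x
  rw [inv_mul_cancel, s16l_coc_one D hφ] at h
  exact eq_neg_of_add_eq_zero_left h.symm

theorem s16l_coc_add (φ ψ : D.Γ → k) (v w : X → k) (g : G) (x : X) :
    s16l_coc D (φ + ψ) (v + w) g x = s16l_coc D φ v g x + s16l_coc D ψ w g x := by
  simp only [s16l_coc, Pi.add_apply]
  ring

theorem s16l_coc_smul (c : k) (φ : D.Γ → k) (v : X → k) (g : G) (x : X) :
    s16l_coc D (c • φ) (c • v) g x = c * s16l_coc D φ v g x := by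
  simp only [s16l_coc, Pi.smul_apply, smul_eq_mul]
  ring

theorem s16l_coc_eq_zero_of_closure {φ : D.Γ → k} (hφ : s16l_IsHom D φ) (v : X → k) (S : Set G)
    (hS : Subgroup.closure S = ⊤) (h : ∀ g ∈ S, ∀ x, s16l_coc D φ v g x = 0) (g : G) (x : X) :
    s16l_coc D φ v g x = 0 := by
  let H : Subgroup G :=
    { carrier := {g | ∀ x, s16l_coc D φ v g x = 0}
      one_mem' := fun x => s16l_coc_one D hφ v x
      mul_mem' := by
        intro a b ha hb x
        rw [s16l_coc_mul D hφ, ha, hb, add_zero]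
      inv_mem' := by
        intro a ha x
        have := s16l_coc_inv D hφ v a (a⁻¹ • x)
        rw [smul_inv_smul] at this
        rw [this, ha, neg_zero] }
  have hle : Subgroup.closure S ≤ H := (Subgroup.closure_le H).mpr fun g hg => h g hg
  rw [hS] at hle
  exact hle (Subgroup.mem_top g) x

theorem s16l_eq_zero_of_coc_eq_zero {φ : D.Γ → k} (hφ : s16l_IsHom D φ) (v : X → k)
    (h : ∀ g x, s16l_coc D φ v g x = 0) : φ = 0 := by
  have hr0 : D.r D.x0 ∈ D.Γ := by rw [D.mem_iff, D.r_smul]
  funext γ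
  have h1 := h (γ : G) D.x0
  have hγ : (γ : G) • D.x0 = D.x0 := (D.mem_iff _).mp γ.2
  have hk : D.kap (γ : G) D.x0 = (⟨D.r D.x0, hr0⟩ : D.Γ)⁻¹ * γ * ⟨D.r D.x0, hr0⟩ := by
    apply Subtype.ext
    simp only [ShapiroData.kap, hγ, Subgroup.coe_mul, Subgroup.coe_inv]
  rw [s16l_coc, hγ, add_sub_cancel_right, hk, hφ, hφ, hφ.map_inv] at h1
  rw [Pi.zero_apply]
  linear_combination h1

theorem s16l_const_of_coc_eq_zero (htrans : ∀ x : X, ∃ g : G, g • D.x0 = x)
    {φ : D.Γ → k} (hφ : s16l_IsHom D φ) (v : X → k)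
    (h : ∀ g x, s16l_coc D φ v g x = 0) (x : X) : v x = v D.x0 := by
  have hφ0 := s16l_eq_zero_of_coc_eq_zero D hφ v h
  obtain ⟨g, rfl⟩ := htrans x
  have := h g D.x0
  rw [s16l_coc, hφ0, Pi.zero_apply, zero_add, sub_eq_zero] at this
  exact this

/-- The linear map `(φ, v) ↦ (c(s), c(u))`. -/
def s16l_Psi (s u : G) (P : Submodule k (D.Γ → k)) :
    (P × (X → k)) →ₗ[k] ((X → k) × (X → k)) where
  toFun p := (fun x => s16l_coc D p.1.1 p.2 s x, fun x => s16l_coc D p.1.1 p.2 u x)
  map_add' p q := by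
    refine Prod.ext ?_ ?_ <;> funext x <;>
      simp only [Prod.fst_add, Prod.snd_add, Submodule.coe_add, s16l_coc_add, Pi.add_apply]
  map_smul' c p := by
    refine Prod.ext ?_ ?_ <;> funext x <;>
      simp only [Prod.smul_fst, Prod.smul_snd, Submodule.coe_smul, s16l_coc_smul, Pi.smul_apply,
        smul_eq_mul, RingHom.id_apply]

theorem s16l_Psi_apply (s u : G) (P : Submodule k (D.Γ → k)) (p : P × (X → k)) :
    s16l_Psi D s u P p =
      (fun x => s16l_coc D p.1.1 p.2 s x, fun x => s16l_coc D p.1.1 p.2 u x) := rfl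

/-- The target space: elliptic normal form + the parabolic condition at the base point. -/
def s16l_target (σ υ : Perm X) (x0 : X) : Submodule k ((X → k) × (X → k)) where
  carrier := {p | p.1 ∈ s16l_twoSub k σ ∧ p.2 ∈ s16l_threeSub k υ ∧ p.2 x0 = p.1 x0}
  zero_mem' := ⟨Submodule.zero_mem _, Submodule.zero_mem _, rfl⟩
  add_mem' := by
    rintro p q ⟨hp1, hp2, hp3⟩ ⟨hq1, hq2, hq3⟩
    refine ⟨Submodule.add_mem _ hp1 hq1, Submodule.add_mem _ hp2 hq2, ?_⟩
    simp only [Prod.snd_add, Prod.fst_add, Pi.add_apply, hp3, hq3]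
  smul_mem' := by
    rintro c p ⟨hp1, hp2, hp3⟩
    refine ⟨Submodule.smul_mem _ c hp1, Submodule.smul_mem _ c hp2, ?_⟩
    simp only [Prod.smul_snd, Prod.smul_fst, Pi.smul_apply, hp3]

/-- Dimension of the target: one less than the product, because the functional
`(a, b) ↦ b x0 - a x0` is nonzero on `twoSub × threeSub`. -/
theorem s16l_finrank_target_le (σ υ : Perm X) (hυ : υ ^ 3 = 1) (x0 : X) (hx0 : υ x0 ≠ x0) :
    finrank k (s16l_target (k := k) σ υ x0) + 1 ≤
      finrank k (s16l_twoSub k σ) + finrank k (s16l_threeSub k υ) := by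
  classical
  -- the functional on the product
  let lam : (s16l_twoSub k σ × s16l_threeSub k υ) →ₗ[k] k :=
    { toFun := fun p => (p.2 : X → k) x0 - (p.1 : X → k) x0
      map_add' := fun p q => by
        simp only [Prod.snd_add, Prod.fst_add, Submodule.coe_add, Pi.add_apply]; ring
      map_smul' := fun c p => by
        simp only [Prod.smul_snd, Prod.smul_fst, Submodule.coe_smul, Pi.smul_apply, smul_eq_mul,
          RingHom.id_apply]; ring }
  -- the witness
  have hυ3 : ∀ x, υ (υ (υ x)) = x := by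
    intro x
    have := congrArg (fun p : Perm X => p x) hυ
    simpa [pow_succ, Perm.mul_apply] using this
  let b0 : X → k := Pi.single x0 1 - Pi.single (υ x0) 1
  have hb0 : b0 ∈ s16l_threeSub k υ := by
    refine ⟨fun x => ?_, fun x hx => ?_⟩
    · simp only [b0, Pi.sub_apply, Pi.single_apply]
      have e1 : (υ x = υ x0) ↔ (x = x0) := υ.injective.eq_iff
      have e2 : (υ (υ x) = υ x0) ↔ (υ x = x0) := υ.injective.eq_iff
      have e3 : (υ (υ x) = x0) ↔ (x = υ x0) := by
        constructor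
        · intro h
          have := congrArg υ h
          rw [hυ3] at this
          exact this
        · intro h
          rw [h, hυ3]
      simp only [e1, e2, e3]
      split_ifs <;> ring
    · simp only [b0, Pi.sub_apply, Pi.single_apply]
      have h1 : ¬ x = x0 := by
        rintro rfl
        exact hx0 hx
      have h2 : ¬ x = υ x0 := by
        rintro rfl
        exact hx0 (υ.injective hx)
      rw [if_neg h1, if_neg h2, sub_zero]
  have hlam : lam (0, ⟨b0, hb0⟩) = 1 := by
    show b0 x0 - (0 : X → k) x0 = 1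
    simp only [b0, Pi.sub_apply, Pi.single_apply, Pi.zero_apply, sub_zero]
    rw [if_neg (Ne.symm hx0), sub_zero]
    simp
  have hsurj : Function.Surjective lam := by
    intro c
    refine ⟨c • (0, ⟨b0, hb0⟩), ?_⟩
    rw [map_smul, hlam, smul_eq_mul, mul_one]
  -- the target injects into the kernel of lam
  let j : s16l_target (k := k) σ υ x0 →ₗ[k] LinearMap.ker lam :=
    { toFun := fun p => ⟨(⟨p.1.1, p.2.1⟩, ⟨p.1.2, p.2.2.1⟩), by
        rw [LinearMap.mem_ker]
        show p.1.2 x0 - p.1.1 x0 = 0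
        rw [p.2.2.2, sub_self]⟩
      map_add' := fun p q => rfl
      map_smul' := fun c p => rfl }
  have hj : Function.Injective j := by
    intro p q hpq
    apply Subtype.ext
    have h1 := congrArg (fun w : LinearMap.ker lam => ((w.1.1 : X → k), (w.1.2 : X → k))) hpq
    exact Prod.ext (congrArg Prod.fst h1) (congrArg Prod.snd h1)
  have h1 := LinearMap.finrank_le_finrank_of_injective hj
  have h2 := lam.finrank_range_add_finrank_ker
  rw [LinearMap.range_eq_top.mpr hsurj, finrank_top, Module.finrank_self, Module.finrank_prod] at h2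
  omega

/-- **Shapiro bound, any field.** -/
theorem s16l_finrank_le (htrans : ∀ x : X, ∃ g : G, g • D.x0 = x)
    (s t : G) (hgen : Subgroup.closure ({s, t} : Set G) = ⊤)
    (z : G) (hz : ∀ g : G, g * z = z * g) (hzΓ : z ∈ D.Γ) (hs : s ^ 2 = z) (hu : (s * t) ^ 3 = z)
    (htΓ : t ∈ D.Γ) (hux0 : (s * t) • D.x0 ≠ D.x0)
    (P : Submodule k (D.Γ → k)) (hPhom : ∀ φ ∈ P, s16l_IsHom D φ)
    (hPz : ∀ φ ∈ P, φ ⟨z, hzΓ⟩ = 0)
    (hPs : ∀ φ ∈ P, ∀ (g : G) (h : g⁻¹ * s * g ∈ D.Γ), φ ⟨g⁻¹ * s * g, h⟩ = 0)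
    (hPu : ∀ φ ∈ P, ∀ (g : G) (h : g⁻¹ * (s * t) * g ∈ D.Γ), φ ⟨g⁻¹ * (s * t) * g, h⟩ = 0)
    (hPt : ∀ φ ∈ P, φ ⟨t, htΓ⟩ = 0) :
    Module.Finite k P ∧
      finrank k P + orb (MulAction.toPerm s : Perm X) + orb (MulAction.toPerm (s * t) : Perm X) ≤
        Fintype.card X := by
  classical
  set u := s * t with hu_def
  have hzX : ∀ x : X, z • x = x := by
    intro x
    conv_lhs => rw [← D.r_smul x]
    rw [← mul_smul, ← hz, mul_smul, (D.mem_iff z).mp hzΓ, D.r_smul]
  have hcz : ∀ φ ∈ P, ∀ (v : X → k) (x : X), s16l_coc D φ v z x = 0 := by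
    intro φ hφ v x
    have hk : D.kap z x = ⟨z, hzΓ⟩ := by
      apply Subtype.ext
      simp only [ShapiroData.kap, hzX]
      rw [mul_assoc, ← hz, inv_mul_cancel_left]
    rw [s16l_coc, hk, hPz φ hφ, hzX, zero_add, sub_self]
  have htx0 : t • D.x0 = D.x0 := (D.mem_iff t).mp htΓ
  have hσ2 : (MulAction.toPerm s : Perm X) ^ 2 = 1 := by
    ext x
    have : (MulAction.toPerm s : Perm X) ^ 2 = MulAction.toPerm (s ^ 2) :=
      (map_pow (MulAction.toPermHom G X) s 2).symm
    rw [this, hs]
    exact hzX x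
  have hυ3 : (MulAction.toPerm u : Perm X) ^ 3 = 1 := by
    ext x
    have : (MulAction.toPerm u : Perm X) ^ 3 = MulAction.toPerm (u ^ 3) :=
      (map_pow (MulAction.toPermHom G X) u 3).symm
    rw [this, hu]
    exact hzX x
  -- image in the target
  have himage : LinearMap.range (s16l_Psi D s u P) ≤
      s16l_target (k := k) (MulAction.toPerm s) (MulAction.toPerm u) D.x0 := by
    rintro _ ⟨p, rfl⟩
    obtain ⟨⟨φ, hφ⟩, v⟩ := p
    have hφh := hPhom φ hφ
    rw [s16l_Psi_apply]
    refine ⟨⟨fun x => ?_, fun x hx => ?_⟩, ⟨fun x => ?_, fun x hx => ?_⟩, ?_⟩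
    · show s16l_coc D φ v s (s • x) = - s16l_coc D φ v s x
      have h := s16l_coc_mul D hφh v s s x
      rw [← pow_two, hs, hcz φ hφ] at h
      exact eq_neg_of_add_eq_zero_left h.symm
    · have hx' : s • x = x := hx
      show s16l_coc D φ v s x = 0
      have hmem : (D.r x)⁻¹ * s * D.r x ∈ D.Γ := by
        have := (D.kap s x).2
        simpa only [ShapiroData.kap, hx'] using this
      have hk : D.kap s x = ⟨(D.r x)⁻¹ * s * D.r x, hmem⟩ := by
        apply Subtype.ext
        simp only [ShapiroData.kap, hx']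
      rw [s16l_coc, hk, hPs φ hφ _ hmem, hx', zero_add, sub_self]
    · show s16l_coc D φ v u x + s16l_coc D φ v u (u • x) + s16l_coc D φ v u (u • (u • x)) = 0
      have h2 := s16l_coc_mul D hφh v (u * u) u x
      have h3 : u * u * u = z := by rw [← hu, pow_succ, pow_two]
      rw [h3, hcz φ hφ] at h2
      have h4 := s16l_coc_mul D hφh v u u (u • x)
      rw [h4] at h2
      linear_combination -h2
    · have hx' : u • x = x := hx
      show s16l_coc D φ v u x = 0
      have hmem : (D.r x)⁻¹ * u * D.r x ∈ D.Γ := by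
        have := (D.kap u x).2
        simpa only [ShapiroData.kap, hx'] using this
      have hk : D.kap u x = ⟨(D.r x)⁻¹ * u * D.r x, hmem⟩ := by
        apply Subtype.ext
        simp only [ShapiroData.kap, hx']
      rw [s16l_coc, hk, hPu φ hφ _ hmem, hx', zero_add, sub_self]
    · show s16l_coc D φ v u D.x0 = s16l_coc D φ v s D.x0
      have h := s16l_coc_mul D hφh v s t D.x0
      rw [htx0] at h
      have hr0 : D.r D.x0 ∈ D.Γ := by rw [D.mem_iff, D.r_smul]
      have hk : D.kap t D.x0 = (⟨D.r D.x0, hr0⟩ : D.Γ)⁻¹ * ⟨t, htΓ⟩ * ⟨D.r D.x0, hr0⟩ := by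
        apply Subtype.ext
        simp only [ShapiroData.kap, htx0, Subgroup.coe_mul, Subgroup.coe_inv]
      have ht0 : s16l_coc D φ v t D.x0 = 0 := by
        rw [s16l_coc, htx0, add_sub_cancel_right, hk, hφh, hφh, hφh.map_inv, hPt φ hφ]
        ring
      rw [ht0, add_zero] at h
      exact h
  -- the kernel
  have hker : ∀ p : P × (X → k), s16l_Psi D s u P p = 0 →
      ((p.1 : D.Γ → k) = 0 ∧ ∀ x, p.2 x = p.2 D.x0) := by
    intro p hp
    have hφh := hPhom p.1.1 p.1.2
    rw [s16l_Psi_apply, Prod.mk_eq_zero] at hp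
    have hS : ∀ g ∈ ({s, t} : Set G), ∀ x, s16l_coc D p.1.1 p.2 g x = 0 := by
      intro g hg x
      rcases hg with rfl | rfl
      · exact congrFun hp.1 x
      · have h2 := s16l_coc_mul D hφh p.2 s g x
        have h3 : s16l_coc D p.1.1 p.2 (s * g) x = 0 := congrFun hp.2 x
        have h4 : s16l_coc D p.1.1 p.2 s (g • x) = 0 := congrFun hp.1 (g • x)
        rw [h3, h4, zero_add] at h2
        exact h2.symm
    have hall := s16l_coc_eq_zero_of_closure D hφh p.2 _ hgen hS
    exact ⟨s16l_eq_zero_of_coc_eq_zero D hφh _ hall,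
      s16l_const_of_coc_eq_zero D htrans hφh _ hall⟩
  have hfin : Module.Finite k P := by
    let j : P →ₗ[k] ((X → k) × (X → k)) := (s16l_Psi D s u P) ∘ₗ LinearMap.inl k P (X → k)
    refine Module.Finite.of_injective j ?_
    rw [← LinearMap.ker_eq_bot, LinearMap.ker_eq_bot']
    intro φ hφ
    have := (hker (φ, 0) hφ).1
    exact Subtype.ext this
  refine ⟨hfin, ?_⟩
  have hk1 : finrank k (LinearMap.ker (s16l_Psi D s u P)) ≤ 1 := by
    let w : P × (X → k) := (0, fun _ => 1)
    have hw : w ≠ 0 := by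
      intro h
      have h2 : w.2 D.x0 = 0 := by rw [h]; rfl
      exact one_ne_zero h2
    have hle : LinearMap.ker (s16l_Psi D s u P) ≤ Submodule.span k {w} := by
      intro p hp
      obtain ⟨h1, h2⟩ := hker p hp
      have : p = (p.2 D.x0) • w := by
        refine Prod.ext (Subtype.ext ?_) ?_
        · simp only [w, Prod.smul_fst, smul_zero, Submodule.coe_zero]
          exact h1
        · funext x
          simp only [w, Prod.smul_snd, Pi.smul_apply, smul_eq_mul, mul_one]
          exact h2 x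
      rw [this]
      exact Submodule.smul_mem _ _ (Submodule.mem_span_singleton_self w)
    have h1 := Submodule.finrank_mono hle
    rw [finrank_span_singleton hw] at h1
    exact h1
  have hrn := (s16l_Psi D s u P).finrank_range_add_finrank_ker
  rw [Module.finrank_prod, Module.finrank_fintype_fun_eq_card] at hrn
  have hle := Submodule.finrank_mono himage
  have htar := s16l_finrank_target_le (k := k) (MulAction.toPerm s : Perm X) (MulAction.toPerm u)
    hυ3 D.x0 hux0
  have h2 := s16l_finrank_twoSub_le (k := k) hσ2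
  have h3 := s16l_finrank_threeSub_le (k := k) hυ3
  omega

end

end Fermat.Agent.S16
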