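import Mathlib
import Fermat.Agent.S20
import Fermat.Agent.S21.Upper
import Fermat.Agent.S16.Low.ShapiroK

/-!
# S16 (LOW, L1): the mod-`ℓ` count for `Γ₀(p)`

For a prime `p` and ANY field `k`, a space `P` of additive functions `Γ₀(p) → k` that vanish on
all `γ` with `(tr γ)² ≤ 4` (i.e. `± 1`, the parabolic and the elliptic elements) has
`dim_k P ≤ dim_ℂ parabolicHoms ℂ Γ₀(p) ℂ = 2 g(X₀(p))`.
-/

set_option autoImplicit false
set_option linter.unusedSectionVars false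
set_option linter.style.haveILetI false

namespace Fermat.Agent.S16

open Equiv Equiv.Perm Module CongruenceSubgroup Matrix.SpecialLinearGroup
open Fermat.Agent.S24 (orb matS matT matST P1)
open scoped MatrixGroups

/-- `Γ₀(p)` has two cusps. -/
theorem s16l_cuspCount_prime (p : ℕ) [hp : Fact p.Prime] : ModularCurve.cuspCount p = 2 := by
  unfold ModularCurve.cuspCount
  rw [Nat.Prime.divisors hp.out, Finset.sum_pair hp.out.one_lt.ne]
  simp [Nat.div_self hp.out.pos]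

theorem s16l_trace_conj (g h : SL(2, ℤ)) :
    ((g⁻¹ * h * g : SL(2, ℤ)) : Matrix (Fin 2) (Fin 2) ℤ).trace =
      (h : Matrix (Fin 2) (Fin 2) ℤ).trace := by
  rw [Matrix.SpecialLinearGroup.coe_mul, Matrix.trace_mul_comm,
    ← Matrix.SpecialLinearGroup.coe_mul, mul_inv_cancel_left]

theorem s16l_trace_matS : ((matS : SL(2, ℤ)) : Matrix (Fin 2) (Fin 2) ℤ).trace = 0 := by
  show (!![0, -1; 1, 0] : Matrix (Fin 2) (Fin 2) ℤ).trace = 0
  rw [Matrix.trace_fin_two_of]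
  norm_num

theorem s16l_trace_matST :
    ((matS * matT : SL(2, ℤ)) : Matrix (Fin 2) (Fin 2) ℤ).trace = 1 := by
  rw [← Fermat.Agent.S24.matST_eq]
  show (!![0, -1; 1, 1] : Matrix (Fin 2) (Fin 2) ℤ).trace = 1
  rw [Matrix.trace_fin_two_of]
  norm_num

theorem s16l_trace_matT : ((matT : SL(2, ℤ)) : Matrix (Fin 2) (Fin 2) ℤ).trace = 2 := by
  show (!![1, 1; 0, 1] : Matrix (Fin 2) (Fin 2) ℤ).trace = 2
  rw [Matrix.trace_fin_two_of]
  norm_num

theorem s16l_matT_mem (N : ℕ) : matT ∈ Gamma0 N := by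
  rw [Gamma0_mem]
  show (((!![1, 1; 0, 1] : Matrix (Fin 2) (Fin 2) ℤ) 1 0 : ℤ) : ZMod N) = 0
  simp

/-- `S T` moves the base point of `P¹(ℤ/p)`. -/
theorem s16l_matST_smul_base_ne (p : ℕ) [hp : Fact p.Prime] :
    (matS * matT) • P1.base (ZMod p) ≠ P1.base (ZMod p) := by
  intro h
  have hmem : matS * matT ∈ MulAction.stabilizer SL(2, ℤ) (P1.base (ZMod p)) :=
    MulAction.mem_stabilizer_iff.mpr h
  rw [Fermat.Agent.S24.stabilizer_base, ← Fermat.Agent.S24.matST_eq, Gamma0_mem] at hmem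
  have h1 : (((!![0, -1; 1, 1] : Matrix (Fin 2) (Fin 2) ℤ) 1 0 : ℤ) : ZMod p) = 0 := hmem
  simp at h1

/-- **Combinatorial count**: `|P¹(ℤ/p)| - orb S - orb ST = 2 g`. -/
theorem s16l_card_sub_orb (p : ℕ) [hp : Fact p.Prime] [Fintype (P1 (ZMod p))] :
    (Fintype.card (P1 (ZMod p)) : ℤ)
      - orb (MulAction.toPerm matS : Perm (P1 (ZMod p)))
      - orb (MulAction.toPerm (matS * matT) : Perm (P1 (ZMod p)))
      = 2 * (finrank ℂ (CuspForm (Gamma0 p) 2) : ℤ) := by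
  haveI : NeZero p := ⟨hp.out.ne_zero⟩
  set d : ℤ := (Nat.card (P1 (ZMod p)) : ℤ)
      - orb (MulAction.toPerm matS : Perm (P1 (ZMod p)))
      - orb (MulAction.toPerm matST : Perm (P1 (ZMod p)))
      - orb (MulAction.toPerm matT : Perm (P1 (ZMod p))) with hd
  obtain ⟨h0, hev, hg⟩ := Fermat.Agent.S24.comb_main_P1 p d hd
  rw [Fermat.Agent.S24.toNat_div_two_cast d h0 hev, ← Fermat.Agent.S20.result p] at hg
  have hT : orb (MulAction.toPerm matT : Perm (P1 (ZMod p))) = 2 := by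
    rw [Fermat.Agent.S24.orb_matT, s16l_cuspCount_prime]
  have hcard : Nat.card (P1 (ZMod p)) = Fintype.card (P1 (ZMod p)) := Nat.card_eq_fintype_card
  have hq : ((d + 2 : ℤ) : ℚ) = ((2 * (finrank ℂ (CuspForm (Gamma0 p) 2) : ℤ) : ℤ) : ℚ) := by
    push_cast
    linarith
  have hz : d + 2 = 2 * (finrank ℂ (CuspForm (Gamma0 p) 2) : ℤ) := by exact_mod_cast hq
  rw [← Fermat.Agent.S24.matST_eq, ← hz, hd, hT, hcard]
  push_cast
  ring

/-- **The mod-`ℓ` count** (any field `k`). -/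
theorem s16l_gamma0_finrank_le (p : ℕ) [hp : Fact p.Prime] {k : Type*} [Field k]
    (P : Submodule k (Gamma0 p → k))
    (hPhom : ∀ φ ∈ P, ∀ γ δ : Gamma0 p, φ (γ * δ) = φ γ + φ δ)
    (hPtr : ∀ φ ∈ P, ∀ γ : Gamma0 p,
      (((γ : SL(2, ℤ)) : Matrix (Fin 2) (Fin 2) ℤ).trace) ^ 2 ≤ 4 → φ γ = 0) :
    Module.Finite k P ∧
      finrank k P ≤ finrank ℂ (ModularCurve.Period.parabolicHoms ℂ (Gamma0 p) ℂ) := by
  classical
  haveI : NeZero p := ⟨hp.out.ne_zero⟩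
  haveI : Fintype (P1 (ZMod p)) := Fintype.ofFinite _
  have hgen : Subgroup.closure ({matS, matT} : Set SL(2, ℤ)) = ⊤ := by
    rw [Fermat.Agent.S24.matS_eq, Fermat.Agent.S24.matT_eq, SpecialLinearGroup.SL2Z_generators]
  have hz : ∀ g : SL(2, ℤ), g * (-1) = (-1) * g := by
    intro g
    rw [mul_neg, mul_one, neg_mul, one_mul]
  obtain ⟨hfin, hle⟩ := s16l_finrank_le (k := k) (Fermat.Agent.S21.gamma0Data p)
    (fun x => Fermat.Agent.S24.exists_smul_base_eq p x) matS matT hgen (-1) hz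
    (Fermat.Agent.S21.parDim_neg_one_mem_Gamma0 p) Fermat.Agent.S21.parDim_matS_sq
    Fermat.Agent.S21.parDim_matST_cube (s16l_matT_mem p) (s16l_matST_smul_base_ne p) P
    hPhom
    (fun φ hφ => hPtr φ hφ _ (by
      show (((-1 : SL(2, ℤ)) : Matrix (Fin 2) (Fin 2) ℤ).trace) ^ 2 ≤ 4
      simp))
    (fun φ hφ g h => hPtr φ hφ _ (by
      show (((g⁻¹ * matS * g : SL(2, ℤ)) : Matrix (Fin 2) (Fin 2) ℤ).trace) ^ 2 ≤ 4
      rw [s16l_trace_conj, s16l_trace_matS]; norm_num))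
    (fun φ hφ g h => hPtr φ hφ _ (by
      show (((g⁻¹ * (matS * matT) * g : SL(2, ℤ)) : Matrix (Fin 2) (Fin 2) ℤ).trace) ^ 2 ≤ 4
      rw [s16l_trace_conj, s16l_trace_matST]; norm_num))
    (fun φ hφ => hPtr φ hφ _ (by
      show (((matT : SL(2, ℤ)) : Matrix (Fin 2) (Fin 2) ℤ).trace) ^ 2 ≤ 4
      rw [s16l_trace_matT]; norm_num))
  refine ⟨hfin, ?_⟩
  have hcount := s16l_card_sub_orb p
  have h2 := Fermat.Agent.S21.dimCount_two_mul_le p
    (Fermat.Agent.S21.periodHomPair_injective p) Fermat.Agent.S21.range_periodHomPair_le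
  have hle' : finrank k P + orb (MulAction.toPerm matS : Perm (P1 (ZMod p)))
      + orb (MulAction.toPerm (matS * matT) : Perm (P1 (ZMod p))) ≤
      Fintype.card (P1 (ZMod p)) := hle
  omega

/-- The `k`-space of additive functions `Γ₀(p) → k` vanishing on all `γ` with `(tr γ)² ≤ 4`. -/
def s16l_parEllSub (p : ℕ) (k : Type*) [Field k] : Submodule k (Gamma0 p → k) where
  carrier := {φ | (∀ γ δ : Gamma0 p, φ (γ * δ) = φ γ + φ δ) ∧
    ∀ γ : Gamma0 p, (((γ : SL(2, ℤ)) : Matrix (Fin 2) (Fin 2) ℤ).trace) ^ 2 ≤ 4 → φ γ = 0}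
  add_mem' := by
    rintro φ ψ ⟨h1, h2⟩ ⟨h3, h4⟩
    refine ⟨fun γ δ => ?_, fun γ hγ => ?_⟩
    · simp only [Pi.add_apply, h1, h3]; ring
    · simp only [Pi.add_apply, h2 γ hγ, h4 γ hγ, add_zero]
  zero_mem' := ⟨fun _ _ => by simp, fun _ _ => rfl⟩
  smul_mem' := by
    rintro c φ ⟨h1, h2⟩
    refine ⟨fun γ δ => ?_, fun γ hγ => ?_⟩
    · simp only [Pi.smul_apply, h1, smul_add]
    · simp only [Pi.smul_apply, h2 γ hγ, smul_zero]

theorem s16l_finrank_parEllSub_le (p : ℕ) [Fact p.Prime] (k : Type*) [Field k] :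
    Module.Finite k (s16l_parEllSub p k) ∧
      finrank k (s16l_parEllSub p k) ≤
        finrank ℂ (ModularCurve.Period.parabolicHoms ℂ (Gamma0 p) ℂ) :=
  s16l_gamma0_finrank_le p (s16l_parEllSub p k) (fun _ hφ => hφ.1) (fun _ hφ => hφ.2)

/-- **The mod-`ℓ` count, cardinality form**: for every prime `ℓ` and every predicate `Q` on
`Hom(Γ₀(p), ℤ/ℓ)` forcing vanishing on `(tr γ)² ≤ 4`, there are at most `ℓ ^ r` homs with `Q`,
`r = dim_ℂ parabolicHoms ℂ Γ₀(p) ℂ`. -/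
theorem s16l_card_le (p ℓ : ℕ) [Fact p.Prime] [hℓ : Fact ℓ.Prime]
    (Q : (Additive (Gamma0 p) →+ ZMod ℓ) → Prop)
    (hQ : ∀ φ, Q φ → ∀ γ : Gamma0 p,
      (((γ : SL(2, ℤ)) : Matrix (Fin 2) (Fin 2) ℤ).trace) ^ 2 ≤ 4 → φ (Additive.ofMul γ) = 0) :
    Nat.card {φ : Additive (Gamma0 p) →+ ZMod ℓ // Q φ} ≤
      ℓ ^ finrank ℂ (ModularCurve.Period.parabolicHoms ℂ (Gamma0 p) ℂ) := by
  obtain ⟨hfin, hle⟩ := s16l_finrank_parEllSub_le p (ZMod ℓ)
  haveI : Finite (s16l_parEllSub p (ZMod ℓ)) := Module.finite_of_finite (ZMod ℓ)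
  have hcard : Nat.card (s16l_parEllSub p (ZMod ℓ)) =
      ℓ ^ finrank (ZMod ℓ) (s16l_parEllSub p (ZMod ℓ)) := by
    rw [Module.natCard_eq_pow_finrank (K := ZMod ℓ), Nat.card_zmod]
  let j : {φ : Additive (Gamma0 p) →+ ZMod ℓ // Q φ} → s16l_parEllSub p (ZMod ℓ) := fun φ =>
    ⟨fun γ => φ.1 (Additive.ofMul γ), fun γ δ => by
      show φ.1 (Additive.ofMul (γ * δ)) = _
      rw [ofMul_mul, map_add], fun γ hγ => hQ φ.1 φ.2 γ hγ⟩
  have hj : Function.Injective j := by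
    rintro ⟨φ, hφ⟩ ⟨ψ, hψ⟩ h
    apply Subtype.ext
    ext γ
    have := congrFun (congrArg Subtype.val h) (Additive.toMul γ)
    exact this
  calc Nat.card {φ : Additive (Gamma0 p) →+ ZMod ℓ // Q φ}
      ≤ Nat.card (s16l_parEllSub p (ZMod ℓ)) := Nat.card_le_card_of_injective j hj
    _ = ℓ ^ finrank (ZMod ℓ) (s16l_parEllSub p (ZMod ℓ)) := hcard
    _ ≤ _ := Nat.pow_le_pow_right hℓ.out.pos hle

end Fermat.Agent.S16
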