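import Mathlib
import Fermat.Agent.S16.Low.Gamma0Bound

/-!
# S16 (LOW, L1): the count over `ℤ/n`

Dévissage at the level of cardinalities: for any additive group `G` and kill-set `S`, with
`X_A := {φ : G →+ A | φ kills S}`, an exact sequence `0 → A → B → C` gives
`|X_B| ≤ |X_C| · |X_A|`.  Hence `|X_{ℤ/n}| ≤ n ^ r` follows from `|X_{ℤ/ℓ}| ≤ ℓ ^ r` for the primes.
-/

set_option autoImplicit false
set_option linter.unusedSectionVars false
set_option linter.style.haveILetI false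

namespace Fermat.Agent.S16

open Module CongruenceSubgroup Matrix.SpecialLinearGroup
open scoped MatrixGroups

section generic

variable {G : Type*} [AddGroup G]

/-- Homs `G →+ A` killing the set `S`. -/
def s16l_kill (S : Set G) (A : Type*) [AddCommGroup A] : Set (G →+ A) := {φ | ∀ g ∈ S, φ g = 0}

theorem s16l_exists_lift {A B : Type*} [AddCommGroup A] [AddCommGroup B] (ι : A →+ B)
    (hι : Function.Injective ι) (χ : G →+ B) (h : ∀ g, ∃ a, ι a = χ g) :
    ∃ ψ : G →+ A, ∀ g, ι (ψ g) = χ g := by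
  choose f hf using h
  exact ⟨AddMonoidHom.mk' f (fun x y => hι (by rw [map_add, hf, hf, hf, map_add])), hf⟩

/-- **Dévissage of the count.** -/
theorem s16l_kill_ncard_le {A B C : Type*} [AddCommGroup A] [AddCommGroup B] [AddCommGroup C]
    (S : Set G) (ι : A →+ B) (π : B →+ C) (hι : Function.Injective ι)
    (hex : ∀ b, π b = 0 → ∃ a, ι a = b)
    (hA : (s16l_kill S A).Finite) (hC : (s16l_kill S C).Finite) :
    (s16l_kill S B).Finite ∧
      (s16l_kill S B).ncard ≤ (s16l_kill S C).ncard * (s16l_kill S A).ncard := by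
  classical
  have hbase : ∀ c : G →+ C, ∃ b : G →+ B, (∃ ψ ∈ s16l_kill S B, π.comp ψ = c) →
      (b ∈ s16l_kill S B ∧ π.comp b = c) := by
    intro c
    by_cases h : ∃ ψ ∈ s16l_kill S B, π.comp ψ = c
    · obtain ⟨ψ, h1, h2⟩ := h
      exact ⟨ψ, fun _ => ⟨h1, h2⟩⟩
    · exact ⟨0, fun h' => absurd h' h⟩
  choose base hbase using hbase
  have hlift : ∀ χ : G →+ B, ∃ f : G → A, (∀ g, π (χ g) = 0) → ∀ g, ι (f g) = χ g := by
    intro χ
    by_cases h : ∀ g, π (χ g) = 0
    · choose f hf using fun g => hex (χ g) (h g)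
      exact ⟨f, fun _ => hf⟩
    · exact ⟨0, fun h' => absurd h' h⟩
  choose lift hlift using hlift
  let F : (G →+ B) → (G →+ C) × (G → A) := fun φ => (π.comp φ, lift (φ - base (π.comp φ)))
  -- key facts for `φ ∈ X_B`
  have hkey : ∀ φ ∈ s16l_kill S B,
      (base (π.comp φ) ∈ s16l_kill S B) ∧
        ∀ g, ι (lift (φ - base (π.comp φ)) g) = φ g - base (π.comp φ) g := by
    intro φ hφ
    obtain ⟨hb1, hb2⟩ := hbase (π.comp φ) ⟨φ, hφ, rfl⟩
    refine ⟨hb1, ?_⟩
    have hzero : ∀ g, π ((φ - base (π.comp φ)) g) = 0 := by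
      intro g
      have := DFunLike.congr_fun hb2 g
      simp only [AddMonoidHom.comp_apply] at this
      rw [AddMonoidHom.sub_apply, map_sub, this, sub_self]
    intro g
    rw [hlift _ hzero g, AddMonoidHom.sub_apply]
  have hinj : Set.InjOn F (s16l_kill S B) := by
    intro φ hφ φ' hφ' hFF
    have h1 : π.comp φ = π.comp φ' := congrArg Prod.fst hFF
    have h2 : lift (φ - base (π.comp φ)) = lift (φ' - base (π.comp φ')) := congrArg Prod.snd hFF
    ext g
    have e1 := (hkey φ hφ).2 g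
    have e2 := (hkey φ' hφ').2 g
    rw [h2, e2, ← h1] at e1
    exact (sub_left_inj.mp e1).symm
  have himg : F '' (s16l_kill S B) ⊆
      (s16l_kill S C) ×ˢ ((fun ψ : G →+ A => (ψ : G → A)) '' (s16l_kill S A)) := by
    rintro _ ⟨φ, hφ, rfl⟩
    refine ⟨?_, ?_⟩
    · intro g hg
      show π (φ g) = 0
      rw [hφ g hg, map_zero]
    · obtain ⟨hb, hl⟩ := hkey φ hφ
      obtain ⟨ψ, hψ⟩ := s16l_exists_lift ι hι (φ - base (π.comp φ))
        (fun g => ⟨lift (φ - base (π.comp φ)) g, by rw [hl g, AddMonoidHom.sub_apply]⟩)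
      refine ⟨ψ, ?_, ?_⟩
      · intro g hg
        apply hι
        rw [hψ g, map_zero, AddMonoidHom.sub_apply, hφ g hg, hb g hg, sub_self]
      · funext g
        apply hι
        rw [hψ g, hl g, AddMonoidHom.sub_apply]
  have hfin : ((s16l_kill S C) ×ˢ
      ((fun ψ : G →+ A => (ψ : G → A)) '' (s16l_kill S A))).Finite := hC.prod (hA.image _)
  refine ⟨Set.Finite.of_finite_image (hfin.subset himg) hinj, ?_⟩
  calc (s16l_kill S B).ncard = (F '' (s16l_kill S B)).ncard := hinj.ncard_image.symm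
    _ ≤ ((s16l_kill S C) ×ˢ
          ((fun ψ : G →+ A => (ψ : G → A)) '' (s16l_kill S A))).ncard :=
        Set.ncard_le_ncard himg hfin
    _ = (s16l_kill S C).ncard *
          ((fun ψ : G →+ A => (ψ : G → A)) '' (s16l_kill S A)).ncard := Set.ncard_prod
    _ ≤ (s16l_kill S C).ncard * (s16l_kill S A).ncard :=
        Nat.mul_le_mul_left _ (Set.ncard_image_le hA)

/-- Multiplication by `l`, `ℤ/m → ℤ/(l m)`. -/
def s16l_zmIota (l m : ℕ) : ZMod m →+ ZMod (l * m) :=
  ZMod.lift m ⟨(AddMonoidHom.mulLeft ((l : ℕ) : ZMod (l * m))).comp (Int.castAddHom (ZMod (l * m))), by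
    show ((l : ℕ) : ZMod (l * m)) * (((m : ℕ) : ℤ) : ZMod (l * m)) = 0
    rw [Int.cast_natCast, ← Nat.cast_mul, ZMod.natCast_self]⟩

theorem s16l_zmIota_intCast (l m : ℕ) (z : ℤ) :
    s16l_zmIota l m (z : ZMod m) = ((l : ℕ) : ZMod (l * m)) * (z : ZMod (l * m)) := by
  unfold s16l_zmIota
  rw [ZMod.lift_coe]
  rfl

theorem s16l_zmIota_injective (l m : ℕ) [NeZero l] [NeZero m] :
    Function.Injective (s16l_zmIota l m) := by
  unfold s16l_zmIota
  rw [ZMod.lift_injective]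
  intro z hz
  have hz' : ((l : ℕ) : ZMod (l * m)) * (z : ZMod (l * m)) = 0 := hz
  rw [← Int.cast_natCast, ← Int.cast_mul, ZMod.intCast_zmod_eq_zero_iff_dvd] at hz'
  rw [ZMod.intCast_zmod_eq_zero_iff_dvd]
  push_cast at hz'
  exact (mul_dvd_mul_iff_left (by exact_mod_cast NeZero.ne l)).mp hz'

theorem s16l_zmIota_exact (l m : ℕ) [NeZero l] [NeZero m] (b : ZMod (l * m))
    (hb : (ZMod.castHom (dvd_mul_right l m) (ZMod l)) b = 0) : ∃ a, s16l_zmIota l m a = b := by
  obtain ⟨z, rfl⟩ := ZMod.intCast_surjective b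
  rw [map_intCast, ZMod.intCast_zmod_eq_zero_iff_dvd] at hb
  obtain ⟨w, rfl⟩ := hb
  refine ⟨(w : ZMod m), ?_⟩
  rw [s16l_zmIota_intCast]
  push_cast
  rfl

theorem s16l_kill_zmod_mul {S : Set G} (l m : ℕ) [NeZero l] [NeZero m]
    (hl : (s16l_kill S (ZMod l)).Finite) (hm : (s16l_kill S (ZMod m)).Finite) :
    (s16l_kill S (ZMod (l * m))).Finite ∧
      (s16l_kill S (ZMod (l * m))).ncard ≤
        (s16l_kill S (ZMod l)).ncard * (s16l_kill S (ZMod m)).ncard :=
  s16l_kill_ncard_le S (s16l_zmIota l m) (ZMod.castHom (dvd_mul_right l m) (ZMod l)).toAddMonoidHom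
    (s16l_zmIota_injective l m) (s16l_zmIota_exact l m) hm hl

/-- **From primes to all moduli.** -/
theorem s16l_kill_zmod_le {S : Set G} (r : ℕ)
    (hprime : ∀ ℓ : ℕ, ℓ.Prime →
      (s16l_kill S (ZMod ℓ)).Finite ∧ (s16l_kill S (ZMod ℓ)).ncard ≤ ℓ ^ r) :
    ∀ n : ℕ, n ≠ 0 → (s16l_kill S (ZMod n)).Finite ∧ (s16l_kill S (ZMod n)).ncard ≤ n ^ r := by
  intro n
  induction n using Nat.recOnMul with
  | zero => intro h; exact absurd rfl h
  | one =>
    intro _
    haveI : Subsingleton (G →+ ZMod 1) :=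
      ⟨fun f g => by ext x; exact Subsingleton.elim _ _⟩
    refine ⟨Set.toFinite _, ?_⟩
    rw [one_pow]
    exact Set.ncard_le_one_of_subsingleton _
  | prime ℓ hℓ => intro _; exact hprime ℓ hℓ
  | mul a b iha ihb =>
    intro hab
    have ha : a ≠ 0 := fun h => hab (by rw [h, zero_mul])
    have hb : b ≠ 0 := fun h => hab (by rw [h, mul_zero])
    haveI : NeZero a := ⟨ha⟩
    haveI : NeZero b := ⟨hb⟩
    obtain ⟨fa, ca⟩ := iha ha
    obtain ⟨fb, cb⟩ := ihb hb
    obtain ⟨f, c⟩ := s16l_kill_zmod_mul (S := S) a b fa fb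
    refine ⟨f, c.trans ?_⟩
    rw [mul_pow]
    exact Nat.mul_le_mul ca cb

end generic

end Fermat.Agent.S16
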