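/-
S16 stream [D] (LOW), leaf (L1-rank): on a finitely generated group `G`, the lattice of integral
homomorphisms killing a set `P` has full rank in the complex homomorphisms killing `P`, with a
saturated independent family; consequence: a pigeonhole lifting lemma for `ZMod n`-valued
homomorphisms.  Specialisation: `G = Additive (Gamma0 N)`, `P` = elements with `trace ^ 2 = 4`,
i.e. the prelude `Period.parabolicHoms`.
-/
import Mathlib
import Fermat.Prelude.Def_ModularCurve_PeriodMap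
import Fermat.Agent.S22.GammaFG

set_option autoImplicit false

namespace Fermat.Agent.S16D

section generic

variable {G : Type*} [AddGroup G]

/-- integral homs killing `P` -/
def s16r_LamZ (P : Set G) : Submodule ℤ (G →+ ℤ) where
  carrier := {f | ∀ x ∈ P, f x = 0}
  zero_mem' := fun _ _ => rfl
  add_mem' := by
    intro f g hf hg x hx
    show f x + g x = 0
    rw [hf x hx, hg x hx, add_zero]
  smul_mem' := by
    intro c f hf x hx
    show c • f x = 0
    rw [hf x hx, smul_zero]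

/-- complex homs killing `P` -/
def s16r_LamC (P : Set G) : Submodule ℂ (G →+ ℂ) where
  carrier := {f | ∀ x ∈ P, f x = 0}
  zero_mem' := fun _ _ => rfl
  add_mem' := by
    intro f g hf hg x hx
    show f x + g x = 0
    rw [hf x hx, hg x hx, add_zero]
  smul_mem' := by
    intro c f hf x hx
    show c • f x = 0
    rw [hf x hx, smul_zero]

/-- composition with the cast `ℤ → ℂ` -/
noncomputable def s16r_toC (f : G →+ ℤ) : G →+ ℂ := (Int.castAddHom ℂ).comp f

@[simp] theorem s16r_toC_apply (f : G →+ ℤ) (γ : G) : s16r_toC f γ = ((f γ : ℤ) : ℂ) := rfl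

/-- a rational-valued homomorphism on a finitely generated group has a common denominator -/
theorem s16r_exists_denom [hfg : AddGroup.FG G] (χ : G →+ ℚ) :
    ∃ D : ℕ, 0 < D ∧ ∀ γ, ∃ z : ℤ, (D : ℚ) * χ γ = z := by
  obtain ⟨S, hS, hfin⟩ := AddGroup.fg_iff.mp hfg
  classical
  let T := hfin.toFinset
  refine ⟨∏ s ∈ T, (χ s).den, Finset.prod_pos fun s _ => (χ s).den_pos, ?_⟩
  have hmem : ∀ γ ∈ AddSubgroup.closure S,
      ∃ z : ℤ, ((∏ s ∈ T, (χ s).den : ℕ) : ℚ) * χ γ = z := by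
    intro γ hγ
    induction hγ using AddSubgroup.closure_induction with
    | mem x hx =>
      have hxT : x ∈ T := hfin.mem_toFinset.mpr hx
      obtain ⟨c, hc⟩ := Finset.dvd_prod_of_mem (fun s => (χ s).den) hxT
      refine ⟨c * (χ x).num, ?_⟩
      rw [hc]
      push_cast
      have := Rat.den_mul_eq_num (χ x)
      linear_combination (c : ℚ) * this
    | zero => exact ⟨0, by simp⟩
    | add x y _ _ hx hy =>
      obtain ⟨a, ha⟩ := hx
      obtain ⟨b, hb⟩ := hy
      exact ⟨a + b, by rw [map_add, mul_add, ha, hb]; push_cast; ring⟩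
    | neg x _ hx =>
      obtain ⟨a, ha⟩ := hx
      exact ⟨-a, by rw [map_neg, mul_neg, ha]; push_cast; ring⟩
  intro γ
  exact hmem γ (hS ▸ AddSubgroup.mem_top γ)


/-- a rational-valued hom with integral values comes from an integral hom -/
theorem s16r_exists_int_hom (χ : G →+ ℚ) (h : ∀ γ, ∃ z : ℤ, χ γ = z) :
    ∃ f : G →+ ℤ, ∀ γ, ((f γ : ℤ) : ℚ) = χ γ := by
  choose z hz using h
  refine ⟨AddMonoidHom.mk' z ?_, fun γ => (hz γ).symm⟩
  intro a b
  have : ((z (a + b) : ℤ) : ℚ) = ((z a + z b : ℤ) : ℚ) := by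
    rw [← hz, map_add, hz a, hz b]; push_cast; ring
  exact_mod_cast this

/-- **Spanning.** On a finitely generated group, every complex hom killing `P` is a complex
combination of integral homs killing `P`. -/
theorem s16r_span [hfg : AddGroup.FG G] (P : Set G) (ψ : G →+ ℂ) (hψ : ψ ∈ s16r_LamC P) :
    ψ ∈ Submodule.span ℂ (s16r_toC '' (s16r_LamZ P : Set (G →+ ℤ))) := by
  classical
  obtain ⟨S, hS, hfin⟩ := AddGroup.fg_iff.mp hfg
  -- the finite-dimensional `ℚ`-subspace of `ℂ` containing all values of `ψ`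
  let V : Submodule ℚ ℂ := Submodule.span ℚ (ψ '' S)
  have hVfd : FiniteDimensional ℚ V := FiniteDimensional.span_of_finite ℚ (hfin.image ψ)
  have hval : ∀ γ, ψ γ ∈ V := by
    intro γ
    have hγ : γ ∈ AddSubgroup.closure S := hS ▸ AddSubgroup.mem_top γ
    induction hγ using AddSubgroup.closure_induction with
    | mem x hx => exact Submodule.subset_span ⟨x, hx, rfl⟩
    | zero => rw [map_zero]; exact V.zero_mem
    | add x y _ _ hx hy => rw [map_add]; exact V.add_mem hx hy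
    | neg x _ hx => rw [map_neg]; exact V.neg_mem hx
  let b := Module.finBasis ℚ V
  -- the `V`-valued hom
  let ψV : G →+ V := ψ.codRestrict V.toAddSubgroup hval
  have hψV : ∀ γ, ((ψV γ : V) : ℂ) = ψ γ := fun γ => rfl
  -- coordinates
  let χ : Fin (Module.finrank ℚ V) → (G →+ ℚ) := fun k => (b.coord k).toAddMonoidHom.comp ψV
  have hχ : ∀ k γ, χ k γ = b.repr (ψV γ) k := fun k γ => rfl
  have hsum : ∀ γ, ψ γ = ∑ k, ((χ k γ : ℚ) : ℂ) * ((b k : V) : ℂ) := by
    intro γ
    have h1 := b.sum_repr (ψV γ)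
    have h2 := congrArg (fun v : V => (v : ℂ)) h1
    simp only [Submodule.coe_sum, Submodule.coe_smul] at h2
    rw [← hψV γ, ← h2]
    refine Finset.sum_congr rfl fun k _ => ?_
    rw [hχ]
    rfl
  -- clear denominators
  have hden : ∀ k, ∃ D : ℕ, 0 < D ∧ ∀ γ, ∃ z : ℤ, (D : ℚ) * χ k γ = z := fun k => s16r_exists_denom (χ k)
  choose D hD0 hD using hden
  have hint : ∀ k, ∃ f : G →+ ℤ, ∀ γ, ((f γ : ℤ) : ℚ) = (D k : ℚ) * χ k γ := by
    intro k
    have := s16r_exists_int_hom ((D k : ℚ) • χ k) (fun γ => by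
      obtain ⟨z, hz⟩ := hD k γ
      exact ⟨z, by rw [AddMonoidHom.smul_apply, smul_eq_mul, hz]⟩)
    obtain ⟨f, hf⟩ := this
    exact ⟨f, fun γ => by rw [hf, AddMonoidHom.smul_apply, smul_eq_mul]⟩
  choose f hf using hint
  have hfP : ∀ k, f k ∈ s16r_LamZ P := by
    intro k x hx
    have h0 : ψ x = 0 := hψ x hx
    have h1 : ψV x = 0 := Subtype.ext h0
    have h2 : χ k x = 0 := by rw [hχ, h1, map_zero]; rfl
    have h3 : ((f k x : ℤ) : ℚ) = 0 := by rw [hf, h2, mul_zero]
    exact_mod_cast h3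
  have hψeq : ψ = ∑ k, (((b k : V) : ℂ) / (D k : ℂ)) • s16r_toC (f k) := by
    ext γ
    rw [hsum γ, AddMonoidHom.finsetSum_apply]
    refine Finset.sum_congr rfl fun k _ => ?_
    rw [AddMonoidHom.smul_apply, s16r_toC_apply, smul_eq_mul]
    have h1 : ((f k γ : ℤ) : ℂ) = (D k : ℂ) * ((χ k γ : ℚ) : ℂ) := by
      have := congrArg (fun q : ℚ => (q : ℂ)) (hf k γ)
      simpa using this
    rw [h1]
    have hDne : (D k : ℂ) ≠ 0 := by exact_mod_cast (hD0 k).ne'
    field_simp
  rw [hψeq]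
  refine Submodule.sum_mem _ fun k _ => Submodule.smul_mem _ _ (Submodule.subset_span ?_)
  exact ⟨f k, hfP k, rfl⟩


/-- evaluation of integral homs at a finite set of elements -/
noncomputable def s16r_ev (T : Finset G) : (G →+ ℤ) →ₗ[ℤ] (T → ℤ) where
  toFun f := fun t => f t
  map_add' _ _ := rfl
  map_smul' _ _ := rfl

theorem s16r_ev_injective {S : Set G} (hS : AddSubgroup.closure S = ⊤) (hfin : S.Finite) :
    Function.Injective (s16r_ev (G := G) hfin.toFinset) := by
  intro f g hfg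
  refine AddMonoidHom.eq_of_eqOn_dense hS fun x hx => ?_
  have := congrFun hfg ⟨x, hfin.mem_toFinset.mpr hx⟩
  exact this

/-- the lattice of integral homs killing `P` is free of finite rank -/
theorem s16r_exists_basis [hfg : AddGroup.FG G] (P : Set G) :
    ∃ k : ℕ, Nonempty (Module.Basis (Fin k) ℤ (s16r_LamZ P)) := by
  classical
  obtain ⟨S, hS, hfin⟩ := AddGroup.fg_iff.mp hfg
  have hinj := s16r_ev_injective hS hfin
  obtain ⟨k, ⟨bk⟩⟩ := Submodule.nonempty_basis_of_pid (Pi.basisFun ℤ hfin.toFinset)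
    ((s16r_LamZ P).map (s16r_ev hfin.toFinset))
  exact ⟨k, ⟨bk.map (Submodule.equivMapOfInjective _ hinj (s16r_LamZ P)).symm⟩⟩


theorem s16r_toC_zsmul (z : ℤ) (f : G →+ ℤ) : s16r_toC (z • f) = (z : ℂ) • s16r_toC f := by
  ext γ
  simp [s16r_toC]

theorem s16r_toC_sum {ι : Type*} (s : Finset ι) (f : ι → (G →+ ℤ)) :
    s16r_toC (∑ i ∈ s, f i) = ∑ i ∈ s, s16r_toC (f i) := by
  classical
  induction s using Finset.induction_on with
  | empty => ext γ; simp [s16r_toC]
  | insert a s ha ih =>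
    rw [Finset.sum_insert ha, Finset.sum_insert ha, ← ih]
    ext γ
    simp [s16r_toC]

/-- **Full rank with saturation (generic form).** -/
theorem s16r_exists_family_gen [hfg : AddGroup.FG G] (P : Set G) :
    ∃ ψ : Fin (Module.finrank ℂ (s16r_LamC P)) → (G →+ ℤ),
      (∀ i, ψ i ∈ s16r_LamZ P) ∧
      ∀ m : ℕ, 0 < m → ∀ c : Fin (Module.finrank ℂ (s16r_LamC P)) → ℤ,
        (∀ γ, (m : ℤ) ∣ ∑ i, c i * ψ i γ) → ∀ i, (m : ℤ) ∣ c i := by
  classical
  obtain ⟨k, ⟨b⟩⟩ := s16r_exists_basis P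
  set W : Submodule ℂ (G →+ ℂ) :=
    Submodule.span ℂ (Set.range fun j : Fin k => s16r_toC (b j : G →+ ℤ)) with hW
  have hWfd : FiniteDimensional ℂ W := FiniteDimensional.span_of_finite ℂ (Set.finite_range _)
  have hle : s16r_LamC P ≤ W := by
    intro ψ hψ
    have h1 := s16r_span P ψ hψ
    refine Submodule.span_le.mpr ?_ h1
    rintro _ ⟨f, hf, rfl⟩
    have hrep := b.sum_repr ⟨f, hf⟩
    have hrep' : f = ∑ j, (b.repr ⟨f, hf⟩ j) • (b j : G →+ ℤ) := by
      have := congrArg (fun v : s16r_LamZ P => (v : G →+ ℤ)) hrep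
      simp only [Submodule.coe_sum, Submodule.coe_smul] at this
      exact this.symm
    rw [hrep', s16r_toC_sum]
    refine Submodule.sum_mem _ fun j _ => ?_
    rw [s16r_toC_zsmul]
    exact Submodule.smul_mem _ _ (Submodule.subset_span ⟨j, rfl⟩)
  have hrk : Module.finrank ℂ (s16r_LamC P) ≤ k := by
    calc Module.finrank ℂ (s16r_LamC P) ≤ Module.finrank ℂ W := Submodule.finrank_mono hle
      _ ≤ Fintype.card (Fin k) := finrank_range_le_card _
      _ = k := Fintype.card_fin k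
  refine ⟨fun i => (b (Fin.castLE hrk i) : G →+ ℤ), fun i => (b (Fin.castLE hrk i)).2, ?_⟩
  intro m hm c hc i0
  -- the combination `μ` and its quotient `ν`
  set μ : s16r_LamZ P := ∑ i, c i • b (Fin.castLE hrk i) with hμ
  have hμapp : ∀ γ, (μ : G →+ ℤ) γ = ∑ i, c i * (b (Fin.castLE hrk i) : G →+ ℤ) γ := by
    intro γ
    rw [hμ]
    simp only [Submodule.coe_sum, Submodule.coe_smul, AddMonoidHom.finsetSum_apply,
      AddMonoidHom.smul_apply, smul_eq_mul]
  have hdiv : ∀ γ, (m : ℤ) ∣ (μ : G →+ ℤ) γ := fun γ => by rw [hμapp]; exact hc γ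
  have hm0 : (m : ℤ) ≠ 0 := by exact_mod_cast hm.ne'
  let ν0 : G →+ ℤ := AddMonoidHom.mk' (fun γ => (μ : G →+ ℤ) γ / (m : ℤ)) (by
    intro a b'
    show (μ : G →+ ℤ) (a + b') / (m : ℤ) = (μ : G →+ ℤ) a / (m : ℤ) + (μ : G →+ ℤ) b' / (m : ℤ)
    rw [map_add, Int.add_ediv_of_dvd_left (hdiv a)])
  have hν0 : ∀ γ, (m : ℤ) * ν0 γ = (μ : G →+ ℤ) γ := fun γ => Int.mul_ediv_cancel' (hdiv γ)
  have hν0P : ν0 ∈ s16r_LamZ P := by
    intro x hx
    have h0 : (μ : G →+ ℤ) x = 0 := μ.2 x hx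
    have := hν0 x
    rw [h0] at this
    exact (mul_eq_zero.mp this).resolve_left hm0
  have hμν : μ = (m : ℤ) • (⟨ν0, hν0P⟩ : s16r_LamZ P) := by
    apply Subtype.ext
    ext γ
    simp only [Submodule.coe_smul, AddMonoidHom.smul_apply, smul_eq_mul]
    exact (hν0 γ).symm
  have hrepr : b.repr μ (Fin.castLE hrk i0) = c i0 := by
    rw [hμ, map_sum]
    simp only [map_smul, Module.Basis.repr_self, Finsupp.coe_finsetSum, Finsupp.coe_smul,
      Finset.sum_apply, Pi.smul_apply, smul_eq_mul]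
    rw [Finset.sum_eq_single i0]
    · simp
    · intro j _ hj
      have : Fin.castLE hrk j ≠ Fin.castLE hrk i0 := fun h => hj (Fin.castLE_injective hrk h)
      simp [this]
    · intro h; exact absurd (Finset.mem_univ i0) h
  rw [← hrepr, hμν, map_smul]
  exact ⟨_, rfl⟩


/-- composition with the cast `ℤ → ZMod n` -/
noncomputable def s16r_red (n : ℕ) (f : G →+ ℤ) : G →+ ZMod n := (Int.castAddHom (ZMod n)).comp f

@[simp] theorem s16r_red_apply (n : ℕ) (f : G →+ ℤ) (γ : G) :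
    s16r_red n f γ = ((f γ : ℤ) : ZMod n) := rfl

/-- the reduction mod `n` of the integral combinations of a family -/
noncomputable def s16r_redMap (n : ℕ) {r : ℕ} (ψ : Fin r → (G →+ ℤ)) (c : Fin r → ZMod n) :
    G →+ ZMod n :=
  s16r_red n (∑ i, ((c i).cast : ℤ) • ψ i)

theorem s16r_redMap_apply (n : ℕ) [NeZero n] {r : ℕ} (ψ : Fin r → (G →+ ℤ)) (c : Fin r → ZMod n)
    (γ : G) : s16r_redMap n ψ c γ = ∑ i, c i * ((ψ i γ : ℤ) : ZMod n) := by
  simp [s16r_redMap, AddMonoidHom.finsetSum_apply]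

theorem s16r_redMap_injective (n : ℕ) [NeZero n] {r : ℕ} (ψ : Fin r → (G →+ ℤ))
    (hsat : ∀ c : Fin r → ℤ, (∀ γ, (n : ℤ) ∣ ∑ i, c i * ψ i γ) → ∀ i, (n : ℤ) ∣ c i) :
    Function.Injective (s16r_redMap n ψ) := by
  intro c d hcd
  funext i
  have key : ∀ γ, (n : ℤ) ∣ ∑ i, (((c i).cast : ℤ) - ((d i).cast : ℤ)) * ψ i γ := by
    intro γ
    have h := DFunLike.congr_fun hcd γ
    rw [s16r_redMap_apply, s16r_redMap_apply] at h
    rw [← ZMod.intCast_zmod_eq_zero_iff_dvd]
    push_cast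
    rw [← sub_eq_zero] at h
    rw [← h, ← Finset.sum_sub_distrib]
    refine Finset.sum_congr rfl fun i _ => by ring
  have h1 := hsat _ key i
  rw [← ZMod.intCast_zmod_eq_zero_iff_dvd] at h1
  push_cast at h1
  exact sub_eq_zero.mp h1

/-- **Pigeonhole lifting.** If a finite set `X` of `ZMod n`-valued homs contains the reductions of
all integral homs killing `P` and has at most `n ^ r` elements, `r = dim_ℂ Hom_P(G, ℂ)`, then every
element of `X` is the reduction of an integral hom killing `P`. -/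
theorem s16r_lift_of_card_le [hfg : AddGroup.FG G] (P : Set G) (n : ℕ) [NeZero n]
    (X : Set (G →+ ZMod n)) (hXfin : X.Finite)
    (hcard : X.ncard ≤ n ^ Module.finrank ℂ (s16r_LamC P))
    (hred : ∀ f ∈ s16r_LamZ P, s16r_red n f ∈ X) :
    ∀ φ ∈ X, ∃ f ∈ s16r_LamZ P, s16r_red n f = φ := by
  classical
  obtain ⟨ψ, hψP, hsat⟩ := s16r_exists_family_gen P
  have hinj := s16r_redMap_injective n ψ (hsat n (Nat.pos_of_ne_zero (NeZero.ne n)))
  have hmemZ : ∀ c : Fin (Module.finrank ℂ (s16r_LamC P)) → ZMod n,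
      (∑ i, ((c i).cast : ℤ) • ψ i) ∈ s16r_LamZ P :=
    fun c => Submodule.sum_mem _ fun i _ => Submodule.smul_mem _ _ (hψP i)
  have hsub : Set.range (s16r_redMap n ψ) ⊆ X := by
    rintro _ ⟨c, rfl⟩
    exact hred _ (hmemZ c)
  have hcardR : (Set.range (s16r_redMap n ψ)).ncard = n ^ Module.finrank ℂ (s16r_LamC P) := by
    rw [Set.ncard_eq_toFinset_card', Set.toFinset_range,
      Finset.card_image_of_injective _ hinj, Finset.card_univ, Fintype.card_fun, ZMod.card,
      Fintype.card_fin]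
  have heq : Set.range (s16r_redMap n ψ) = X :=
    Set.eq_of_subset_of_ncard_le hsub (by rw [hcardR]; exact hcard) hXfin
  intro φ hφ
  rw [← heq] at hφ
  obtain ⟨c, rfl⟩ := hφ
  exact ⟨_, hmemZ c, rfl⟩

end generic


section gamma

open scoped MatrixGroups
open ModularCurve.Period CongruenceSubgroup

variable (Γ : Subgroup SL(2, ℤ))

/-- the parabolic-type elements (`trace ^ 2 = 4`) of `Γ`, inside `Additive Γ` -/
def s16r_parSet : Set (Additive Γ) :=
  {x | (((Additive.toMul x : Γ) : SL(2, ℤ)) : Matrix (Fin 2) (Fin 2) ℤ).trace ^ 2 = 4}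

theorem s16r_LamZ_eq : s16r_LamZ (s16r_parSet Γ) = parabolicHoms ℤ Γ ℤ := by
  ext f
  constructor
  · intro hf γ hγ
    exact hf (Additive.ofMul γ) hγ
  · intro hf x hx
    exact hf (Additive.toMul x) hx

theorem s16r_LamC_eq : s16r_LamC (s16r_parSet Γ) = parabolicHoms ℂ Γ ℂ := by
  ext f
  constructor
  · intro hf γ hγ
    exact hf (Additive.ofMul γ) hγ
  · intro hf x hx
    exact hf (Additive.toMul x) hx

variable (N : ℕ) [NeZero N]

instance s16r_fg : AddGroup.FG (Additive (Gamma0 N)) :=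
  GroupFG.iff_add_fg.mp (Fermat.Agent.S22.Gamma0_fg N)

/-- **Full rank with saturation** for the integral parabolic homs of `Γ₀(N)`. -/
theorem s16r_exists_family :
    ∃ ψ : Fin (Module.finrank ℂ (parabolicHoms ℂ (Gamma0 N) ℂ)) → (Additive (Gamma0 N) →+ ℤ),
      (∀ i, ψ i ∈ parabolicHoms ℤ (Gamma0 N) ℤ) ∧
      ∀ m : ℕ, 0 < m → ∀ c : Fin (Module.finrank ℂ (parabolicHoms ℂ (Gamma0 N) ℂ)) → ℤ,
        (∀ γ, (m : ℤ) ∣ ∑ i, c i * ψ i γ) → ∀ i, (m : ℤ) ∣ c i := by
  have h := s16r_exists_family_gen (s16r_parSet (Gamma0 N))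
  rw [s16r_LamC_eq, s16r_LamZ_eq] at h
  exact h

/-- **Pigeonhole lifting** for `Γ₀(N)`: if a finite set `X` of `ZMod n`-valued homs contains the
reductions of all integral parabolic homs and has at most `n ^ r` elements, where
`r = dim_ℂ Hom_par(Γ₀(N), ℂ)`, then every element of `X` is the reduction mod `n` of an integral
parabolic hom. -/
theorem s16r_lift (n : ℕ) [NeZero n] (X : Set (Additive (Gamma0 N) →+ ZMod n)) (hXfin : X.Finite)
    (hcard : X.ncard ≤ n ^ Module.finrank ℂ (parabolicHoms ℂ (Gamma0 N) ℂ))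
    (hred : ∀ f ∈ parabolicHoms ℤ (Gamma0 N) ℤ, s16r_red n f ∈ X) :
    ∀ φ ∈ X, ∃ f ∈ parabolicHoms ℤ (Gamma0 N) ℤ, ∀ γ, ((f γ : ℤ) : ZMod n) = φ γ := by
  have h := s16r_lift_of_card_le (s16r_parSet (Gamma0 N)) n X hXfin
    (by rw [s16r_LamC_eq]; exact hcard) (by rw [s16r_LamZ_eq]; exact hred)
  rw [s16r_LamZ_eq] at h
  intro φ hφ
  obtain ⟨f, hf, hfφ⟩ := h φ hφ
  exact ⟨f, hf, fun γ => DFunLike.congr_fun hfφ γ⟩

end gamma

end Fermat.Agent.S16D
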