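import Mathlib
import Fermat.Prelude.Def_ModularCurve_ModularUnit
import Fermat.Prelude.Def_ModularCurve_PeriodMap
import Fermat.Prelude.Sol.S_ModularForm_heckeT_slash_eq_self_of_mem_Gamma0

/-!
# S16 (LOW): the Shimura class

For a prime `p` and `n = eisensteinNumerator p = (p - 1) / gcd (p - 1, 12)`, the Shimura class is the
homomorphism `φ : Γ₀(p) → ℤ/n`, `γ ↦ λ (a_γ mod p)`, where `λ : (ℤ/p)ˣ → ℤ/n` is a surjective
homomorphism.  We show that `φ` is surjective, kills `-1`, the parabolic and the elliptic elements,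
and is an eigenvector of the Hecke correspondences (`T_ℓ φ = (1 + ℓ) φ`, `U_p φ = φ`), in a form which
only refers to the commutation relations `α_x γ = γ' α_{x'}` of the Hecke representatives.
-/

set_option autoImplicit false

namespace Fermat.Agent.S16D

open CongruenceSubgroup Matrix.SpecialLinearGroup
open scoped MatrixGroups

section lam

variable (p : ℕ) [Fact p.Prime]

/-- `eisensteinNumerator p` divides the order of `(ℤ/p)ˣ`. -/
theorem s16h_dvd_card : ModularCurve.eisensteinNumerator p ∣ Nat.card (ZMod p)ˣ := by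
  rw [Nat.card_eq_fintype_card, ZMod.card_units p]
  exact ModularCurve.eisensteinNumerator_dvd p

/-- The surjective homomorphism `λ : (ℤ/p)ˣ → ℤ/n` (written multiplicatively). -/
noncomputable def s16h_lam :
    (ZMod p)ˣ →* Multiplicative (ZMod (ModularCurve.eisensteinNumerator p)) :=
  (AddMonoidHom.toMultiplicative
    (ZMod.castHom (s16h_dvd_card p) (ZMod (ModularCurve.eisensteinNumerator p))).toAddMonoidHom).comp
    (zmodCyclicMulEquiv (inferInstance : IsCyclic (ZMod p)ˣ)).symm.toMonoidHom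

theorem s16h_lam_surjective : Function.Surjective (s16h_lam p) := by
  unfold s16h_lam
  rw [MonoidHom.coe_comp]
  refine Function.Surjective.comp ?_ (MulEquiv.surjective _)
  intro y
  obtain ⟨x, hx⟩ := ZMod.ringHom_surjective
    (ZMod.castHom (s16h_dvd_card p) (ZMod (ModularCurve.eisensteinNumerator p))) y.toAdd
  exact ⟨Multiplicative.ofAdd x, by
    apply Multiplicative.toAdd.injective
    simpa using hx⟩

/-- Elements of `ℤ/N` killed by `ν` die in `ℤ/n` when `N = n * ν`. -/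
theorem s16h_cast_eq_zero {N n ν : ℕ} [NeZero N] (hN : N = n * ν) (h : n ∣ N) (x : ZMod N)
    (hx : ν • x = 0) : ZMod.castHom h (ZMod n) x = 0 := by
  have hν : ν ≠ 0 := by
    rintro rfl
    exact NeZero.ne N (by rw [hN, mul_zero])
  have hxv : ((ν * x.val : ℕ) : ZMod N) = 0 := by
    rw [Nat.cast_mul, ZMod.natCast_zmod_val, ← nsmul_eq_mul]
    exact hx
  rw [ZMod.natCast_eq_zero_iff] at hxv
  have hdvd : n ∣ x.val := by
    have h2 : ν * n ∣ ν * x.val := by
      have h3 : N = ν * n := by rw [hN, mul_comm]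
      exact h3 ▸ hxv
    exact Nat.dvd_of_mul_dvd_mul_left (Nat.pos_of_ne_zero hν) h2
  rw [ZMod.castHom_apply, ZMod.cast_eq_val, ZMod.natCast_eq_zero_iff]
  exact hdvd

/-- `λ` kills the twelfth roots of unity. -/
theorem s16h_lam_eq_one_of_pow_twelve (u : (ZMod p)ˣ) (hu : u ^ 12 = 1) : s16h_lam p u = 1 := by
  have hcard : Nat.card (ZMod p)ˣ = p - 1 := by
    rw [Nat.card_eq_fintype_card, ZMod.card_units p]
  have : NeZero (Nat.card (ZMod p)ˣ) := ⟨Nat.card_pos.ne'⟩
  set e := (zmodCyclicMulEquiv (inferInstance : IsCyclic (ZMod p)ˣ)).symm with he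
  set x : ZMod (Nat.card (ZMod p)ˣ) := Multiplicative.toAdd (e u) with hx
  have h12 : (12 : ℕ) • x = 0 := by
    have : e (u ^ 12) = 1 := by rw [hu, map_one]
    rw [map_pow] at this
    have h2 := congrArg Multiplicative.toAdd this
    simpa using h2
  have hN : (Nat.card (ZMod p)ˣ) • x = 0 := by
    rw [nsmul_eq_mul, ZMod.natCast_self, zero_mul]
  have hg : (Nat.gcd (p - 1) 12) • x = 0 := by
    rw [← hcard]
    have hb := Nat.gcd_eq_gcd_ab (Nat.card (ZMod p)ˣ) 12
    have h1 : ((Nat.gcd (Nat.card (ZMod p)ˣ) 12 : ℕ) : ℤ) • x = 0 := by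
      rw [hb, add_smul, mul_comm, mul_smul, mul_comm, mul_smul, natCast_zsmul, natCast_zsmul, hN,
        h12, smul_zero, smul_zero, add_zero]
    rwa [natCast_zsmul] at h1
  have hprod : Nat.card (ZMod p)ˣ = ModularCurve.eisensteinNumerator p * Nat.gcd (p - 1) 12 := by
    rw [hcard]
    exact (Nat.div_mul_cancel (Nat.gcd_dvd_left _ _)).symm
  have hz := s16h_cast_eq_zero hprod (s16h_dvd_card p) x hg
  apply Multiplicative.toAdd.injective
  show (ZMod.castHom (s16h_dvd_card p) (ZMod (ModularCurve.eisensteinNumerator p))) x = 0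
  exact hz

end lam

section phi

variable (p : ℕ) [Fact p.Prime]

open P2MW.S_ModularForm_heckeT_slash_eq_self_of_mem_Gamma0.ModularForm.HeckeSlashInvariance
  (unit_of_apply_one_zero_eq_zero det_eq)

/-- The upper-left entry modulo `p`, as a homomorphism `Γ₀(p) → (ℤ/p)ˣ`. -/
noncomputable def s16h_ul : Gamma0 p →* (ZMod p)ˣ where
  toFun γ := Units.mkOfMulEqOne (((γ : SL(2, ℤ)) 0 0 : ℤ) : ZMod p) (((γ : SL(2, ℤ)) 1 1 : ℤ) : ZMod p)
    (unit_of_apply_one_zero_eq_zero (γ : SL(2, ℤ)) (Gamma0_mem.mp γ.2))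
  map_one' := by
    apply Units.ext
    simp
  map_mul' γ δ := by
    apply Units.ext
    have hc : (((δ : SL(2, ℤ)) 1 0 : ℤ) : ZMod p) = 0 := Gamma0_mem.mp δ.2
    show ((((γ * δ : Gamma0 p) : SL(2, ℤ)) 0 0 : ℤ) : ZMod p) =
      (((γ : SL(2, ℤ)) 0 0 : ℤ) : ZMod p) * (((δ : SL(2, ℤ)) 0 0 : ℤ) : ZMod p)
    rw [Subgroup.coe_mul, Matrix.SpecialLinearGroup.coe_mul, Matrix.mul_apply, Fin.sum_univ_two]
    push_cast
    rw [hc, mul_zero, add_zero]

theorem s16h_ul_val (γ : Gamma0 p) :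
    ((s16h_ul p γ : (ZMod p)ˣ) : ZMod p) = (((γ : SL(2, ℤ)) 0 0 : ℤ) : ZMod p) := rfl

/-- **The Shimura class** `φ : Γ₀(p) → ℤ/n`. -/
noncomputable def s16h_phi : Additive (Gamma0 p) →+ ZMod (ModularCurve.eisensteinNumerator p) :=
  MonoidHom.toAdditiveLeft ((s16h_lam p).comp (s16h_ul p))

theorem s16h_phi_apply (γ : Gamma0 p) :
    s16h_phi p (Additive.ofMul γ) = Multiplicative.toAdd (s16h_lam p (s16h_ul p γ)) := rfl

/-- The upper-left entry map is surjective. -/
theorem s16h_ul_surjective : Function.Surjective (s16h_ul p) := by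
  intro u
  have hp : p ≠ 0 := (Fact.out : p.Prime).ne_zero
  have : NeZero p := ⟨hp⟩
  set a : ℤ := ((u : ZMod p).val : ℤ) with ha
  set d : ℤ := (((u⁻¹ : (ZMod p)ˣ) : ZMod p).val : ℤ) with hd
  have hac : (a : ZMod p) = (u : ZMod p) := by
    rw [ha]; push_cast; exact ZMod.natCast_zmod_val _
  have hdc : (d : ZMod p) = ((u⁻¹ : (ZMod p)ˣ) : ZMod p) := by
    rw [hd]; push_cast; exact ZMod.natCast_zmod_val _
  obtain ⟨k, hk⟩ : (p : ℤ) ∣ a * d - 1 := by
    rw [← ZMod.intCast_zmod_eq_zero_iff_dvd]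
    push_cast
    rw [hac, hdc, Units.mul_inv, sub_self]
  have hdet : (!![a, k; (p : ℤ), d] : Matrix (Fin 2) (Fin 2) ℤ).det = 1 := by
    rw [Matrix.det_fin_two_of]
    linear_combination hk
  let g : SL(2, ℤ) := ⟨!![a, k; (p : ℤ), d], hdet⟩
  have hg : g ∈ Gamma0 p := by
    rw [Gamma0_mem]
    show (((!![a, k; (p : ℤ), d] : Matrix (Fin 2) (Fin 2) ℤ) 1 0 : ℤ) : ZMod p) = 0
    simp
  refine ⟨⟨g, hg⟩, ?_⟩
  apply Units.ext
  rw [s16h_ul_val]
  show (((!![a, k; (p : ℤ), d] : Matrix (Fin 2) (Fin 2) ℤ) 0 0 : ℤ) : ZMod p) = _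
  simpa using hac

theorem s16h_phi_surjective : Function.Surjective (s16h_phi p) := by
  intro y
  obtain ⟨u, hu⟩ := s16h_lam_surjective p (Multiplicative.ofAdd y)
  obtain ⟨γ, hγ⟩ := s16h_ul_surjective p u
  refine ⟨Additive.ofMul γ, ?_⟩
  rw [s16h_phi_apply, hγ, hu]
  rfl

/-- Elements of `Γ₀(p)` with `|trace| ≤ 2` have upper-left entry a twelfth root of unity mod `p`. -/
theorem s16h_ul_pow_twelve (γ : Gamma0 p)
    (ht : (((γ : SL(2, ℤ)) : Matrix (Fin 2) (Fin 2) ℤ).trace) ^ 2 ≤ 4) :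
    s16h_ul p γ ^ 12 = 1 := by
  apply Units.ext
  rw [Units.val_pow_eq_pow_val, s16h_ul_val, Units.val_one]
  set a : ZMod p := (((γ : SL(2, ℤ)) 0 0 : ℤ) : ZMod p) with ha
  set d : ZMod p := (((γ : SL(2, ℤ)) 1 1 : ℤ) : ZMod p) with hd
  have had : a * d = 1 := unit_of_apply_one_zero_eq_zero (γ : SL(2, ℤ)) (Gamma0_mem.mp γ.2)
  rw [Matrix.trace_fin_two] at ht
  set t : ℤ := (γ : SL(2, ℤ)) 0 0 + (γ : SL(2, ℤ)) 1 1 with htdef
  have htc : (t : ZMod p) = a + d := by rw [htdef]; push_cast; rfl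
  have h1 : -2 ≤ t := by nlinarith
  have h2 : t ≤ 2 := by nlinarith
  have hd' : d = (t : ZMod p) - a := by rw [htc]; ring
  rw [hd'] at had
  interval_cases t
  · -- t = -2
    have h0 : (a + 1) ^ 2 = 0 := by push_cast at had; linear_combination -had
    have : a = -1 := by
      have := pow_eq_zero_iff (two_ne_zero) |>.mp h0
      linear_combination this
    rw [this]; norm_num
  · -- t = -1
    have h3 : a ^ 3 = 1 := by push_cast at had; linear_combination (-a + 1) * had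
    calc a ^ 12 = (a ^ 3) ^ 4 := by ring
      _ = 1 := by rw [h3, one_pow]
  · -- t = 0
    have h3 : a ^ 2 = -1 := by push_cast at had; linear_combination -had
    calc a ^ 12 = (a ^ 2) ^ 6 := by ring
      _ = 1 := by rw [h3]; norm_num
  · -- t = 1
    have h3 : a ^ 3 = -1 := by push_cast at had; linear_combination (-a - 1) * had
    calc a ^ 12 = (a ^ 3) ^ 4 := by ring
      _ = 1 := by rw [h3]; norm_num
  · -- t = 2
    have h0 : (a - 1) ^ 2 = 0 := by push_cast at had; linear_combination -had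
    have : a = 1 := by
      have := pow_eq_zero_iff (two_ne_zero) |>.mp h0
      linear_combination this
    rw [this, one_pow]

/-- **`φ` kills every element with `|trace| ≤ 2`** (parabolic, elliptic, `±1`). -/
theorem s16h_phi_of_trace_sq_le (γ : Gamma0 p)
    (ht : (((γ : SL(2, ℤ)) : Matrix (Fin 2) (Fin 2) ℤ).trace) ^ 2 ≤ 4) :
    s16h_phi p (Additive.ofMul γ) = 0 := by
  rw [s16h_phi_apply, s16h_lam_eq_one_of_pow_twelve p _ (s16h_ul_pow_twelve p γ ht)]
  rfl

/-- `φ` is a parabolic homomorphism. -/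
theorem s16h_phi_parabolic :
    s16h_phi p ∈ ModularCurve.Period.parabolicHoms ℤ (Gamma0 p)
      (ZMod (ModularCurve.eisensteinNumerator p)) := by
  intro γ hγ
  exact s16h_phi_of_trace_sq_le p γ hγ.le

/-- `φ` kills the elliptic elements (trace `0`, `1` or `-1`). -/
theorem s16h_phi_elliptic (γ : Gamma0 p)
    (ht : (((γ : SL(2, ℤ)) : Matrix (Fin 2) (Fin 2) ℤ).trace) ^ 2 < 4) :
    s16h_phi p (Additive.ofMul γ) = 0 :=
  s16h_phi_of_trace_sq_le p γ ht.le

end phi

section eigen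

variable (p : ℕ) [Fact p.Prime]

open P2MW.S_ModularForm_heckeT_slash_eq_self_of_mem_Gamma0.ModularForm.HeckeSlashInvariance
open ModularForm

/-- `U_p`: the commutation relation preserves the upper-left entry modulo `p`. -/
theorem s16h_ul_of_heckeMatrix_mul (g g' : Gamma0 p) (j j' : ℕ)
    (h : heckeMatrix p j * mapGL ℝ (g : SL(2, ℤ)) = mapGL ℝ (g' : SL(2, ℤ)) * heckeMatrix p j') :
    s16h_ul p g' = s16h_ul p g := by
  have hp : p ≠ 0 := (Fact.out : p.Prime).ne_zero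
  have h00 := congrArg (fun M : GL (Fin 2) ℝ => (M : Matrix (Fin 2) (Fin 2) ℝ) 0 0) h
  simp only [Units.val_mul, Matrix.mul_apply, Fin.sum_univ_two, val_heckeMatrix hp] at h00
  simp at h00
  have hz : (g : SL(2, ℤ)) 0 0 + (j : ℤ) * (g : SL(2, ℤ)) 1 0 = (g' : SL(2, ℤ)) 0 0 := by
    exact_mod_cast h00
  have hc : (((g : SL(2, ℤ)) 1 0 : ℤ) : ZMod p) = 0 := Gamma0_mem.mp g.2
  apply Units.ext
  rw [s16h_ul_val, s16h_ul_val, ← hz]
  push_cast
  rw [hc, mul_zero, add_zero]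

theorem s16h_phi_of_heckeMatrix_mul (g g' : Gamma0 p) (j j' : ℕ)
    (h : heckeMatrix p j * mapGL ℝ (g : SL(2, ℤ)) = mapGL ℝ (g' : SL(2, ℤ)) * heckeMatrix p j') :
    s16h_phi p (Additive.ofMul g') = s16h_phi p (Additive.ofMul g) := by
  rw [s16h_phi_apply, s16h_phi_apply, s16h_ul_of_heckeMatrix_mul p g g' j j' h]

/-- `p = 1` in `ℤ/n`. -/
theorem s16h_p_eq_one : ((p : ℕ) : ZMod (ModularCurve.eisensteinNumerator p)) = 1 := by
  have hp1 : 1 ≤ p := (Fact.out : p.Prime).one_lt.le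
  have h : ((p - 1 : ℕ) : ZMod (ModularCurve.eisensteinNumerator p)) = 0 :=
    (ZMod.natCast_eq_zero_iff _ _).mpr (ModularCurve.eisensteinNumerator_dvd p)
  calc ((p : ℕ) : ZMod (ModularCurve.eisensteinNumerator p))
      = (((p - 1) + 1 : ℕ) : ZMod (ModularCurve.eisensteinNumerator p)) := by
        rw [Nat.sub_add_cancel hp1]
    _ = 1 := by rw [Nat.cast_add, h, zero_add, Nat.cast_one]

/-- **`U_p φ = φ`.** -/
theorem s16h_sum_phi_U (g : Gamma0 p) (g' : ZMod p → Gamma0 p) (j' : ZMod p → ℕ)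
    (h : ∀ x : ZMod p, heckeMatrix p x.val * mapGL ℝ (g : SL(2, ℤ)) =
      mapGL ℝ (g' x : SL(2, ℤ)) * heckeMatrix p (j' x)) :
    ∑ x : ZMod p, s16h_phi p (Additive.ofMul (g' x)) = s16h_phi p (Additive.ofMul g) := by
  have hp : p ≠ 0 := (Fact.out : p.Prime).ne_zero
  have : NeZero p := ⟨hp⟩
  rw [Finset.sum_congr rfl fun x _ => s16h_phi_of_heckeMatrix_mul p g (g' x) x.val (j' x) (h x),
    Finset.sum_const, Finset.card_univ, ZMod.card, nsmul_eq_mul, s16h_p_eq_one, one_mul]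

variable {ℓ : ℕ} [Fact ℓ.Prime] (hℓ : Nat.Coprime ℓ p)

/-- The upper-left entry of the Hecke representative `α_x`, as a unit modulo `p`. -/
noncomputable def s16h_ax (x : OnePoint (ZMod ℓ)) : (ZMod p)ˣ :=
  x.elim (ZMod.unitOfCoprime ℓ hℓ) (fun _ => 1)

/-- `μ x = λ (a_x)`. -/
noncomputable def s16h_mu (x : OnePoint (ZMod ℓ)) : ZMod (ModularCurve.eisensteinNumerator p) :=
  Multiplicative.toAdd (s16h_lam p (s16h_ax p hℓ x))

/-- `T_ℓ`: the commutation relation `α_x g = g' α_{x'}` on upper-left entries modulo `p`. -/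
theorem s16h_ul_of_heckeRep_mul (g g' : Gamma0 p) (x x' : OnePoint (ZMod ℓ))
    (h : heckeRep ℓ x * mapGL ℝ (g : SL(2, ℤ)) = mapGL ℝ (g' : SL(2, ℤ)) * heckeRep ℓ x') :
    s16h_ax p hℓ x * s16h_ul p g = s16h_ul p g' * s16h_ax p hℓ x' := by
  have hl : ℓ ≠ 0 := (Fact.out : ℓ.Prime).ne_zero
  have hc : (((g : SL(2, ℤ)) 1 0 : ℤ) : ZMod p) = 0 := Gamma0_mem.mp g.2
  have h00 := congrArg (fun M : GL (Fin 2) ℝ => (M : Matrix (Fin 2) (Fin 2) ℝ) 0 0) h
  apply Units.ext
  induction x using OnePoint.rec with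
  | infty =>
    induction x' using OnePoint.rec with
    | infty =>
      simp only [heckeRep_infty, Units.val_mul, Matrix.mul_apply, Fin.sum_univ_two,
        val_heckeDiagMatrix hl] at h00
      simp at h00
      have hz : (ℓ : ℤ) * (g : SL(2, ℤ)) 0 0 = (g' : SL(2, ℤ)) 0 0 * (ℓ : ℤ) := by
        exact_mod_cast h00
      have hz' := congrArg (Int.cast : ℤ → ZMod p) hz
      push_cast at hz'
      simpa [s16h_ax, s16h_ul_val] using hz'
    | coe j' =>
      simp only [heckeRep_infty, heckeRep_coe, Units.val_mul, Matrix.mul_apply, Fin.sum_univ_two,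
        val_heckeDiagMatrix hl, val_heckeMatrix hl] at h00
      simp at h00
      have hz : (ℓ : ℤ) * (g : SL(2, ℤ)) 0 0 = (g' : SL(2, ℤ)) 0 0 := by
        exact_mod_cast h00
      have hz' := congrArg (Int.cast : ℤ → ZMod p) hz
      push_cast at hz'
      simpa [s16h_ax, s16h_ul_val] using hz'
  | coe j =>
    induction x' using OnePoint.rec with
    | infty =>
      simp only [heckeRep_infty, heckeRep_coe, Units.val_mul, Matrix.mul_apply, Fin.sum_univ_two,
        val_heckeDiagMatrix hl, val_heckeMatrix hl] at h00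
      simp [-ZMod.natCast_val] at h00
      have hz : (g : SL(2, ℤ)) 0 0 + (j.val : ℤ) * (g : SL(2, ℤ)) 1 0 =
          (g' : SL(2, ℤ)) 0 0 * (ℓ : ℤ) := by
        exact_mod_cast h00
      have hz' := congrArg (Int.cast : ℤ → ZMod p) hz
      push_cast at hz'
      rw [hc, mul_zero, add_zero] at hz'
      simpa [s16h_ax, s16h_ul_val] using hz'
    | coe j' =>
      simp only [heckeRep_coe, Units.val_mul, Matrix.mul_apply, Fin.sum_univ_two,
        val_heckeMatrix hl] at h00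
      simp [-ZMod.natCast_val] at h00
      have hz : (g : SL(2, ℤ)) 0 0 + (j.val : ℤ) * (g : SL(2, ℤ)) 1 0 = (g' : SL(2, ℤ)) 0 0 := by
        exact_mod_cast h00
      have hz' := congrArg (Int.cast : ℤ → ZMod p) hz
      push_cast at hz'
      rw [hc, mul_zero, add_zero] at hz'
      simpa [s16h_ax, s16h_ul_val] using hz'

theorem s16h_phi_of_heckeRep_mul (g g' : Gamma0 p) (x x' : OnePoint (ZMod ℓ))
    (h : heckeRep ℓ x * mapGL ℝ (g : SL(2, ℤ)) = mapGL ℝ (g' : SL(2, ℤ)) * heckeRep ℓ x') :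
    s16h_phi p (Additive.ofMul g') + s16h_mu p hℓ x' =
      s16h_phi p (Additive.ofMul g) + s16h_mu p hℓ x := by
  have := congrArg (fun u => Multiplicative.toAdd (s16h_lam p u))
    (s16h_ul_of_heckeRep_mul p hℓ g g' x x' h)
  simp only [map_mul, toAdd_mul] at this
  rw [s16h_phi_apply, s16h_phi_apply, s16h_mu, s16h_mu, ← this, add_comm]

include hℓ in
/-- **`T_ℓ φ = (1 + ℓ) φ`.** -/
theorem s16h_sum_phi_T (σ : Equiv.Perm (OnePoint (ZMod ℓ))) (g : Gamma0 p)
    (g' : OnePoint (ZMod ℓ) → Gamma0 p)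
    (h : ∀ x, heckeRep ℓ x * mapGL ℝ (g : SL(2, ℤ)) =
      mapGL ℝ (g' x : SL(2, ℤ)) * heckeRep ℓ (σ x)) :
    ∑ x, s16h_phi p (Additive.ofMul (g' x)) =
      (1 + (ℓ : ZMod (ModularCurve.eisensteinNumerator p))) * s16h_phi p (Additive.ofMul g) := by
  have hl : ℓ ≠ 0 := (Fact.out : ℓ.Prime).ne_zero
  have : NeZero ℓ := ⟨hl⟩
  have hx : ∀ x, s16h_phi p (Additive.ofMul (g' x)) =
      s16h_phi p (Additive.ofMul g) + s16h_mu p hℓ x - s16h_mu p hℓ (σ x) := fun x => by
    rw [← s16h_phi_of_heckeRep_mul p hℓ g (g' x) x (σ x) (h x), add_sub_cancel_right]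
  rw [Finset.sum_congr rfl fun x _ => hx x, Finset.sum_sub_distrib, Finset.sum_add_distrib,
    Equiv.sum_comp σ (s16h_mu p hℓ), add_sub_cancel_right, Finset.sum_const, Finset.card_univ,
    nsmul_eq_mul]
  congr 1
  have : Fintype.card (OnePoint (ZMod ℓ)) = ℓ + 1 := by
    rw [show Fintype.card (OnePoint (ZMod ℓ)) = Fintype.card (Option (ZMod ℓ)) from rfl,
      Fintype.card_option, ZMod.card]
  rw [this]
  push_cast
  ring

end eigen

end Fermat.Agent.S16D
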