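import Mathlib
import Fermat.Agent.S16.Low.CountN
import Fermat.Agent.S16.Low.IntRank
import Fermat.Agent.S16.Low.Shimura

/-!
# S16 (LOW, L1): lifting `ℤ/n`-valued classes of `Γ₀(p)` to integral parabolic classes

Every `φ : Γ₀(p) → ℤ/n` killing the elements with `(tr γ)² ≤ 4` is the reduction mod `n` of an
integral parabolic homomorphism.  In particular the Shimura class lifts.
-/

set_option autoImplicit false
set_option linter.unusedSectionVars false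
set_option linter.style.haveILetI false

namespace Fermat.Agent.S16

open Module CongruenceSubgroup Matrix.SpecialLinearGroup ModularCurve.Period
open scoped MatrixGroups

/-- The elements with `(tr γ)² ≤ 4`, inside `Additive Γ₀(p)`. -/
def s16l_ellSet (p : ℕ) : Set (Additive (Gamma0 p)) :=
  {x | (((Additive.toMul x : Gamma0 p) : SL(2, ℤ)) : Matrix (Fin 2) (Fin 2) ℤ).trace ^ 2 ≤ 4}

theorem s16l_mem_kill_iff (p n : ℕ) (φ : Additive (Gamma0 p) →+ ZMod n) :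
    φ ∈ s16l_kill (s16l_ellSet p) (ZMod n) ↔ ∀ γ : Gamma0 p,
      (((γ : SL(2, ℤ)) : Matrix (Fin 2) (Fin 2) ℤ).trace) ^ 2 ≤ 4 → φ (Additive.ofMul γ) = 0 :=
  ⟨fun h γ hγ => h (Additive.ofMul γ) hγ, fun h x hx => h (Additive.toMul x) hx⟩

theorem s16l_finite_sub (p ℓ : ℕ) [Fact p.Prime] [hℓ : Fact ℓ.Prime]
    (Q : (Additive (Gamma0 p) →+ ZMod ℓ) → Prop)
    (hQ : ∀ φ, Q φ → ∀ γ : Gamma0 p,
      (((γ : SL(2, ℤ)) : Matrix (Fin 2) (Fin 2) ℤ).trace) ^ 2 ≤ 4 → φ (Additive.ofMul γ) = 0) :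
    Finite {φ : Additive (Gamma0 p) →+ ZMod ℓ // Q φ} := by
  obtain ⟨hfin, -⟩ := s16l_finrank_parEllSub_le p (ZMod ℓ)
  haveI : Finite (s16l_parEllSub p (ZMod ℓ)) := Module.finite_of_finite (ZMod ℓ)
  let j : {φ : Additive (Gamma0 p) →+ ZMod ℓ // Q φ} → s16l_parEllSub p (ZMod ℓ) := fun φ =>
    ⟨fun γ => φ.1 (Additive.ofMul γ), fun γ δ => by
      show φ.1 (Additive.ofMul (γ * δ)) = _
      rw [ofMul_mul, map_add], fun γ hγ => hQ φ.1 φ.2 γ hγ⟩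
  have hj : Function.Injective j := by
    rintro ⟨φ, hφ⟩ ⟨ψ, hψ⟩ h
    apply Subtype.ext
    ext γ
    exact congrFun (congrArg Subtype.val h) (Additive.toMul γ)
  exact Finite.of_injective j hj

theorem s16l_kill_prime (p ℓ : ℕ) [Fact p.Prime] (hℓ : ℓ.Prime) :
    (s16l_kill (s16l_ellSet p) (ZMod ℓ)).Finite ∧
      (s16l_kill (s16l_ellSet p) (ZMod ℓ)).ncard ≤
        ℓ ^ finrank ℂ (parabolicHoms ℂ (Gamma0 p) ℂ) := by
  haveI : Fact ℓ.Prime := ⟨hℓ⟩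
  have hQ : ∀ φ : Additive (Gamma0 p) →+ ZMod ℓ, φ ∈ s16l_kill (s16l_ellSet p) (ZMod ℓ) →
      ∀ γ : Gamma0 p, (((γ : SL(2, ℤ)) : Matrix (Fin 2) (Fin 2) ℤ).trace) ^ 2 ≤ 4 →
        φ (Additive.ofMul γ) = 0 := fun φ hφ => (s16l_mem_kill_iff p ℓ φ).mp hφ
  have h1 := s16l_finite_sub p ℓ (fun φ => φ ∈ s16l_kill (s16l_ellSet p) (ZMod ℓ)) hQ
  have h2 := s16l_card_le p ℓ (fun φ => φ ∈ s16l_kill (s16l_ellSet p) (ZMod ℓ)) hQ
  refine ⟨Set.finite_coe_iff.mp h1, ?_⟩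
  rw [← Nat.card_coe_set_eq]
  exact h2

/-- **The count over `ℤ/n`.** -/
theorem s16l_ncard_le (p n : ℕ) [Fact p.Prime] [NeZero n] :
    (s16l_kill (s16l_ellSet p) (ZMod n)).Finite ∧
      (s16l_kill (s16l_ellSet p) (ZMod n)).ncard ≤
        n ^ finrank ℂ (parabolicHoms ℂ (Gamma0 p) ℂ) :=
  s16l_kill_zmod_le _ (fun ℓ hℓ => s16l_kill_prime p ℓ hℓ) n (NeZero.ne n)

/-- Cayley–Hamilton for `SL(2, ℤ)`. -/
theorem s16l_sq_eq (γ : SL(2, ℤ)) :
    (γ : Matrix (Fin 2) (Fin 2) ℤ) * (γ : Matrix (Fin 2) (Fin 2) ℤ) =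
      (γ : Matrix (Fin 2) (Fin 2) ℤ).trace • (γ : Matrix (Fin 2) (Fin 2) ℤ) - 1 := by
  have hdet := γ.det_coe
  rw [Matrix.det_fin_two] at hdet
  rw [Matrix.trace_fin_two]
  ext i j
  fin_cases i <;> fin_cases j <;>
    simp [-zsmul_eq_mul, Matrix.mul_apply, Fin.sum_univ_two] <;>
    first | ring1 | linear_combination (-1 : ℤ) * hdet

/-- Elements with `(tr γ)² < 4` have order dividing `12`. -/
theorem s16l_pow_twelve (γ : SL(2, ℤ))
    (h : ((γ : Matrix (Fin 2) (Fin 2) ℤ).trace) ^ 2 < 4) : γ ^ 12 = 1 := by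
  apply Subtype.ext
  rw [Matrix.SpecialLinearGroup.coe_pow, Matrix.SpecialLinearGroup.coe_one]
  set M : Matrix (Fin 2) (Fin 2) ℤ := (γ : Matrix (Fin 2) (Fin 2) ℤ) with hM
  have hsq := s16l_sq_eq γ
  rw [← hM] at hsq
  have ht : M.trace = 0 ∨ M.trace = 1 ∨ M.trace = -1 := by
    have h1 : -2 < M.trace := by nlinarith
    have h2 : M.trace < 2 := by nlinarith
    omega
  rcases ht with ht | ht | ht
  · rw [ht, zero_smul, zero_sub] at hsq
    have h4 : M ^ 4 = 1 := by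
      rw [show M ^ 4 = (M * M) * (M * M) by noncomm_ring, hsq]
      simp
    rw [show (12 : ℕ) = 4 * 3 from rfl, pow_mul, h4, one_pow]
  · rw [ht, one_smul] at hsq
    have h3 : M ^ 3 = -1 := by
      rw [pow_succ, pow_two, hsq, sub_mul, one_mul, hsq]
      abel
    rw [show (12 : ℕ) = 3 * 4 from rfl, pow_mul, h3]
    exact Even.neg_one_pow ⟨2, rfl⟩
  · rw [ht, neg_one_smul] at hsq
    have h3 : M ^ 3 = 1 := by
      rw [pow_succ, pow_two, hsq, sub_mul, one_mul, neg_mul, hsq]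
      abel
    rw [show (12 : ℕ) = 3 * 4 from rfl, pow_mul, h3, one_pow]

/-- Integral parabolic homs kill everything with `(tr γ)² ≤ 4`. -/
theorem s16l_int_kills (p : ℕ) (f : Additive (Gamma0 p) →+ ℤ)
    (hf : f ∈ parabolicHoms ℤ (Gamma0 p) ℤ) (γ : Gamma0 p)
    (hγ : (((γ : SL(2, ℤ)) : Matrix (Fin 2) (Fin 2) ℤ).trace) ^ 2 ≤ 4) :
    f (Additive.ofMul γ) = 0 := by
  rcases hγ.lt_or_eq with h | h
  · have h12 : γ ^ 12 = 1 := by
      apply Subtype.ext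
      rw [Subgroup.coe_pow, Subgroup.coe_one]
      exact s16l_pow_twelve _ h
    have : f (Additive.ofMul (γ ^ 12)) = 0 := by rw [h12, ofMul_one, map_zero]
    rw [ofMul_pow, map_nsmul, nsmul_eq_mul] at this
    push_cast at this
    omega
  · exact hf γ h

/-- **(L1) The lifting theorem.** -/
theorem s16l_lift (p n : ℕ) [Fact p.Prime] [NeZero n] (φ : Additive (Gamma0 p) →+ ZMod n)
    (hφ : ∀ γ : Gamma0 p, (((γ : SL(2, ℤ)) : Matrix (Fin 2) (Fin 2) ℤ).trace) ^ 2 ≤ 4 →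
      φ (Additive.ofMul γ) = 0) :
    ∃ f ∈ parabolicHoms ℤ (Gamma0 p) ℤ, ∀ γ, ((f γ : ℤ) : ZMod n) = φ γ := by
  haveI : NeZero p := ⟨(Fact.out : p.Prime).ne_zero⟩
  obtain ⟨hfin, hcard⟩ := s16l_ncard_le p n
  refine Fermat.Agent.S16D.s16r_lift p n (s16l_kill (s16l_ellSet p) (ZMod n)) hfin hcard ?_ φ
    ((s16l_mem_kill_iff p n φ).mpr hφ)
  intro f hf
  rw [s16l_mem_kill_iff]
  intro γ hγ
  rw [Fermat.Agent.S16D.s16r_red_apply, s16l_int_kills p f hf γ hγ, Int.cast_zero]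

/-- **The Shimura class lifts to an integral parabolic class.** -/
theorem s16l_shimura_lift (p : ℕ) [Fact p.Prime] :
    ∃ f ∈ parabolicHoms ℤ (Gamma0 p) ℤ,
      ∀ γ, ((f γ : ℤ) : ZMod (ModularCurve.eisensteinNumerator p)) =
        Fermat.Agent.S16D.s16h_phi p γ := by
  haveI : NeZero (ModularCurve.eisensteinNumerator p) := by
    refine ⟨?_⟩
    have hp1 : 0 < p - 1 := Nat.sub_pos_of_lt (Fact.out : p.Prime).one_lt
    unfold ModularCurve.eisensteinNumerator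
    exact (Nat.div_pos (Nat.le_of_dvd hp1 (Nat.gcd_dvd_left _ _))
      (Nat.gcd_pos_of_pos_left _ hp1)).ne'
  exact s16l_lift p _ (Fermat.Agent.S16D.s16h_phi p)
    (fun γ hγ => Fermat.Agent.S16D.s16h_phi_of_trace_sq_le p γ hγ)

end Fermat.Agent.S16
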