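import Mathlib
import Fermat.Agent.S16.Contracts
import Fermat.Agent.S23

set_option autoImplicit false

/-!
# S16, stream [D]: the last step of LOW

If there is a ring homomorphism `eps : heckeAlgebra p 2 ∅ → ZMod n` (`n = eisensteinNumerator p`)
with `eps T_ℓ = 1 + ℓ` and `eps U_p = 1`, then `ContractLOW p` holds (`s16o_low_of_eps`).
Also: `evalT p P = 0` implies that `heckeEvalForms p 2 P` is the zero operator on cusp forms
(`s16o_heckeEvalForms_eq_zero`, via the integral structure S23).
-/

namespace Fermat.Agent.S16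

open ModularCurve CuspForm Fermat.Agent.S16x

variable (p : ℕ) [Fact p.Prime]

/-- `evalT p P = 0` forces the Hecke operator `P(T_ℓ, U_p)` on `S₂(Γ₀(p))` to vanish. -/
theorem s16o_heckeEvalForms_eq_zero (P : HeckeAlg) (h : evalT p P = 0) :
    heckeEvalForms p 2 P = 0 := by
  have hint : CuspForm.HasIntegralStructure p 2 := Fermat.Agent.S23.result p
  have hinj := (CuspForm.latticeRestrictHom_bijective p (∅ : Set ℕ) hint).1
  apply hinj
  rw [map_zero]
  exact h

/-- the same, as operators on cusp forms -/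
theorem s16o_heckeEvalForms_apply_eq_zero (P : HeckeAlg) (h : evalT p P = 0)
    (f : CuspForm (CongruenceSubgroup.Gamma0 p) 2) :
    ((heckeEvalForms p 2 P : heckeAlgebra p 2 ∅) :
      Module.End ℂ (CuspForm (CongruenceSubgroup.Gamma0 p) 2)) f = 0 := by
  rw [s16o_heckeEvalForms_eq_zero p P h]
  rfl

/-- A ring hom out of the Hecke algebra with Eisenstein values on the generators computes
`eisEval` on polynomials. -/
theorem s16o_eps_heckeEvalForms {R : Type*} [CommRing R]
    (eps : ↥(heckeAlgebra p 2 ∅) →+* R)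
    (hT : ∀ (ℓ : ℕ) (hℓ : ℓ.Prime) (hℓp : ¬ ℓ ∣ p),
      eps (heckeAlgebra.T hℓ hℓp (Set.notMem_empty _)) = 1 + (ℓ : R))
    (hU : ∀ (q : ℕ) (hq : q.Prime) (hqp : q ∣ p),
      eps (heckeAlgebra.U hq hqp (Set.notMem_empty _)) = 1)
    (P : HeckeAlg) :
    eps (heckeEvalForms p 2 P) = ((eisEval p P : ℤ) : R) := by
  have key : eps.comp (heckeEvalForms p 2) = (Int.castRingHom R).comp (eisEval p) := by
    apply MvPolynomial.ringHom_ext
    · intro a
      simp only [RingHom.comp_apply]
      rw [heckeEvalForms_C, eisEval]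
      simp
    · intro ℓ
      simp only [RingHom.comp_apply]
      have h1 : heckeEvalForms p 2 (MvPolynomial.X ℓ) = heckeFormsGen p 2 ℓ :=
        heckeEvalForms_heckeGen p 2 ℓ
      have h2 : eisEval p (MvPolynomial.X ℓ) = eisensteinSystem p ℓ := by
        rw [eisEval]
        simp
      rw [h1, h2]
      by_cases hd : (ℓ : ℕ) ∣ p
      · rw [heckeFormsGen_of_dvd hd, hU _ ℓ.2 hd, eisensteinSystem_of_dvd hd]
        simp
      · rw [heckeFormsGen_of_not_dvd hd, hT _ ℓ.2 hd, eisensteinSystem_of_not_dvd hd]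
        simp
  have := congrArg (fun φ : HeckeAlg →+* R => φ P) key
  simpa using this

/-- **Last step of LOW**: an Eisenstein character of the Hecke algebra with values in
`ZMod (eisensteinNumerator p)` gives `ContractLOW p`. -/
theorem s16o_low_of_eps
    (eps : ↥(heckeAlgebra p 2 ∅) →+* ZMod (eisensteinNumerator p))
    (hT : ∀ (ℓ : ℕ) (hℓ : ℓ.Prime) (hℓp : ¬ ℓ ∣ p),
      eps (heckeAlgebra.T hℓ hℓp (Set.notMem_empty _)) = 1 + (ℓ : ZMod (eisensteinNumerator p)))
    (hU : ∀ (q : ℕ) (hq : q.Prime) (hqp : q ∣ p),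
      eps (heckeAlgebra.U hq hqp (Set.notMem_empty _)) = 1) :
    ContractLOW p := by
  intro P hP
  have h0 := s16o_eps_heckeEvalForms p eps hT hU P
  rw [s16o_heckeEvalForms_eq_zero p P hP, map_zero] at h0
  exact (ZMod.intCast_zmod_eq_zero_iff_dvd _ _).mp h0.symm

end Fermat.Agent.S16
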