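import Mathlib
import Fermat.Agent.S16.Contracts
import Fermat.Agent.S16.Low.OfEps
import Fermat.Agent.S16.Low.Shimura
import Fermat.Agent.S16.Low.LiftGamma0
import Fermat.Agent.S16.Low.DualChain

/-!
# S16, stream [D]: `ContractLOW p`

Assembly: the Shimura class (`Low/Shimura.lean`), its integral lift (`Low/LiftGamma0.lean`), the
dual chain (`Low/DualChain.lean`) and the integral structure (`Low/OfEps.lean`, S23).
-/

set_option autoImplicit false

namespace Fermat.Agent.S16x

open CongruenceSubgroup ModularCurve CuspForm Fermat.Agent.S16D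

/-- **(LOW)** every Hecke polynomial killing the lattice has Eisenstein value divisible by the
Eisenstein numerator. -/
theorem s16_low (p : ℕ) [Fact p.Prime] : ContractLOW p := by
  have hp : p.Prime := Fact.out
  have : NeZero p := ⟨hp.ne_zero⟩
  intro P hP
  have h0 : heckeEvalForms p 2 P = 0 := Fermat.Agent.S16.s16o_heckeEvalForms_eq_zero p P hP
  obtain ⟨ψ, hψ, hψφ⟩ := Fermat.Agent.S16.s16l_shimura_lift p
  obtain ⟨γ₀, hγ₀⟩ := s16h_phi_surjective p 1
  refine hdc_dvd_of_eq_zero (N := p) (n := eisensteinNumerator p)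
    (fun γ => s16h_phi p (Additive.ofMul γ)) ?_ ?_ (Additive.toMul γ₀) hγ₀ ψ hψ
    (fun γ => hψφ (Additive.ofMul γ)) P h0
  · intro ℓ hℓ hℓp
    have : Fact ℓ.Prime := ⟨hℓ⟩
    have : NeZero ℓ := ⟨hℓ.ne_zero⟩
    refine hdc_good_heckeT _ hℓ hℓp _ ?_
    intro γ g' σ hg'
    have hcop : Nat.Coprime ℓ p := (Nat.coprime_primes hℓ hp).mpr (fun h => hℓp (h ▸ dvd_rfl))
    convert s16h_sum_phi_T p hcop σ γ g' hg'
  · intro q hq hqp
    have hqe : q = p := (Nat.prime_dvd_prime_iff_eq hq hp).mp hqp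
    subst hqe
    refine hdc_good_heckeU _ hqp 1 ?_
    intro γ g' σ hg'
    rw [one_mul]
    exact s16h_sum_phi_U q γ g' (fun x => (σ x).val) hg'

end Fermat.Agent.S16x
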