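import Mathlib
import Fermat.Agent.S16.Low.PeriodEquiv
import Fermat.Agent.S21.Parabolic

/-!
# S16 [D]: Hecke equivariance of the prelude period pair `periodHomPair`

`periodHomPair N (f, g) = (1 + ι) (per f) + (1 - ι) (per g)` with `ι` the precomposition with
`γ ↦ J γ J`, `J = diag(-1, 1)`.  We show that the combinatorial Hecke sums commute with `ι` on
period homomorphisms, hence
`periodHomPair N (T f, T g) γ = ∑ x, periodHomPair N (f, g) (g' x)` for every valid family `g'`.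
-/

set_option autoImplicit false

namespace Fermat.Agent.S16D

open UpperHalfPlane ModularForm CongruenceSubgroup ModularCurve ModularCurve.Period
open scoped Manifold MatrixGroups ModularForm
open P2MW.S_ModularForm_heckeT_slash_eq_self_of_mem_Gamma0.ModularForm.HeckeSlashInvariance
  (heckeRep heckeRep_mul redMatrix heckeMatrix_mul_of_dvd affinePerm)

noncomputable section

/-! ### conjugation by `J` -/

theorem s16ie_J_mul_J : (J : GL (Fin 2) ℝ) * J = 1 := by
  have := J_sq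
  rwa [sq] at this

theorem s16ie_J_mul_mapGL (γ : SL(2, ℤ)) :
    J * Matrix.SpecialLinearGroup.mapGL ℝ γ =
      Matrix.SpecialLinearGroup.mapGL ℝ (jConjSL γ) * J := by
  apply Matrix.GeneralLinearGroup.ext
  intro i j
  rw [Matrix.GeneralLinearGroup.coe_mul, Matrix.GeneralLinearGroup.coe_mul,
    Matrix.mul_apply, Matrix.mul_apply, Fin.sum_univ_two, Fin.sum_univ_two]
  fin_cases i <;> fin_cases j <;> simp [val_J, jConjMat]

theorem s16ie_T_zpow_mem (N : ℕ) (k : ℤ) : ModularGroup.T ^ k ∈ Gamma0 N := by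
  rw [Gamma0_mem, ModularGroup.coe_T_zpow]
  simp

theorem s16ie_J_mul_heckeMatrix {q : ℕ} (hq : q ≠ 0) (a b : ℕ) (m : ℤ)
    (h : (a : ℤ) + b = m * q) :
    J * heckeMatrix q a =
      Matrix.SpecialLinearGroup.mapGL ℝ (ModularGroup.T ^ (-m)) * heckeMatrix q b * J := by
  apply Matrix.GeneralLinearGroup.ext
  intro i j
  have hR : (a : ℝ) + b = m * q := by exact_mod_cast h
  rw [Matrix.GeneralLinearGroup.coe_mul, Matrix.GeneralLinearGroup.coe_mul,
    Matrix.GeneralLinearGroup.coe_mul, val_heckeMatrix hq, val_heckeMatrix hq, val_J]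
  have hT : ((Matrix.SpecialLinearGroup.mapGL ℝ (ModularGroup.T ^ (-m)) : GL (Fin 2) ℝ) :
      Matrix (Fin 2) (Fin 2) ℝ) = !![(1 : ℝ), ((-m : ℤ) : ℝ); 0, 1] := by
    rw [Matrix.SpecialLinearGroup.mapGL_coe_matrix, Matrix.SpecialLinearGroup.map_apply_coe,
      ModularGroup.coe_T_zpow]
    ext i j
    fin_cases i <;> fin_cases j <;> simp
  rw [hT]
  fin_cases i <;> fin_cases j <;> simp [Matrix.mul_apply, Fin.sum_univ_two]
  linarith

theorem s16ie_J_mul_heckeDiagMatrix {q : ℕ} (hq : q ≠ 0) :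
    J * heckeDiagMatrix q =
      Matrix.SpecialLinearGroup.mapGL ℝ (ModularGroup.T ^ (0 : ℤ)) * heckeDiagMatrix q * J := by
  apply Matrix.GeneralLinearGroup.ext
  intro i j
  rw [zpow_zero, map_one, one_mul, Matrix.GeneralLinearGroup.coe_mul,
    Matrix.GeneralLinearGroup.coe_mul, val_heckeDiagMatrix hq, val_J]
  fin_cases i <;> fin_cases j <;> simp [Matrix.mul_apply, Fin.sum_univ_two]

/-! ### the group-theoretic core -/

theorem s16ie_group_aux {G : Type*} [Group G] (J a a' b b' A B c c' d d' : G)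
    (h1 : J * a = A * a' * J) (h2 : J * b = B * b' * J) (hc : J * c = c' * J)
    (hd : J * d = d' * J) (hrel : a * c = d * b) : a' * c' = A⁻¹ * d' * B * b' := by
  have ea' : a' = A⁻¹ * (J * a) * J⁻¹ := by rw [h1]; group
  have eb' : b' = B⁻¹ * (J * b) * J⁻¹ := by rw [h2]; group
  have ec' : c' = (J * c) * J⁻¹ := by rw [hc]; group
  have ed' : d' = (J * d) * J⁻¹ := by rw [hd]; group
  rw [ea', eb', ec', ed']
  have e1 : A⁻¹ * (J * a) * J⁻¹ * (J * c * J⁻¹) = A⁻¹ * J * (a * c) * J⁻¹ := by group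
  rw [e1, hrel]
  group

variable {N : ℕ} [NeZero N]

/-- period homomorphisms kill the powers of `T` -/
theorem s16ie_periodMap_T_zpow (f : CuspForm (Gamma0 N) 2) (k : ℤ) :
    periodMap N f (Additive.ofMul (⟨ModularGroup.T ^ k, s16ie_T_zpow_mem N k⟩ : Gamma0 N)) = 0 := by
  have h := S21.periodMap_mem_parabolicHoms N f
  rw [mem_parabolicHoms_iff] at h
  refine h ⟨_, s16ie_T_zpow_mem N k⟩ ?_
  show ((ModularGroup.T ^ k : SL(2, ℤ)) : Matrix (Fin 2) (Fin 2) ℤ).trace ^ 2 = 4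
  rw [ModularGroup.coe_T_zpow, Matrix.trace_fin_two_of]
  norm_num

/-- abstract form: the combinatorial Hecke sum commutes with the involution `γ ↦ J γ J` on period
homomorphisms, provided the system of representatives is `J`-stable up to translations. -/
theorem s16ie_periodMap_of_translates_J {ι : Type*} [Fintype ι] (α : ι → GL (Fin 2) ℝ)
    (ν : Equiv.Perm ι) (t : ι → ℤ)
    (hJ : ∀ x, J * α x =
      Matrix.SpecialLinearGroup.mapGL ℝ (ModularGroup.T ^ (t x)) * α (ν x) * J)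
    (f tf : CuspForm (Gamma0 N) 2)
    (hG : ∀ z : ℍ, S21.primF tf z = ∑ x : ι, S21.primF f (α x • z))
    (γ : Gamma0 N) (g' : ι → Gamma0 N) (σ : Equiv.Perm ι)
    (hg' : ∀ x, α x * Matrix.SpecialLinearGroup.mapGL ℝ (γ : SL(2, ℤ)) =
      Matrix.SpecialLinearGroup.mapGL ℝ ((g' x : Gamma0 N) : SL(2, ℤ)) * α (σ x)) :
    periodMap N tf (Additive.ofMul (jConjGamma0 N γ)) =
      ∑ x : ι, periodMap N f (Additive.ofMul (jConjGamma0 N (g' x))) := by
  -- the conjugated family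
  let Tm : ℤ → Gamma0 N := fun k => ⟨ModularGroup.T ^ k, s16ie_T_zpow_mem N k⟩
  let g'' : ι → Gamma0 N := fun y =>
    Tm (-(t (ν.symm y))) * jConjGamma0 N (g' (ν.symm y)) * Tm (t (σ (ν.symm y)))
  let σ'' : Equiv.Perm ι := (ν.symm.trans σ).trans ν
  have hrel : ∀ y, α y * Matrix.SpecialLinearGroup.mapGL ℝ ((jConjGamma0 N γ : Gamma0 N) : SL(2, ℤ)) =
      Matrix.SpecialLinearGroup.mapGL ℝ ((g'' y : Gamma0 N) : SL(2, ℤ)) * α (σ'' y) := by
    intro y
    set x := ν.symm y with hx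
    have hνx : ν x = y := by rw [hx]; exact ν.apply_symm_apply y
    have h1 := hJ x
    rw [hνx] at h1
    have h2 := hJ (σ x)
    have hc := s16ie_J_mul_mapGL (γ : SL(2, ℤ))
    have hd := s16ie_J_mul_mapGL ((g' x : Gamma0 N) : SL(2, ℤ))
    have key := s16ie_group_aux J (α x) (α y) (α (σ x)) (α (ν (σ x))) _ _ _ _ _ _ h1 h2 hc hd
      (hg' x)
    have hσ'' : σ'' y = ν (σ x) := rfl
    have hg''coe : ((g'' y : Gamma0 N) : SL(2, ℤ)) =
        ModularGroup.T ^ (-(t x)) * jConjSL ((g' x : Gamma0 N) : SL(2, ℤ)) *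
          ModularGroup.T ^ (t (σ x)) := rfl
    rw [hσ'', hg''coe, map_mul, map_mul, zpow_neg, map_inv, jConjGamma0_coe, key, mul_assoc]
  rw [hpe_periodMap_of_translates α f tf hG (jConjGamma0 N γ) g'' σ'' hrel]
  have hterm : ∀ y, periodMap N f (Additive.ofMul (g'' y)) =
      periodMap N f (Additive.ofMul (jConjGamma0 N (g' (ν.symm y)))) := by
    intro y
    show periodMap N f (Additive.ofMul (Tm (-(t (ν.symm y))) * jConjGamma0 N (g' (ν.symm y)) *
      Tm (t (σ (ν.symm y))))) = _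
    rw [ofMul_mul, ofMul_mul, map_add, map_add, s16ie_periodMap_T_zpow, s16ie_periodMap_T_zpow,
      zero_add, add_zero]
  rw [Finset.sum_congr rfl fun y _ => hterm y]
  exact Equiv.sum_comp ν.symm (fun x => periodMap N f (Additive.ofMul (jConjGamma0 N (g' x))))

/-- abstract equivariance of the period pair -/
theorem s16ie_periodHomPair_of_translates {ι : Type*} [Fintype ι] (α : ι → GL (Fin 2) ℝ)
    (ν : Equiv.Perm ι) (t : ι → ℤ)
    (hJ : ∀ x, J * α x =
      Matrix.SpecialLinearGroup.mapGL ℝ (ModularGroup.T ^ (t x)) * α (ν x) * J)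
    (f tf g tg : CuspForm (Gamma0 N) 2)
    (hF : ∀ z : ℍ, S21.primF tf z = ∑ x : ι, S21.primF f (α x • z))
    (hG : ∀ z : ℍ, S21.primF tg z = ∑ x : ι, S21.primF g (α x • z))
    (γ : Gamma0 N) (g' : ι → Gamma0 N) (σ : Equiv.Perm ι)
    (hg' : ∀ x, α x * Matrix.SpecialLinearGroup.mapGL ℝ (γ : SL(2, ℤ)) =
      Matrix.SpecialLinearGroup.mapGL ℝ ((g' x : Gamma0 N) : SL(2, ℤ)) * α (σ x)) :
    periodHomPair N (tf, tg) (Additive.ofMul γ) =
      ∑ x : ι, periodHomPair N (f, g) (Additive.ofMul (g' x)) := by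
  rw [S21.periodHomPair_apply]
  simp only [S21.periodHomPair_apply, AddMonoidHom.add_apply, AddMonoidHom.sub_apply,
    charInvolution_apply, toMul_ofMul]
  rw [hpe_periodMap_of_translates α f tf hF γ g' σ hg',
    hpe_periodMap_of_translates α g tg hG γ g' σ hg',
    s16ie_periodMap_of_translates_J α ν t hJ f tf hF γ g' σ hg',
    s16ie_periodMap_of_translates_J α ν t hJ g tg hG γ g' σ hg']
  simp only [Finset.sum_add_distrib, Finset.sum_sub_distrib]

/-! ### the two concrete systems of representatives -/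

theorem s16ie_exists_neg_val (q : ℕ) [NeZero q] (j : ZMod q) :
    ∃ m : ℤ, ((j.val : ℕ) : ℤ) + (((-j).val : ℕ) : ℤ) = m * q := by
  have h : ((j.val + (-j).val : ℕ) : ZMod q) = 0 := by
    rw [Nat.cast_add, ZMod.natCast_zmod_val, ZMod.natCast_zmod_val, add_neg_cancel]
  obtain ⟨m, hm⟩ := (ZMod.natCast_eq_zero_iff _ _).mp h
  refine ⟨m, ?_⟩
  have : ((j.val + (-j).val : ℕ) : ℤ) = ((q * m : ℕ) : ℤ) := by rw [hm]
  push_cast at this
  rw [this, mul_comm]

/-- **Equivariance of the period pair for `U_q`.** -/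
theorem s16ie_periodHomPair_heckeU {q : ℕ} [NeZero q] (hqN : q ∣ N)
    (f g : CuspForm (Gamma0 N) 2) (γ : Gamma0 N) (g' : ZMod q → Gamma0 N)
    (σ : Equiv.Perm (ZMod q))
    (hg' : ∀ x, heckeMatrix q x.val * Matrix.SpecialLinearGroup.mapGL ℝ (γ : SL(2, ℤ)) =
      Matrix.SpecialLinearGroup.mapGL ℝ ((g' x : Gamma0 N) : SL(2, ℤ)) *
        heckeMatrix q (σ x).val) :
    periodHomPair N (CuspForm.heckeULin 2 hqN f, CuspForm.heckeULin 2 hqN g) (Additive.ofMul γ) =
      ∑ x : ZMod q, periodHomPair N (f, g) (Additive.ofMul (g' x)) := by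
  choose m hm using s16ie_exists_neg_val q
  refine s16ie_periodHomPair_of_translates (fun x : ZMod q => heckeMatrix q x.val)
    (Equiv.neg (ZMod q)) (fun j => -(m j)) ?_ f _ g _ (hpe_primF_heckeU hqN f)
    (hpe_primF_heckeU hqN g) γ g' σ hg'
  intro x
  exact s16ie_J_mul_heckeMatrix (NeZero.ne q) x.val (-x).val (m x) (hm x)

/-- **Equivariance of the period pair for `T_ℓ`.** -/
theorem s16ie_periodHomPair_heckeT {ℓ : ℕ} [NeZero ℓ] (hℓ : ℓ.Prime) (hℓN : ¬ ℓ ∣ N)
    (f g : CuspForm (Gamma0 N) 2) (γ : Gamma0 N) (g' : OnePoint (ZMod ℓ) → Gamma0 N)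
    (σ : Equiv.Perm (OnePoint (ZMod ℓ)))
    (hg' : ∀ x, heckeRep ℓ x * Matrix.SpecialLinearGroup.mapGL ℝ (γ : SL(2, ℤ)) =
      Matrix.SpecialLinearGroup.mapGL ℝ ((g' x : Gamma0 N) : SL(2, ℤ)) * heckeRep ℓ (σ x)) :
    periodHomPair N (CuspForm.heckeTLin 2 hℓ hℓN f, CuspForm.heckeTLin 2 hℓ hℓN g)
        (Additive.ofMul γ) =
      ∑ x : OnePoint (ZMod ℓ), periodHomPair N (f, g) (Additive.ofMul (g' x)) := by
  choose m hm using s16ie_exists_neg_val ℓ
  let ν : Equiv.Perm (OnePoint (ZMod ℓ)) := Equiv.optionCongr (Equiv.neg (ZMod ℓ))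
  let t : OnePoint (ZMod ℓ) → ℤ := fun x => Option.elim x 0 (fun j => -(m j))
  refine s16ie_periodHomPair_of_translates (heckeRep ℓ) ν t ?_ f _ g _
    (hpe_primF_heckeT hℓ hℓN f) (hpe_primF_heckeT hℓ hℓN g) γ g' σ hg'
  intro x
  induction x using OnePoint.rec with
  | infty => exact s16ie_J_mul_heckeDiagMatrix (NeZero.ne ℓ)
  | coe j => exact s16ie_J_mul_heckeMatrix (NeZero.ne ℓ) j.val (-j).val (m j) (hm j)

end

end Fermat.Agent.S16D
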