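import Mathlib
import Fermat.Prelude.Def_ModularCurve_PeriodHomPair
import Fermat.Prelude.Sol.S_ModularForm_heckeT_slash_eq_self_of_mem_Gamma0

/-!
# S16 (LOW): the Hecke correspondences commute with the involution `J`

The prelude's period pair is `Φ(f,g) = (1+J) pm f + (1-J) pm g`, where `J` is precomposition with
`jConjGamma0 N` (conjugation by `diag(1,-1)`).  To transport the Hecke action from cusp forms to
parabolic classes one needs that the function-level Hecke operators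
`(τ ψ)(γ) = ∑ₓ ψ(γ'ₓ)`, `αₓ γ = γ'ₓ α_{σ x}`, commute with `J`.  This file proves it, in a form which
only refers to the commutation relations, together with the uniqueness of the decomposition
`αₓ γ = γ' α_y`.
-/

set_option autoImplicit false

namespace Fermat.Agent.S16J

open CongruenceSubgroup Matrix.SpecialLinearGroup ModularCurve.Period
open scoped MatrixGroups

open P2MW.S_ModularForm_heckeT_slash_eq_self_of_mem_Gamma0.ModularForm.HeckeSlashInvariance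
open ModularForm

/-- `diag(1,-1)`. -/
noncomputable def s16j_E : GL (Fin 2) ℝ :=
  Matrix.GeneralLinearGroup.mkOfDetNeZero !![1, 0; 0, -1] (by simp [Matrix.det_fin_two_of])

theorem s16j_E_val : ((s16j_E : GL (Fin 2) ℝ) : Matrix (Fin 2) (Fin 2) ℝ) = !![1, 0; 0, -1] := rfl

theorem s16j_E_mul_E : s16j_E * s16j_E = 1 := by
  ext i j
  fin_cases i <;> fin_cases j <;> simp [s16j_E_val, Matrix.mul_apply, Fin.sum_univ_two]

theorem s16j_E_mapGL (g : SL(2, ℤ)) :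
    s16j_E * mapGL ℝ g * s16j_E = mapGL ℝ (jConjSL g) := by
  ext i j
  have h : ∀ i j, ((mapGL ℝ g : GL (Fin 2) ℝ) : Matrix (Fin 2) (Fin 2) ℝ) i j = ((g i j : ℤ) : ℝ) :=
    fun i j => mapGL_apply g i j
  have h' : ∀ i j, ((mapGL ℝ (jConjSL g) : GL (Fin 2) ℝ) : Matrix (Fin 2) (Fin 2) ℝ) i j =
      ((jConjSL g i j : ℤ) : ℝ) := fun i j => mapGL_apply (jConjSL g) i j
  rw [h']
  simp only [Units.val_mul, Matrix.mul_apply, Fin.sum_univ_two, h, s16j_E_val]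
  fin_cases i <;> fin_cases j <;> simp [jConjMat]

/-- The translation `[[1,k],[0,1]]`. -/
def s16j_transSL (k : ℤ) : SL(2, ℤ) := ⟨!![1, k; 0, 1], by simp [Matrix.det_fin_two_of]⟩

theorem s16j_transSL_apply (k : ℤ) (i j : Fin 2) :
    s16j_transSL k i j = (!![1, k; 0, 1] : Matrix (Fin 2) (Fin 2) ℤ) i j := rfl

/-- The translation `[[1,k],[0,1]]` as an element of `Γ₀(N)`. -/
def s16j_trans (N : ℕ) (k : ℤ) : Gamma0 N :=
  ⟨s16j_transSL k, by rw [Gamma0_mem, s16j_transSL_apply]; simp⟩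

theorem s16j_trans_apply (N : ℕ) (k : ℤ) (i j : Fin 2) :
    ((s16j_trans N k : Gamma0 N) : SL(2, ℤ)) i j = (!![1, k; 0, 1] : Matrix (Fin 2) (Fin 2) ℤ) i j :=
  rfl

/-- The translation amount: `j.val + (-j).val = ℓ * s16j_k j`. -/
def s16j_k {q : ℕ} (j : ZMod q) : ℤ := -(((j.val + (-j).val : ℕ) / q : ℕ) : ℤ)

theorem s16j_k_spec {q : ℕ} [NeZero q] (j : ZMod q) :
    (q : ℤ) * s16j_k j = -((j.val : ℤ) + ((-j).val : ℤ)) := by
  have hd : q ∣ j.val + (-j).val := by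
    rw [← ZMod.natCast_eq_zero_iff]
    push_cast
    rw [ZMod.natCast_zmod_val, ZMod.natCast_zmod_val, add_neg_cancel]
  rw [s16j_k, mul_neg, neg_inj]
  have := Nat.mul_div_cancel' hd
  exact_mod_cast this

theorem s16j_E_heckeMatrix_aux (N : ℕ) {q : ℕ} (hq : q ≠ 0) (m m' : ℕ) (k : ℤ)
    (hk : (q : ℤ) * k = -((m : ℤ) + (m' : ℤ))) :
    s16j_E * heckeMatrix q m * s16j_E =
      mapGL ℝ ((s16j_trans N k : Gamma0 N) : SL(2, ℤ)) * heckeMatrix q m' := by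
  have hk := congrArg (Int.cast : ℤ → ℝ) hk
  push_cast at hk
  ext a b
  have h : ∀ (g : SL(2, ℤ)) i j, ((mapGL ℝ g : GL (Fin 2) ℝ) : Matrix (Fin 2) (Fin 2) ℝ) i j =
      ((g i j : ℤ) : ℝ) := fun g i j => mapGL_apply g i j
  simp only [Units.val_mul, Matrix.mul_apply, Fin.sum_univ_two, h, s16j_E_val, val_heckeMatrix hq,
    s16j_trans_apply]
  fin_cases a <;> fin_cases b <;> simp
  linear_combination -hk

theorem s16j_E_heckeMatrix (N : ℕ) {q : ℕ} [NeZero q] (j : ZMod q) :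
    s16j_E * heckeMatrix q j.val * s16j_E =
      mapGL ℝ ((s16j_trans N (s16j_k j) : Gamma0 N) : SL(2, ℤ)) * heckeMatrix q (-j).val :=
  s16j_E_heckeMatrix_aux N (NeZero.ne q) _ _ _ (s16j_k_spec j)

theorem s16j_E_heckeDiagMatrix (N : ℕ) {q : ℕ} [NeZero q] :
    s16j_E * heckeDiagMatrix q * s16j_E =
      mapGL ℝ (((1 : Gamma0 N) : Gamma0 N) : SL(2, ℤ)) * heckeDiagMatrix q := by
  have hq : q ≠ 0 := NeZero.ne q
  rw [OneMemClass.coe_one, map_one, one_mul]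
  ext a b
  simp only [Units.val_mul, Matrix.mul_apply, Fin.sum_univ_two, s16j_E_val, val_heckeDiagMatrix hq]
  fin_cases a <;> fin_cases b <;> simp

section unique

variable {ℓ : ℕ}

theorem s16j_val_mapGL_mul_heckeMatrix (hℓ : ℓ ≠ 0) (a : SL(2, ℤ)) (m : ℕ) :
    ((mapGL ℝ a * heckeMatrix ℓ m : GL (Fin 2) ℝ) : Matrix (Fin 2) (Fin 2) ℝ) =
      !![((a 0 0 : ℤ) : ℝ), ((a 0 0 * m + a 0 1 * ℓ : ℤ) : ℝ);
         ((a 1 0 : ℤ) : ℝ), ((a 1 0 * m + a 1 1 * ℓ : ℤ) : ℝ)] := by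
  have h : ∀ (g : SL(2, ℤ)) i j, ((mapGL ℝ g : GL (Fin 2) ℝ) : Matrix (Fin 2) (Fin 2) ℝ) i j =
      ((g i j : ℤ) : ℝ) := fun g i j => mapGL_apply g i j
  ext i j
  simp only [Units.val_mul, Matrix.mul_apply, Fin.sum_univ_two, h, val_heckeMatrix hℓ]
  fin_cases i <;> fin_cases j <;> simp

theorem s16j_val_mapGL_mul_heckeDiagMatrix (hℓ : ℓ ≠ 0) (a : SL(2, ℤ)) :
    ((mapGL ℝ a * heckeDiagMatrix ℓ : GL (Fin 2) ℝ) : Matrix (Fin 2) (Fin 2) ℝ) =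
      !![((a 0 0 * ℓ : ℤ) : ℝ), ((a 0 1 : ℤ) : ℝ);
         ((a 1 0 * ℓ : ℤ) : ℝ), ((a 1 1 : ℤ) : ℝ)] := by
  have h : ∀ (g : SL(2, ℤ)) i j, ((mapGL ℝ g : GL (Fin 2) ℝ) : Matrix (Fin 2) (Fin 2) ℝ) i j =
      ((g i j : ℤ) : ℝ) := fun g i j => mapGL_apply g i j
  ext i j
  simp only [Units.val_mul, Matrix.mul_apply, Fin.sum_univ_two, h, val_heckeDiagMatrix hℓ]
  fin_cases i <;> fin_cases j <;> simp

/-- Entry extraction from an equality of real matrices with integer entries. -/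
theorem s16j_entries {x00 x01 x10 x11 y00 y01 y10 y11 : ℤ}
    (h : (!![(x00 : ℝ), (x01 : ℝ); (x10 : ℝ), (x11 : ℝ)] : Matrix (Fin 2) (Fin 2) ℝ) =
      !![(y00 : ℝ), (y01 : ℝ); (y10 : ℝ), (y11 : ℝ)]) :
    x00 = y00 ∧ x01 = y01 ∧ x10 = y10 ∧ x11 = y11 := by
  have h00 := congrFun (congrFun h 0) 0
  have h01 := congrFun (congrFun h 0) 1
  have h10 := congrFun (congrFun h 1) 0
  have h11 := congrFun (congrFun h 1) 1
  simp at h00 h01 h10 h11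
  exact ⟨h00, h01, h10, h11⟩

theorem s16j_mapGL_cancel (a b : SL(2, ℤ)) (M : GL (Fin 2) ℝ)
    (h : mapGL ℝ a * M = mapGL ℝ b * M) : a = b :=
  mapGL_injective (mul_right_cancel h)

theorem s16j_unique_mm (hℓ : ℓ ≠ 0) (a b : SL(2, ℤ)) (m m' : ℕ) (hm : m < ℓ) (hm' : m' < ℓ)
    (h : mapGL ℝ a * heckeMatrix ℓ m = mapGL ℝ b * heckeMatrix ℓ m') : m = m' ∧ a = b := by
  have hv := congrArg (fun M : GL (Fin 2) ℝ => (M : Matrix (Fin 2) (Fin 2) ℝ)) h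
  simp only [s16j_val_mapGL_mul_heckeMatrix hℓ] at hv
  obtain ⟨h00, h01, h10, h11⟩ := s16j_entries hv
  have hdet := det_eq a
  have hdvd : (ℓ : ℤ) ∣ (m : ℤ) - m' :=
    ⟨a 1 1 * (b 0 1 - a 0 1) - a 0 1 * (b 1 1 - a 1 1), by
      linear_combination (-(m : ℤ) + m') * hdet + a 1 1 * h01 - a 0 1 * h11
        - (a 1 1 * m') * h00 + (a 0 1 * m') * h10⟩
  have habs : |(m : ℤ) - m'| < ℓ := by
    rw [abs_lt]
    constructor <;> omega
  have hmm : m = m' := by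
    have := Int.eq_zero_of_abs_lt_dvd hdvd habs
    omega
  subst hmm
  exact ⟨rfl, s16j_mapGL_cancel a b _ h⟩

theorem s16j_not_dm (hℓ : 1 < ℓ) (a b : SL(2, ℤ)) (m' : ℕ)
    (h : mapGL ℝ a * heckeDiagMatrix ℓ = mapGL ℝ b * heckeMatrix ℓ m') : False := by
  have hℓ0 : ℓ ≠ 0 := by omega
  have hv := congrArg (fun M : GL (Fin 2) ℝ => (M : Matrix (Fin 2) (Fin 2) ℝ)) h
  simp only [s16j_val_mapGL_mul_heckeMatrix hℓ0, s16j_val_mapGL_mul_heckeDiagMatrix hℓ0] at hv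
  obtain ⟨h00, h01, h10, h11⟩ := s16j_entries hv
  have hdet := det_eq b
  have hdvd : (ℓ : ℤ) ∣ 1 :=
    ⟨a 0 0 * b 1 1 - b 0 1 * a 1 0, by
      linear_combination -hdet - b 1 1 * h00 + b 0 1 * h10⟩
  have := Int.le_of_dvd one_pos hdvd
  omega

/-- **Uniqueness of the decomposition `γ α_y`** (cosets of the `T_ℓ` representatives are
disjoint). -/
theorem s16j_heckeRep_unique (hℓ : 1 < ℓ) (a b : SL(2, ℤ)) (y y' : OnePoint (ZMod ℓ))
    (h : mapGL ℝ a * heckeRep ℓ y = mapGL ℝ b * heckeRep ℓ y') : y = y' ∧ a = b := by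
  have hℓ0 : ℓ ≠ 0 := by omega
  have : NeZero ℓ := ⟨hℓ0⟩
  induction y using OnePoint.rec with
  | infty =>
    induction y' using OnePoint.rec with
    | infty => exact ⟨rfl, s16j_mapGL_cancel a b _ h⟩
    | coe j' => exact (s16j_not_dm hℓ a b _ h).elim
  | coe j =>
    induction y' using OnePoint.rec with
    | infty => exact (s16j_not_dm hℓ b a _ h.symm).elim
    | coe j' =>
      obtain ⟨hv, hab⟩ := s16j_unique_mm hℓ0 a b j.val j'.val (ZMod.val_lt j) (ZMod.val_lt j') h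
      exact ⟨congrArg _ (ZMod.val_injective ℓ hv), hab⟩

/-- **Uniqueness of the decomposition `γ β_j`** (cosets of the `U_q` representatives are
disjoint). -/
theorem s16j_heckeMatrix_unique {q : ℕ} [NeZero q] (a b : SL(2, ℤ)) (j j' : ZMod q)
    (h : mapGL ℝ a * heckeMatrix q j.val = mapGL ℝ b * heckeMatrix q j'.val) : j = j' ∧ a = b := by
  obtain ⟨hv, hab⟩ := s16j_unique_mm (NeZero.ne q) a b j.val j'.val (ZMod.val_lt j)
    (ZMod.val_lt j') h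
  exact ⟨ZMod.val_injective q hv, hab⟩

end unique

section generic

variable {N : ℕ} {ι : Type*} [Fintype ι] {A : Type*} [AddCommGroup A]

theorem s16j_conj_mul (X Y : GL (Fin 2) ℝ) :
    (s16j_E * X * s16j_E) * (s16j_E * Y * s16j_E) = s16j_E * (X * Y) * s16j_E := by
  calc (s16j_E * X * s16j_E) * (s16j_E * Y * s16j_E)
      = s16j_E * X * (s16j_E * s16j_E) * Y * s16j_E := by simp only [mul_assoc]
    _ = s16j_E * (X * Y) * s16j_E := by rw [s16j_E_mul_E, mul_one]; simp only [mul_assoc]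

omit [Fintype ι] in
/-- The pointwise form of the `J`-commutation: the decomposition of `α_{ν x} · j(γ)`. -/
theorem s16j_generic_pointwise (R : ι → GL (Fin 2) ℝ) (ν : ι → ι) (t : ι → Gamma0 N)
    (hE : ∀ y, s16j_E * R y * s16j_E = mapGL ℝ ((t y : Gamma0 N) : SL(2, ℤ)) * R (ν y))
    (huniq : ∀ (a b : SL(2, ℤ)) (y y' : ι), mapGL ℝ a * R y = mapGL ℝ b * R y' → a = b)
    (σ τ : ι → ι) (g : Gamma0 N) (g' h' : ι → Gamma0 N)
    (h1 : ∀ x, R x * mapGL ℝ ((g : Gamma0 N) : SL(2, ℤ)) =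
      mapGL ℝ ((g' x : Gamma0 N) : SL(2, ℤ)) * R (σ x))
    (h2 : ∀ x, R x * mapGL ℝ ((jConjGamma0 N g : Gamma0 N) : SL(2, ℤ)) =
      mapGL ℝ ((h' x : Gamma0 N) : SL(2, ℤ)) * R (τ x)) (x : ι) :
    h' (ν x) = (t x)⁻¹ * jConjGamma0 N (g' x) * t (σ x) := by
  apply Subtype.ext
  apply huniq _ _ (τ (ν x)) (ν (σ x))
  rw [← h2 (ν x)]
  have e1 : R (ν x) = (mapGL ℝ ((t x : Gamma0 N) : SL(2, ℤ)))⁻¹ * (s16j_E * R x * s16j_E) := by
    rw [hE x, inv_mul_cancel_left]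
  have e2 : mapGL ℝ ((jConjGamma0 N g : Gamma0 N) : SL(2, ℤ)) =
      s16j_E * mapGL ℝ ((g : Gamma0 N) : SL(2, ℤ)) * s16j_E := by
    rw [s16j_E_mapGL]; rfl
  have e3 : mapGL ℝ ((jConjGamma0 N (g' x) : Gamma0 N) : SL(2, ℤ)) =
      s16j_E * mapGL ℝ ((g' x : Gamma0 N) : SL(2, ℤ)) * s16j_E := by
    rw [s16j_E_mapGL]; rfl
  rw [Subgroup.coe_mul, Subgroup.coe_mul, Subgroup.coe_inv, map_mul, map_mul, map_inv, e3,
    mul_assoc, mul_assoc, ← hE (σ x), s16j_conj_mul, ← h1 x, e1, e2, mul_assoc, s16j_conj_mul]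

/-- **Generic `J`-commutation of a Hecke correspondence.** -/
theorem s16j_generic_sum (R : ι → GL (Fin 2) ℝ) (ν : Equiv.Perm ι) (t : ι → Gamma0 N)
    (hE : ∀ y, s16j_E * R y * s16j_E = mapGL ℝ ((t y : Gamma0 N) : SL(2, ℤ)) * R (ν y))
    (huniq : ∀ (a b : SL(2, ℤ)) (y y' : ι), mapGL ℝ a * R y = mapGL ℝ b * R y' → a = b)
    (ψ : Additive (Gamma0 N) →+ A) (σ : Equiv.Perm ι) (τ : ι → ι) (g : Gamma0 N)
    (g' h' : ι → Gamma0 N)
    (h1 : ∀ x, R x * mapGL ℝ ((g : Gamma0 N) : SL(2, ℤ)) =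
      mapGL ℝ ((g' x : Gamma0 N) : SL(2, ℤ)) * R (σ x))
    (h2 : ∀ x, R x * mapGL ℝ ((jConjGamma0 N g : Gamma0 N) : SL(2, ℤ)) =
      mapGL ℝ ((h' x : Gamma0 N) : SL(2, ℤ)) * R (τ x)) :
    ∑ x, ψ (Additive.ofMul (h' x)) = ∑ x, ψ (Additive.ofMul (jConjGamma0 N (g' x))) := by
  have key := s16j_generic_pointwise R ν t hE huniq σ τ g g' h' h1 h2
  rw [← Equiv.sum_comp ν (fun x => ψ (Additive.ofMul (h' x)))]
  have hx : ∀ x, ψ (Additive.ofMul (h' (ν x))) =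
      ψ (Additive.ofMul (jConjGamma0 N (g' x))) + ψ (Additive.ofMul (t (σ x)))
        - ψ (Additive.ofMul (t x)) := fun x => by
    rw [key x, ofMul_mul, ofMul_mul, ofMul_inv, map_add, map_add, map_neg]
    abel
  rw [Finset.sum_congr rfl fun x _ => hx x, Finset.sum_sub_distrib, Finset.sum_add_distrib,
    Equiv.sum_comp σ (fun y => ψ (Additive.ofMul (t y))), add_sub_cancel_right]

end generic

section TU

variable {N : ℕ} {A : Type*} [AddCommGroup A]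

/-- `x ↦ -x` on `P¹(ℤ/ℓ)`. -/
def s16j_neg (ℓ : ℕ) : Equiv.Perm (OnePoint (ZMod ℓ)) := Equiv.optionCongr (Equiv.neg (ZMod ℓ))

theorem s16j_neg_infty (ℓ : ℕ) : s16j_neg ℓ (OnePoint.infty) = OnePoint.infty := rfl

theorem s16j_neg_coe (ℓ : ℕ) (j : ZMod ℓ) :
    s16j_neg ℓ ((j : ZMod ℓ) : OnePoint (ZMod ℓ)) = ((-j : ZMod ℓ) : OnePoint (ZMod ℓ)) := rfl

/-- The translations relating `E α_y E` and `α_{-y}`. -/
def s16j_t (N ℓ : ℕ) (y : OnePoint (ZMod ℓ)) : Gamma0 N :=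
  y.elim 1 (fun j => s16j_trans N (s16j_k j))

theorem s16j_E_heckeRep (N : ℕ) {ℓ : ℕ} [NeZero ℓ] (y : OnePoint (ZMod ℓ)) :
    s16j_E * heckeRep ℓ y * s16j_E =
      mapGL ℝ ((s16j_t N ℓ y : Gamma0 N) : SL(2, ℤ)) * heckeRep ℓ (s16j_neg ℓ y) := by
  induction y using OnePoint.rec with
  | infty => exact s16j_E_heckeDiagMatrix N
  | coe j => exact s16j_E_heckeMatrix N j

/-- **`J`-commutation of `T_ℓ`**: `(τ_ℓ ψ)(j γ) = (τ_ℓ (ψ ∘ j))(γ)`, for any families `γ'`, `h'`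
satisfying the commutation relations of the prelude's `heckeRep_mul`. -/
theorem s16j_sum_T {ℓ : ℕ} [NeZero ℓ] (hℓ : 1 < ℓ) (ψ : Additive (Gamma0 N) →+ A)
    (σ : Equiv.Perm (OnePoint (ZMod ℓ))) (τ : OnePoint (ZMod ℓ) → OnePoint (ZMod ℓ))
    (g : Gamma0 N) (g' h' : OnePoint (ZMod ℓ) → Gamma0 N)
    (h1 : ∀ x, heckeRep ℓ x * mapGL ℝ ((g : Gamma0 N) : SL(2, ℤ)) =
      mapGL ℝ ((g' x : Gamma0 N) : SL(2, ℤ)) * heckeRep ℓ (σ x))
    (h2 : ∀ x, heckeRep ℓ x * mapGL ℝ ((jConjGamma0 N g : Gamma0 N) : SL(2, ℤ)) =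
      mapGL ℝ ((h' x : Gamma0 N) : SL(2, ℤ)) * heckeRep ℓ (τ x)) :
    ∑ x, ψ (Additive.ofMul (h' x)) = ∑ x, ψ (Additive.ofMul (jConjGamma0 N (g' x))) := by
  exact s16j_generic_sum (heckeRep ℓ) (s16j_neg ℓ) (s16j_t N ℓ) (s16j_E_heckeRep N)
    (fun a b y y' h => (s16j_heckeRep_unique hℓ a b y y' h).2) ψ σ τ g g' h' h1 h2

/-- **`J`-commutation of `U_q`**, for any families satisfying the commutation relations of the
prelude's `heckeMatrix_mul_of_dvd`. -/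
theorem s16j_sum_U {q : ℕ} [NeZero q] (ψ : Additive (Gamma0 N) →+ A)
    (σ : Equiv.Perm (ZMod q)) (τ : ZMod q → ZMod q)
    (g : Gamma0 N) (g' h' : ZMod q → Gamma0 N)
    (h1 : ∀ x : ZMod q, heckeMatrix q x.val * mapGL ℝ ((g : Gamma0 N) : SL(2, ℤ)) =
      mapGL ℝ ((g' x : Gamma0 N) : SL(2, ℤ)) * heckeMatrix q (σ x).val)
    (h2 : ∀ x : ZMod q, heckeMatrix q x.val * mapGL ℝ ((jConjGamma0 N g : Gamma0 N) : SL(2, ℤ)) =
      mapGL ℝ ((h' x : Gamma0 N) : SL(2, ℤ)) * heckeMatrix q (τ x).val) :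
    ∑ x, ψ (Additive.ofMul (h' x)) = ∑ x, ψ (Additive.ofMul (jConjGamma0 N (g' x))) :=
  s16j_generic_sum (fun x : ZMod q => heckeMatrix q x.val) (Equiv.neg (ZMod q))
    (fun j => s16j_trans N (s16j_k j)) (fun j => s16j_E_heckeMatrix N j)
    (fun a b y y' h => (s16j_heckeMatrix_unique a b y y' h).2) ψ σ τ g g' h' h1 h2

/-- `s16j_sum_T` in terms of the prelude's `charInvolution`: `τ_ℓ (J ψ) (γ) = (τ_ℓ ψ)(j γ)`. -/
theorem s16j_sum_T_charInvolution (R : Type*) [Semiring R] [Module R A] {ℓ : ℕ} [NeZero ℓ]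
    (hℓ : 1 < ℓ) (ψ : Additive (Gamma0 N) →+ A)
    (σ : Equiv.Perm (OnePoint (ZMod ℓ))) (τ : OnePoint (ZMod ℓ) → OnePoint (ZMod ℓ))
    (g : Gamma0 N) (g' h' : OnePoint (ZMod ℓ) → Gamma0 N)
    (h1 : ∀ x, heckeRep ℓ x * mapGL ℝ ((g : Gamma0 N) : SL(2, ℤ)) =
      mapGL ℝ ((g' x : Gamma0 N) : SL(2, ℤ)) * heckeRep ℓ (σ x))
    (h2 : ∀ x, heckeRep ℓ x * mapGL ℝ ((jConjGamma0 N g : Gamma0 N) : SL(2, ℤ)) =
      mapGL ℝ ((h' x : Gamma0 N) : SL(2, ℤ)) * heckeRep ℓ (τ x)) :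
    ∑ x, (charInvolution N R A ψ) (Additive.ofMul (g' x)) = ∑ x, ψ (Additive.ofMul (h' x)) :=
  (s16j_sum_T hℓ ψ σ τ g g' h' h1 h2).symm

/-- `s16j_sum_U` in terms of the prelude's `charInvolution`. -/
theorem s16j_sum_U_charInvolution (R : Type*) [Semiring R] [Module R A] {q : ℕ} [NeZero q]
    (ψ : Additive (Gamma0 N) →+ A)
    (σ : Equiv.Perm (ZMod q)) (τ : ZMod q → ZMod q)
    (g : Gamma0 N) (g' h' : ZMod q → Gamma0 N)
    (h1 : ∀ x : ZMod q, heckeMatrix q x.val * mapGL ℝ ((g : Gamma0 N) : SL(2, ℤ)) =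
      mapGL ℝ ((g' x : Gamma0 N) : SL(2, ℤ)) * heckeMatrix q (σ x).val)
    (h2 : ∀ x : ZMod q, heckeMatrix q x.val * mapGL ℝ ((jConjGamma0 N g : Gamma0 N) : SL(2, ℤ)) =
      mapGL ℝ ((h' x : Gamma0 N) : SL(2, ℤ)) * heckeMatrix q (τ x).val) :
    ∑ x, (charInvolution N R A ψ) (Additive.ofMul (g' x)) = ∑ x, ψ (Additive.ofMul (h' x)) :=
  (s16j_sum_U ψ σ τ g g' h' h1 h2).symm

end TU

end Fermat.Agent.S16J
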