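import Mathlib
import Fermat.Prelude.Def_ModularCurve_PeriodMap

/-!
# S16, stream [D] (LOW): the group-free half of the integral lifting (L1)

For a finitely generated group `G`, sets `S` ("parabolic") and `S'` ("elliptic", torsion) of
elements, and `r ≤ dim_ℂ Hom_S(G, ℂ)`: if for every prime `ℓ ∣ n` the number of homomorphisms
`G → ℤ/ℓ` killing `S ∪ S'` is at most `ℓ ^ r`, then every homomorphism `G → ℤ/n` killing
`S ∪ S'` lifts to a homomorphism `G → ℤ` killing `S`.
-/

set_option autoImplicit false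
set_option linter.unusedSectionVars false
set_option linter.style.longLine false

namespace Fermat.Agent.S16L

open Module

variable {G : Type*} [Group G]

/-- `φ` kills every element of the set `S`. -/
def s16la_Kills {A : Type*} [AddZeroClass A] (S : Set G) (φ : Additive G →+ A) : Prop :=
  ∀ g ∈ S, φ (Additive.ofMul g) = 0

/-- Two additive characters agreeing on a generating set agree. -/
theorem s16la_ext_of_gen {A : Type*} [AddCommGroup A] {T : Set G} (hT : Subgroup.closure T = ⊤)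
    {φ ψ : Additive G →+ A} (h : ∀ t ∈ T, φ (Additive.ofMul t) = ψ (Additive.ofMul t)) : φ = ψ := by
  have key : ∀ g : G, φ (Additive.ofMul g) = ψ (Additive.ofMul g) := by
    intro g
    have hg : g ∈ Subgroup.closure T := by rw [hT]; trivial
    induction hg using Subgroup.closure_induction with
    | mem x hx => exact h x hx
    | one => rw [ofMul_one, map_zero, map_zero]
    | mul x y _ _ hx hy => rw [ofMul_mul, map_add, map_add, hx, hy]
    | inv x _ hx => rw [ofMul_inv, map_neg, map_neg, hx]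
  ext g
  exact key (Additive.toMul g)

/-- Values of an additive character lie in any additive subgroup containing the values on
generators. -/
theorem s16la_mem_of_gen {A : Type*} [AddCommGroup A] {T : Set G} (hT : Subgroup.closure T = ⊤)
    (φ : Additive G →+ A) (H : AddSubgroup A) (h : ∀ t ∈ T, φ (Additive.ofMul t) ∈ H) (g : G) :
    φ (Additive.ofMul g) ∈ H := by
  have hg : g ∈ Subgroup.closure T := by rw [hT]; trivial
  induction hg using Subgroup.closure_induction with
  | mem x hx => exact h x hx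
  | one => rw [ofMul_one, map_zero]; exact H.zero_mem
  | mul x y _ _ hx hy => rw [ofMul_mul, map_add]; exact H.add_mem hx hy
  | inv x _ hx => rw [ofMul_inv, map_neg]; exact H.neg_mem hx

/-- An integer valued character kills torsion. -/
theorem s16la_int_kills_torsion (ψ : Additive G →+ ℤ) {g : G} (hg : IsOfFinOrder g) :
    ψ (Additive.ofMul g) = 0 := by
  obtain ⟨m, hm, hgm⟩ := isOfFinOrder_iff_pow_eq_one.mp hg
  have h1 : ψ (Additive.ofMul (g ^ m)) = 0 := by rw [hgm, ofMul_one, map_zero]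
  rw [ofMul_pow, map_nsmul, nsmul_eq_mul] at h1
  rcases mul_eq_zero.mp h1 with h | h
  · exact absurd (by exact_mod_cast h) hm.ne'
  · exact h

/-- the lattice of integer valued characters killing `S` -/
def s16la_L (S : Set G) : Submodule ℤ (Additive G →+ ℤ) where
  carrier := {ψ | s16la_Kills S ψ}
  zero_mem' := fun _ _ => rfl
  add_mem' := by
    intro φ ψ hφ hψ g hg
    show φ (Additive.ofMul g) + ψ (Additive.ofMul g) = 0
    rw [hφ g hg, hψ g hg, add_zero]
  smul_mem' := by
    intro c φ hφ g hg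
    show c • φ (Additive.ofMul g) = 0
    rw [hφ g hg, smul_zero]

/-- a rational character with integral values comes from an integral character -/
theorem s16la_intLift (f : Additive G →+ ℚ) (hf : ∀ x, f x ∈ (Int.castAddHom ℚ).range) :
    ∃ ψ : Additive G →+ ℤ, ∀ x, ((ψ x : ℤ) : ℚ) = f x := by
  let e : ℤ ≃+ (Int.castAddHom ℚ).range :=
    AddMonoidHom.ofInjective (f := Int.castAddHom ℚ) Int.cast_injective
  refine ⟨e.symm.toAddMonoidHom.comp (f.codRestrict _ hf), fun x => ?_⟩
  have h : (e (e.symm (f.codRestrict _ hf x)) : ℚ) = f x := by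
    rw [e.apply_symm_apply]; rfl
  exact h

/-- the complexification of an integral character -/
def s16la_toC (ψ : Additive G →+ ℤ) : Additive G →+ ℂ := (Int.castAddHom ℂ).comp ψ

@[simp] theorem s16la_toC_apply (ψ : Additive G →+ ℤ) (x : Additive G) :
    s16la_toC ψ x = ((ψ x : ℤ) : ℂ) := rfl

theorem s16la_mem_L {S : Set G} {ψ : Additive G →+ ℤ} : ψ ∈ s16la_L S ↔ s16la_Kills S ψ := Iff.rfl

/-- evaluation at a set of elements -/
def s16la_ev (A : Type*) [AddCommGroup A] (T : Set G) : (Additive G →+ A) →ₗ[ℤ] (T → A) where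
  toFun φ t := φ (Additive.ofMul (t : G))
  map_add' _ _ := rfl
  map_smul' _ _ := rfl

theorem s16la_ev_injective (A : Type*) [AddCommGroup A] {T : Set G} (hT : Subgroup.closure T = ⊤) :
    Function.Injective (s16la_ev (G := G) A T) := by
  intro φ ψ h
  exact s16la_ext_of_gen hT fun t ht => congrFun h ⟨t, ht⟩

theorem s16la_torsionFree_hom : IsAddTorsionFree (Additive G →+ ℤ) where
  nsmul_right_injective n hn a b hab := by
    ext g
    have h : n • a g = n • b g := congrArg (fun f : Additive G →+ ℤ => f g) hab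
    exact nsmul_right_injective hn h

theorem s16la_torsionFree_L (S : Set G) : IsAddTorsionFree (s16la_L S) where
  nsmul_right_injective n hn a b hab := by
    have := s16la_torsionFree_hom (G := G)
    apply Subtype.ext
    have h : n • (a : Additive G →+ ℤ) = n • (b : Additive G →+ ℤ) := congrArg Subtype.val hab
    exact nsmul_right_injective hn h

/-- complexification as a `ℤ`-linear map -/
def s16la_toCl : (Additive G →+ ℤ) →ₗ[ℤ] (Additive G →+ ℂ) where
  toFun := s16la_toC
  map_add' a b := by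
    refine DFunLike.ext _ _ fun x => ?_
    simp [s16la_toC]
  map_smul' m a := by
    refine DFunLike.ext _ _ fun x => ?_
    simp [s16la_toC]

/-- reduction mod `n` of an integral character -/
def s16la_red (n : ℕ) : (Additive G →+ ℤ) →+ (Additive G →+ ZMod n) where
  toFun ψ := (Int.castAddHom (ZMod n)).comp ψ
  map_zero' := by refine DFunLike.ext _ _ fun x => ?_; simp
  map_add' a b := by refine DFunLike.ext _ _ fun x => ?_; simp

@[simp] theorem s16la_red_apply (n : ℕ) (ψ : Additive G →+ ℤ) (x : Additive G) :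
    s16la_red n ψ x = ((ψ x : ℤ) : ZMod n) := rfl

theorem s16la_red_kills {n : ℕ} {S S' : Set G} (hS' : ∀ g ∈ S', IsOfFinOrder g)
    {ψ : Additive G →+ ℤ} (hψ : s16la_Kills S ψ) : s16la_Kills (S ∪ S') (s16la_red n ψ) := by
  rintro g (hg | hg)
  · rw [s16la_red_apply, hψ g hg, Int.cast_zero]
  · rw [s16la_red_apply, s16la_int_kills_torsion ψ (hS' g hg), Int.cast_zero]

/-- **saturation** of the lattice inside all integral characters -/
theorem s16la_saturated (S : Set G) (ℓ : ℕ) (ψ : Additive G →+ ℤ)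
    (hψ : s16la_Kills S ψ) (h0 : s16la_red ℓ ψ = 0) :
    ∃ ψ' : Additive G →+ ℤ, s16la_Kills S ψ' ∧ ψ = (ℓ : ℤ) • ψ' := by
  have hdvd : ∀ x, (ℓ : ℤ) ∣ ψ x := fun x =>
    (ZMod.intCast_zmod_eq_zero_iff_dvd _ _).mp (by rw [← s16la_red_apply, h0]; rfl)
  by_cases hℓ : ℓ = 0
  · subst hℓ
    refine ⟨0, fun _ _ => rfl, ?_⟩
    refine DFunLike.ext _ _ fun x => ?_
    have := hdvd x
    simpa using this
  have hℓ' : (ℓ : ℤ) ≠ 0 := by exact_mod_cast hℓ
  refine ⟨{ toFun := fun x => ψ x / (ℓ : ℤ)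
            map_zero' := by simp
            map_add' := fun x y => by
              rw [map_add, Int.add_ediv_of_dvd_left (hdvd x)] }, ?_, ?_⟩
  · intro g hg
    show ψ (Additive.ofMul g) / (ℓ : ℤ) = 0
    rw [hψ g hg, Int.zero_ediv]
  · refine DFunLike.ext _ _ fun x => ?_
    show ψ x = (ℓ : ℤ) • (ψ x / (ℓ : ℤ))
    rw [smul_eq_mul, Int.mul_ediv_cancel' (hdvd x)]

/-- multiplication by `a` as a map `ZMod b → ZMod (a * b)` -/
def s16la_mulHom (a b : ℕ) : ZMod b →+ ZMod (a * b) :=
  ZMod.lift b ⟨(AddMonoidHom.mulLeft (a : ZMod (a * b))).comp (Int.castAddHom _), by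
    show (a : ZMod (a * b)) * ((b : ℤ) : ZMod (a * b)) = 0
    have : ((a * b : ℕ) : ZMod (a * b)) = 0 := ZMod.natCast_self _
    push_cast at this ⊢
    exact this⟩

theorem s16la_mulHom_intCast (a b : ℕ) (k : ℤ) :
    s16la_mulHom a b (k : ZMod b) = (a : ZMod (a * b)) * (k : ZMod (a * b)) :=
  ZMod.lift_coe _ _ _

theorem s16la_mulHom_injective (a b : ℕ) (ha : a ≠ 0) : Function.Injective (s16la_mulHom a b) := by
  rw [injective_iff_map_eq_zero]
  intro x hx
  obtain ⟨k, rfl⟩ := ZMod.intCast_surjective x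
  rw [s16la_mulHom_intCast] at hx
  have h1 : (((a : ℤ) * k : ℤ) : ZMod (a * b)) = 0 := by push_cast; exact hx
  rw [ZMod.intCast_zmod_eq_zero_iff_dvd] at h1 ⊢
  have ha' : (a : ℤ) ≠ 0 := by exact_mod_cast ha
  push_cast at h1
  exact (mul_dvd_mul_iff_left ha').mp h1

theorem s16la_mem_range_mulHom (a b : ℕ) (y : ZMod (a * b))
    (hy : ZMod.castHom (Dvd.intro b rfl) (ZMod a) y = 0) : y ∈ (s16la_mulHom a b).range := by
  obtain ⟨k, rfl⟩ := ZMod.intCast_surjective y
  rw [ZMod.castHom_apply, ZMod.cast_intCast (Dvd.intro b rfl), ZMod.intCast_zmod_eq_zero_iff_dvd] at hy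
  obtain ⟨k', rfl⟩ := hy
  refine ⟨(k' : ZMod b), ?_⟩
  rw [s16la_mulHom_intCast]
  push_cast
  rfl

/-- the lifting property for the modulus `m` -/
def s16la_Liftable (S S' : Set G) (m : ℕ) : Prop :=
  ∀ φ : Additive G →+ ZMod m, s16la_Kills (S ∪ S') φ →
    ∃ ψ : Additive G →+ ℤ, s16la_Kills S ψ ∧ ∀ x, ((ψ x : ℤ) : ZMod m) = φ x

theorem s16la_liftable_zero (S S' : Set G) : s16la_Liftable S S' 0 := by
  intro φ hφ
  exact ⟨φ, fun g hg => hφ g (Or.inl hg), fun x => Int.cast_id⟩

theorem s16la_liftable_one (S S' : Set G) : s16la_Liftable S S' 1 := by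
  intro φ hφ
  exact ⟨0, fun _ _ => rfl, fun x => Subsingleton.elim _ _⟩

/-- successive approximation -/
theorem s16la_liftable_mul (S S' : Set G) (hS' : ∀ g ∈ S', IsOfFinOrder g) (a b : ℕ)
    (ha : s16la_Liftable S S' a) (hb : s16la_Liftable S S' b) : s16la_Liftable S S' (a * b) := by
  by_cases ha0 : a = 0
  · subst ha0
    rw [Nat.zero_mul]
    exact s16la_liftable_zero S S'
  intro φ hφ
  -- step 1: lift mod a
  let φ₁ : Additive G →+ ZMod a :=
    (ZMod.castHom (Dvd.intro b rfl : a ∣ a * b) (ZMod a)).toAddMonoidHom.comp φ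
  have hφ₁ : s16la_Kills (S ∪ S') φ₁ := by
    intro g hg
    show ZMod.castHom (Dvd.intro b rfl : a ∣ a * b) (ZMod a) (φ (Additive.ofMul g)) = 0
    rw [hφ g hg, map_zero]
  obtain ⟨ψ₁, hψ₁S, hψ₁⟩ := ha φ₁ hφ₁
  -- step 2: the difference
  let δ : Additive G →+ ZMod (a * b) := φ - s16la_red (a * b) ψ₁
  have hδ : s16la_Kills (S ∪ S') δ := by
    intro g hg
    show φ (Additive.ofMul g) - s16la_red (a * b) ψ₁ (Additive.ofMul g) = 0
    rw [hφ g hg, s16la_red_kills hS' hψ₁S g hg, sub_zero]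
  have hδrange : ∀ x, δ x ∈ (s16la_mulHom a b).range := by
    intro x
    apply s16la_mem_range_mulHom
    show ZMod.castHom (Dvd.intro b rfl : a ∣ a * b) (ZMod a) (φ x - ((ψ₁ x : ℤ) : ZMod (a * b))) = 0
    rw [map_sub, map_intCast, hψ₁ x]
    exact sub_self _
  let e : ZMod b ≃+ (s16la_mulHom a b).range :=
    AddMonoidHom.ofInjective (s16la_mulHom_injective a b ha0)
  let χ : Additive G →+ ZMod b := e.symm.toAddMonoidHom.comp (δ.codRestrict _ hδrange)
  have hχ : ∀ x, s16la_mulHom a b (χ x) = δ x := by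
    intro x
    have h : (e (e.symm (δ.codRestrict _ hδrange x)) : ZMod (a * b)) = δ x := by
      rw [e.apply_symm_apply]; rfl
    exact h
  have hχS : s16la_Kills (S ∪ S') χ := by
    intro g hg
    apply s16la_mulHom_injective a b ha0
    rw [hχ, map_zero]
    exact hδ g hg
  obtain ⟨χ', hχ'S, hχ'⟩ := hb χ hχS
  refine ⟨ψ₁ + (a : ℤ) • χ', ?_, fun x => ?_⟩
  · intro g hg
    show ψ₁ (Additive.ofMul g) + (a : ℤ) • χ' (Additive.ofMul g) = 0
    rw [hψ₁S g hg, hχ'S g hg, smul_zero, add_zero]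
  · show (((ψ₁ x + (a : ℤ) • χ' x : ℤ)) : ZMod (a * b)) = φ x
    have h1 := hχ x
    rw [← hχ' x, s16la_mulHom_intCast] at h1
    have h2 : δ x = φ x - ((ψ₁ x : ℤ) : ZMod (a * b)) := rfl
    rw [h2] at h1
    rw [smul_eq_mul]
    push_cast
    rw [h1]
    ring

/-- from the prime divisors to the modulus -/
theorem s16la_liftable_of_primes (S S' : Set G) (hS' : ∀ g ∈ S', IsOfFinOrder g) (n : ℕ)
    (h : ∀ ℓ : ℕ, ℓ.Prime → ℓ ∣ n → s16la_Liftable S S' ℓ) : s16la_Liftable S S' n := by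
  induction n using Nat.recOnMul with
  | zero => exact s16la_liftable_zero S S'
  | one => exact s16la_liftable_one S S'
  | prime p hp => exact h p hp dvd_rfl
  | mul a b iha ihb =>
    exact s16la_liftable_mul S S' hS' a b
      (iha fun ℓ hℓ hd => h ℓ hℓ (hd.mul_right b)) (ihb fun ℓ hℓ hd => h ℓ hℓ (hd.mul_left a))

/-! ### Finitely generated groups -/

variable [hG : Group.FG G]

theorem s16la_finite_hom : Module.Finite ℤ (Additive G →+ ℤ) := by
  obtain ⟨T, hT, hTfin⟩ := Group.fg_iff.mp hG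
  have : Finite T := hTfin
  exact Module.Finite.of_injective (s16la_ev ℤ T) (s16la_ev_injective ℤ hT)

theorem s16la_finite_L (S : Set G) : Module.Finite ℤ (s16la_L S) := by
  have := s16la_finite_hom (G := G)
  infer_instance

theorem s16la_free_L (S : Set G) : Module.Free ℤ (s16la_L S) := by
  have := s16la_torsionFree_L (G := G) S
  have := s16la_finite_L (G := G) S
  exact Module.free_of_finite_type_torsion_free'

theorem s16la_finite_homZMod (n : ℕ) [NeZero n] : Finite (Additive G →+ ZMod n) := by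
  obtain ⟨T, hT, hTfin⟩ := Group.fg_iff.mp hG
  have : Finite T := hTfin
  exact Finite.of_injective _ (s16la_ev_injective (ZMod n) hT)

/-- **ℚ-structure**: complex characters killing `S` are complex combinations of integral ones. -/
theorem s16la_mem_span (S : Set G) (φ : Additive G →+ ℂ) (hφ : s16la_Kills S φ) :
    φ ∈ Submodule.span ℂ (Set.range fun ψ : s16la_L S => s16la_toC (ψ : Additive G →+ ℤ)) := by
  obtain ⟨T, hT, hTfin⟩ := Group.fg_iff.mp hG
  set W : Submodule ℚ ℂ := Submodule.span ℚ ((fun t => φ (Additive.ofMul t)) '' T) with hW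
  have hWfd : FiniteDimensional ℚ W := FiniteDimensional.span_of_finite ℚ (hTfin.image _)
  have hmemW : ∀ x : Additive G, φ x ∈ W := by
    intro x
    have := s16la_mem_of_gen hT φ W.toAddSubgroup
      (fun t ht => Submodule.subset_span ⟨t, ht, rfl⟩) (Additive.toMul x)
    simpa using this
  let φW : Additive G →+ W := φ.codRestrict W hmemW
  let b := Module.finBasis ℚ W
  let c : Fin (finrank ℚ W) → (Additive G →+ ℚ) := fun j => (b.coord j).toAddMonoidHom.comp φW
  have hcS : ∀ j, s16la_Kills S (c j) := by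
    intro j g hg
    have h0 : φW (Additive.ofMul g) = 0 := Subtype.ext (hφ g hg)
    show b.coord j (φW (Additive.ofMul g)) = 0
    rw [h0, map_zero]
  -- common denominator
  set D : ℕ := ∏ j, ∏ t ∈ hTfin.toFinset, (c j (Additive.ofMul t)).den with hD
  have hDpos : 0 < D := Finset.prod_pos fun j _ => Finset.prod_pos fun t _ => Rat.den_pos _
  have hDint : ∀ j, ∀ x : Additive G, ((D : ℚ) * c j x) ∈ (Int.castAddHom ℚ).range := by
    intro j x
    have := s16la_mem_of_gen hT ((AddMonoidHom.mulLeft (D : ℚ)).comp (c j)) (Int.castAddHom ℚ).range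
      (fun t ht => ?_) (Additive.toMul x)
    · simpa using this
    · have hdvd : (c j (Additive.ofMul t)).den ∣ D := by
        refine Dvd.dvd.trans ?_ (Finset.dvd_prod_of_mem _ (Finset.mem_univ j))
        exact Finset.dvd_prod_of_mem (fun t => (c j (Additive.ofMul t)).den) (hTfin.mem_toFinset.mpr ht)
      obtain ⟨k, hk⟩ := hdvd
      refine ⟨(k : ℤ) * (c j (Additive.ofMul t)).num, ?_⟩
      show ((((k : ℤ) * (c j (Additive.ofMul t)).num : ℤ)) : ℚ) = (D : ℚ) * c j (Additive.ofMul t)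
      rw [hk]
      push_cast
      have := Rat.den_mul_eq_num (c j (Additive.ofMul t))
      rw [← this]; ring
  choose ψ hψ using fun j => s16la_intLift ((AddMonoidHom.mulLeft (D : ℚ)).comp (c j)) (hDint j)
  have hψS : ∀ j, ψ j ∈ s16la_L S := by
    intro j g hg
    have h1 := hψ j (Additive.ofMul g)
    have h2 : ((AddMonoidHom.mulLeft (D : ℚ)).comp (c j)) (Additive.ofMul g) = 0 := by
      show (D : ℚ) * c j (Additive.ofMul g) = 0
      rw [hcS j g hg, mul_zero]
    rw [h2] at h1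
    exact_mod_cast h1
  have hsum : φ = ∑ j, (((b j : W) : ℂ) / (D : ℂ)) • s16la_toC (ψ j) := by
    refine DFunLike.ext _ _ fun x => ?_
    rw [AddMonoidHom.finsetSum_apply]
    have h1 : (φ x : ℂ) = ((φW x : W) : ℂ) := rfl
    have h2 : (φW x : W) = ∑ j, b.repr (φW x) j • b j := (b.sum_repr (φW x)).symm
    rw [h1, h2]
    push_cast
    refine Finset.sum_congr rfl fun j _ => ?_
    rw [Pi.smul_apply, s16la_toC_apply]
    have h3 : ((ψ j x : ℤ) : ℂ) = (D : ℂ) * ((c j x : ℚ) : ℂ) := by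
      have := hψ j x
      have h4 : ((ψ j x : ℤ) : ℚ) = (D : ℚ) * c j x := this
      have h5 : (((ψ j x : ℤ) : ℚ) : ℂ) = (((D : ℚ) * c j x : ℚ) : ℂ) := by rw [h4]
      push_cast at h5
      exact h5
    rw [h3]
    have hD0 : (D : ℂ) ≠ 0 := by exact_mod_cast hDpos.ne'
    have h6 : b.repr (φW x) j = c j x := rfl
    rw [h6, smul_eq_mul, Rat.smul_def]
    field_simp
  rw [hsum]
  exact Submodule.sum_mem _ fun j _ => Submodule.smul_mem _ _ (Submodule.subset_span ⟨⟨ψ j, hψS j⟩, rfl⟩)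

/-- the rank of the lattice is at least the complex dimension -/
theorem s16la_le_finrank (S : Set G) {r : ℕ} (v : Fin r → (Additive G →+ ℂ))
    (hv : LinearIndependent ℂ v) (hvS : ∀ i, s16la_Kills S (v i)) :
    r ≤ finrank ℤ (s16la_L S) := by
  have hfree : Module.Free ℤ (s16la_L S) := s16la_free_L S
  have hfin : Module.Finite ℤ (s16la_L S) := s16la_finite_L S
  let b := Module.Free.chooseBasis ℤ (s16la_L S)
  let B : Module.Free.ChooseBasisIndex ℤ (s16la_L S) → (Additive G →+ ℂ) :=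
    fun i => s16la_toC ((b i : s16la_L S) : Additive G →+ ℤ)
  have h1 : Set.range (fun ψ : s16la_L S => s16la_toC (ψ : Additive G →+ ℤ)) ⊆
      (Submodule.span ℂ (Set.range B) : Set (Additive G →+ ℂ)) := by
    rintro _ ⟨ψ, rfl⟩
    have h2 : (ψ : Additive G →+ ℤ) = ∑ i, b.repr ψ i • ((b i : s16la_L S) : Additive G →+ ℤ) := by
      conv_lhs => rw [← b.sum_repr ψ]
      push_cast
      rfl
    show s16la_toCl (ψ : Additive G →+ ℤ) ∈ _
    rw [h2, map_sum]
    refine Submodule.sum_mem _ fun i _ => ?_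
    rw [map_smul]
    rw [← Int.cast_smul_eq_zsmul ℂ]
    exact Submodule.smul_mem _ _ (Submodule.subset_span ⟨i, rfl⟩)
  have h3 : Submodule.span ℂ (Set.range v) ≤ Submodule.span ℂ (Set.range B) := by
    rw [Submodule.span_le]
    rintro _ ⟨i, rfl⟩
    have := s16la_mem_span S (v i) (hvS i)
    exact (Submodule.span_le.mpr h1) this
  have hfd : Module.Finite ℂ (Submodule.span ℂ (Set.range B)) :=
    FiniteDimensional.span_of_finite ℂ (Set.finite_range B)
  calc r = Fintype.card (Fin r) := (Fintype.card_fin r).symm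
    _ = finrank ℂ (Submodule.span ℂ (Set.range v)) := (finrank_span_eq_card hv).symm
    _ ≤ finrank ℂ (Submodule.span ℂ (Set.range B)) := Submodule.finrank_mono h3
    _ ≤ Fintype.card (Module.Free.ChooseBasisIndex ℤ (s16la_L S)) := finrank_range_le_card B
    _ = finrank ℤ (s16la_L S) := (Module.finrank_eq_card_chooseBasisIndex ℤ _).symm

/-- **the counting step**: any modulus `m ≥ 1` for which the number of characters mod `m`
killing `S ∪ S'` is at most `m ^ r`, `r ≤ rank L`, has the lifting property. -/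
theorem s16la_lift_of_card (S S' : Set G) (hS' : ∀ g ∈ S', IsOfFinOrder g) (r : ℕ)
    (hr : r ≤ finrank ℤ (s16la_L S)) (m : ℕ) (hm : 0 < m)
    (hcount : Nat.card {φ : Additive G →+ ZMod m // s16la_Kills (S ∪ S') φ} ≤ m ^ r)
    (φ : Additive G →+ ZMod m) (hφ : s16la_Kills (S ∪ S') φ) :
    ∃ ψ : Additive G →+ ℤ, s16la_Kills S ψ ∧ ∀ x, ((ψ x : ℤ) : ZMod m) = φ x := by
  have : NeZero m := ⟨hm.ne'⟩
  have hfree : Module.Free ℤ (s16la_L S) := s16la_free_L S
  have hfin : Module.Finite ℤ (s16la_L S) := s16la_finite_L S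
  let b := Module.Free.chooseBasis ℤ (s16la_L S)
  let ι := Module.Free.ChooseBasisIndex ℤ (s16la_L S)
  let lin : (ι → ZMod m) → s16la_L S := fun c => ∑ i, ((c i).val : ℤ) • b i
  let ρ : (ι → ZMod m) → {φ : Additive G →+ ZMod m // s16la_Kills (S ∪ S') φ} := fun c =>
    ⟨s16la_red m (lin c : Additive G →+ ℤ), s16la_red_kills hS' (lin c).2⟩
  have hρinj : Function.Injective ρ := by
    intro c c' hcc
    have h1 : s16la_red m ((lin c - lin c' : s16la_L S) : Additive G →+ ℤ) = 0 := by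
      have := congrArg Subtype.val hcc
      rw [Submodule.coe_sub, map_sub, sub_eq_zero]
      exact this
    obtain ⟨ψ', hψ'S, hψ'⟩ := s16la_saturated S m _ (lin c - lin c' : s16la_L S).2 h1
    have h2 : lin c - lin c' = (m : ℤ) • (⟨ψ', hψ'S⟩ : s16la_L S) := Subtype.ext hψ'
    funext i
    have h3 := congrArg (fun z => b.repr z i) h2
    simp only [map_sub, map_smul, Finsupp.coe_sub, Finsupp.coe_smul, Pi.sub_apply, Pi.smul_apply,
      smul_eq_mul] at h3
    have h4 : ∀ c : ι → ZMod m, b.repr (lin c) i = ((c i).val : ℤ) := by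
      intro c
      have := b.repr_sum_self (fun i => ((c i).val : ℤ))
      exact congrFun this i
    rw [h4 c, h4 c'] at h3
    have h5 : (((c i).val : ℤ) : ZMod m) = (((c' i).val : ℤ) : ZMod m) := by
      rw [ZMod.intCast_eq_intCast_iff_dvd_sub]
      refine ⟨- b.repr ⟨ψ', hψ'S⟩ i, ?_⟩
      linarith
    simpa using h5
  have hfinH : Finite {φ : Additive G →+ ZMod m // s16la_Kills (S ∪ S') φ} := by
    have := s16la_finite_homZMod (G := G) m
    infer_instance
  have hcard : Nat.card (ι → ZMod m) = m ^ finrank ℤ (s16la_L S) := by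
    rw [Nat.card_pi, Finset.prod_const, Nat.card_zmod, Finset.card_univ,
      Module.finrank_eq_card_chooseBasisIndex]
  have hbij : Function.Bijective ρ := by
    refine hρinj.bijective_of_nat_card_le ?_
    rw [hcard]
    exact hcount.trans (Nat.pow_le_pow_right hm hr)
  obtain ⟨c, hc⟩ := hbij.2 ⟨φ, hφ⟩
  refine ⟨(lin c : Additive G →+ ℤ), (lin c).2, fun x => ?_⟩
  have := congrArg (fun z : {φ : Additive G →+ ZMod m // s16la_Kills (S ∪ S') φ} => (z : Additive G →+ ZMod m) x) hc
  exact this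

/-- **(L1-alg), abstract integral lifting.**  `G` finitely generated, `S'` torsion,
`r ≤ dim_ℂ Hom_S(G, ℂ)` (witnessed by `r` independent characters), and for every prime `ℓ ∣ n`
at most `ℓ ^ r` characters mod `ℓ` killing `S ∪ S'`.  Then every character mod `n` killing
`S ∪ S'` lifts to an integral character killing `S`. -/
theorem s16la_lift (S S' : Set G) (hS' : ∀ g ∈ S', IsOfFinOrder g) {r : ℕ}
    (v : Fin r → (Additive G →+ ℂ)) (hv : LinearIndependent ℂ v) (hvS : ∀ i, s16la_Kills S (v i))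
    (n : ℕ)
    (hcount : ∀ ℓ : ℕ, ℓ.Prime → ℓ ∣ n →
      Nat.card {φ : Additive G →+ ZMod ℓ // s16la_Kills (S ∪ S') φ} ≤ ℓ ^ r)
    (φ : Additive G →+ ZMod n) (hφ : s16la_Kills (S ∪ S') φ) :
    ∃ ψ : Additive G →+ ℤ, s16la_Kills S ψ ∧ ∀ x, ((ψ x : ℤ) : ZMod n) = φ x :=
  s16la_liftable_of_primes S S' hS' n
    (fun ℓ hℓ hd => s16la_lift_of_card S S' hS' r (s16la_le_finrank S v hv hvS) ℓ hℓ.pos
      (hcount ℓ hℓ hd)) φ hφ

/-- the same with the exponent `finrank ℂ V` for a subspace `V` of characters killing `S` -/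
theorem s16la_lift_finrank (S S' : Set G) (hS' : ∀ g ∈ S', IsOfFinOrder g)
    (V : Submodule ℂ (Additive G →+ ℂ)) (hV : ∀ φ ∈ V, s16la_Kills S φ) (n : ℕ)
    (hcount : ∀ ℓ : ℕ, ℓ.Prime → ℓ ∣ n →
      Nat.card {φ : Additive G →+ ZMod ℓ // s16la_Kills (S ∪ S') φ} ≤ ℓ ^ finrank ℂ V)
    (φ : Additive G →+ ZMod n) (hφ : s16la_Kills (S ∪ S') φ) :
    ∃ ψ : Additive G →+ ℤ, s16la_Kills S ψ ∧ ∀ x, ((ψ x : ℤ) : ZMod n) = φ x := by
  by_cases hfin : Module.Finite ℂ V
  · let b := Module.finBasis ℂ V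
    refine s16la_lift S S' hS' (fun i => ((b i : V) : Additive G →+ ℂ)) ?_ (fun i => hV _ (b i).2) n
      hcount φ hφ
    exact b.linearIndependent.map' V.subtype (Submodule.ker_subtype V)
  · have h0 : finrank ℂ V = 0 := Module.finrank_of_not_finite hfin
    rw [h0] at hcount
    exact s16la_lift S S' hS' (r := 0) (fun i => i.elim0) linearIndependent_empty_type
      (fun i => i.elim0) n hcount φ hφ

/-! ### Subgroups of `SL(2, ℤ)`: the prelude shapes -/

section SL2

open ModularCurve.Period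

open scoped MatrixGroups

/-- Cayley-Hamilton for integral `2 × 2` matrices. -/
theorem s16la_cayley (M : Matrix (Fin 2) (Fin 2) ℤ) :
    M * M = M.trace • M - M.det • (1 : Matrix (Fin 2) (Fin 2) ℤ) := by
  have h := Matrix.aeval_self_charpoly M
  rw [Matrix.charpoly_fin_two] at h
  simp only [map_add, map_sub, map_pow, map_mul, Polynomial.aeval_X, Polynomial.aeval_C] at h
  rw [sq] at h
  have h2 : M * M = (algebraMap ℤ (Matrix (Fin 2) (Fin 2) ℤ)) M.trace * M -
      (algebraMap ℤ (Matrix (Fin 2) (Fin 2) ℤ)) M.det := by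
    rw [eq_sub_iff_add_eq, ← sub_eq_zero, ← h]; abel
  rw [h2, Algebra.algebraMap_eq_smul_one, Algebra.algebraMap_eq_smul_one, smul_mul_assoc, one_mul]

/-- the elliptic condition: trace `0`, `1` or `-1` -/
def s16la_IsEll (γ : SL(2, ℤ)) : Prop :=
  (γ : Matrix (Fin 2) (Fin 2) ℤ).trace = 0 ∨ (γ : Matrix (Fin 2) (Fin 2) ℤ).trace = 1 ∨
    (γ : Matrix (Fin 2) (Fin 2) ℤ).trace = -1

/-- elements of `SL(2, ℤ)` of trace `0, 1, -1` have finite order (`4, 6, 3`). -/
theorem s16la_isOfFinOrder_of_isEll (γ : SL(2, ℤ)) (h : s16la_IsEll γ) : IsOfFinOrder γ := by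
  have hc := s16la_cayley (γ : Matrix (Fin 2) (Fin 2) ℤ)
  rw [γ.det_coe, one_smul] at hc
  set M := (γ : Matrix (Fin 2) (Fin 2) ℤ) with hM
  rw [isOfFinOrder_iff_pow_eq_one]
  have key : ∀ k : ℕ, M ^ k = 1 → γ ^ k = 1 := by
    intro k hk
    apply Subtype.ext
    rw [Matrix.SpecialLinearGroup.coe_pow]
    exact hk
  rcases h with h | h | h
  · refine ⟨4, by norm_num, key 4 ?_⟩
    rw [h, zero_smul, zero_sub] at hc
    have : M ^ 4 = (M * M) * (M * M) := by noncomm_ring
    rw [this, hc]; simp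
  · refine ⟨6, by norm_num, key 6 ?_⟩
    rw [h, one_smul] at hc
    have h3 : M * M * M = -1 := by
      rw [hc, sub_mul, hc, one_mul]; abel
    have : M ^ 6 = (M * M * M) * (M * M * M) := by noncomm_ring
    rw [this, h3]; simp
  · refine ⟨3, by norm_num, key 3 ?_⟩
    rw [h, neg_one_smul] at hc
    have : M ^ 3 = M * M * M := by noncomm_ring
    rw [this, hc, sub_mul, neg_mul, hc, one_mul]; abel

variable (Γ : Subgroup SL(2, ℤ))

/-- the parabolic set of the prelude's `IsParabolicHom` -/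
def s16la_parSet : Set Γ :=
  {γ | ((γ : SL(2, ℤ)) : Matrix (Fin 2) (Fin 2) ℤ).trace ^ 2 = 4}

/-- the elliptic set -/
def s16la_ellSet : Set Γ := {γ | s16la_IsEll (γ : SL(2, ℤ))}

theorem s16la_kills_parSet_iff {A : Type*} [AddCommGroup A] (φ : Additive Γ →+ A) :
    s16la_Kills (s16la_parSet Γ) φ ↔ IsParabolicHom Γ φ := Iff.rfl

theorem s16la_ellSet_finOrder : ∀ g ∈ s16la_ellSet Γ, IsOfFinOrder g := by
  intro g hg
  have := s16la_isOfFinOrder_of_isEll (g : SL(2, ℤ)) hg
  rw [isOfFinOrder_iff_pow_eq_one] at this ⊢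
  obtain ⟨k, hk, hgk⟩ := this
  exact ⟨k, hk, Subtype.ext (by rw [Subgroup.coe_pow]; exact hgk)⟩

/-- characters that are parabolic and kill the elliptic elements -/
def s16la_IsParEll {A : Type*} [AddCommGroup A] (φ : Additive Γ →+ A) : Prop :=
  IsParabolicHom Γ φ ∧ ∀ γ : Γ, s16la_IsEll (γ : SL(2, ℤ)) → φ (Additive.ofMul γ) = 0

theorem s16la_kills_union_iff {A : Type*} [AddCommGroup A] (φ : Additive Γ →+ A) :
    s16la_Kills (s16la_parSet Γ ∪ s16la_ellSet Γ) φ ↔ s16la_IsParEll Γ φ := by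
  constructor
  · intro h
    exact ⟨fun γ hγ => h γ (Or.inl hγ), fun γ hγ => h γ (Or.inr hγ)⟩
  · rintro ⟨h1, h2⟩ γ (hγ | hγ)
    · exact h1 γ hγ
    · exact h2 γ hγ

/-- **(L1-alg) for subgroups of `SL(2, ℤ)`, prelude shapes.**  If for every prime `ℓ ∣ n` there are
at most `ℓ ^ dim_ℂ Hom_par(Γ, ℂ)` characters `Γ → ℤ/ℓ` that are parabolic and kill the elliptic
elements, then every such character `Γ → ℤ/n` lifts to a parabolic character `Γ → ℤ`. -/
theorem s16la_lift_parabolic [Group.FG Γ] (n : ℕ)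
    (hcount : ∀ ℓ : ℕ, ℓ.Prime → ℓ ∣ n →
      Nat.card {φ : Additive Γ →+ ZMod ℓ // s16la_IsParEll Γ φ} ≤
        ℓ ^ finrank ℂ (parabolicHoms ℂ Γ ℂ))
    (φ : Additive Γ →+ ZMod n) (hφ : s16la_IsParEll Γ φ) :
    ∃ ψ : Additive Γ →+ ℤ, ψ ∈ parabolicHoms ℤ Γ ℤ ∧
      ∀ γ : Γ, ((ψ (Additive.ofMul γ) : ℤ) : ZMod n) = φ (Additive.ofMul γ) := by
  have hcount' : ∀ ℓ : ℕ, ℓ.Prime → ℓ ∣ n →
      Nat.card {φ : Additive Γ →+ ZMod ℓ // s16la_Kills (s16la_parSet Γ ∪ s16la_ellSet Γ) φ} ≤
        ℓ ^ finrank ℂ (parabolicHoms ℂ Γ ℂ) := by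
    intro ℓ hℓ hd
    refine le_of_eq_of_le (Nat.card_congr (Equiv.subtypeEquivRight fun φ => ?_)) (hcount ℓ hℓ hd)
    exact s16la_kills_union_iff Γ φ
  obtain ⟨ψ, hψ, hψφ⟩ := s16la_lift_finrank (s16la_parSet Γ) (s16la_ellSet Γ)
    (s16la_ellSet_finOrder Γ) (parabolicHoms ℂ Γ ℂ) (fun φ hφ => hφ) n hcount' φ
    ((s16la_kills_union_iff Γ φ).mpr hφ)
  exact ⟨ψ, hψ, fun γ => hψφ _⟩

end SL2

end Fermat.Agent.S16L
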