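import Mathlib
import Fermat.Prelude.Def_ModularCurve_PeriodMap

/-!
# S16 [D] (L1-alg-B): from the field count to the integral lifting (second engine)

Abstract statement: `G` a group, `S` a set of elements to be killed, `ψ : Fin r → Hom(G, ℤ)` a
*saturated* family of integral homomorphisms killing `S`; if for every prime `ℓ ∣ n` the space of
`S`-killing homomorphisms `G → ZMod ℓ` has dimension `≤ r`, then every `S`-killing homomorphism
`G → ZMod n` is the reduction of an integral combination of the `ψ i`.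
-/

set_option autoImplicit false

namespace Fermat.Agent.S16LB

open Module

section Abstract

variable {G : Type*} [Group G]

/-- The homomorphisms `G → K` killing the set `S`, as a `K`-submodule. -/
def s16lb_killSub (K : Type*) [CommRing K] (S : Set G) : Submodule K (Additive G →+ K) where
  carrier := {φ | ∀ g ∈ S, φ (Additive.ofMul g) = 0}
  zero_mem' := fun _ _ => rfl
  add_mem' := by
    intro φ ψ hφ hψ g hg
    show φ (Additive.ofMul g) + ψ (Additive.ofMul g) = 0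
    rw [hφ g hg, hψ g hg, add_zero]
  smul_mem' := by
    intro c φ hφ g hg
    show c • φ (Additive.ofMul g) = 0
    rw [hφ g hg, smul_zero]

theorem s16lb_mem_killSub {K : Type*} [CommRing K] {S : Set G} {φ : Additive G →+ K} :
    φ ∈ s16lb_killSub K S ↔ ∀ g ∈ S, φ (Additive.ofMul g) = 0 := Iff.rfl

/-- Integral homomorphisms kill elements of finite order. -/
theorem s16lb_int_hom_finite_order (ψ : Additive G →+ ℤ) (g : G) (k : ℕ) (hk : 0 < k)
    (hg : g ^ k = 1) : ψ (Additive.ofMul g) = 0 := by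
  have h1 : k • ψ (Additive.ofMul g) = 0 := by
    rw [← map_nsmul, ← ofMul_pow, hg, ofMul_one, map_zero]
  rcases smul_eq_zero.mp h1 with h | h
  · omega
  · exact h

/-- Reduction mod `n` of an integral homomorphism. -/
def s16lb_red (n : ℕ) (ψ : Additive G →+ ℤ) : Additive G →+ ZMod n :=
  (Int.castAddHom (ZMod n)).comp ψ

theorem s16lb_red_apply (n : ℕ) (ψ : Additive G →+ ℤ) (g : Additive G) :
    s16lb_red n ψ g = ((ψ g : ℤ) : ZMod n) := rfl

/-- The integral combination `∑ c i • ψ i`. -/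
def s16lb_comb {r : ℕ} (ψ : Fin r → (Additive G →+ ℤ)) (c : Fin r → ℤ) : Additive G →+ ℤ :=
  ∑ i, c i • ψ i

theorem s16lb_comb_apply {r : ℕ} (ψ : Fin r → (Additive G →+ ℤ)) (c : Fin r → ℤ)
    (g : Additive G) : s16lb_comb ψ c g = ∑ i, c i * ψ i g := by
  simp [s16lb_comb]

/-- **The prime case.** -/
theorem s16lb_lift_prime (S : Set G) {r : ℕ} (ψ : Fin r → (Additive G →+ ℤ))
    (hψ : ∀ i, ∀ g ∈ S, ψ i (Additive.ofMul g) = 0)
    (hsat : ∀ m : ℕ, 0 < m → ∀ c : Fin r → ℤ,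
      (∀ g : Additive G, (m : ℤ) ∣ ∑ i, c i * ψ i g) → ∀ i, (m : ℤ) ∣ c i)
    (ℓ : ℕ) [Fact ℓ.Prime]
    (hfin : Module.Finite (ZMod ℓ) (s16lb_killSub (ZMod ℓ) S))
    (hcount : finrank (ZMod ℓ) (s16lb_killSub (ZMod ℓ) S) ≤ r)
    (φ : Additive G →+ ZMod ℓ) (hφ : ∀ g ∈ S, φ (Additive.ofMul g) = 0) :
    ∃ c : Fin r → ℤ, ∀ g : Additive G, ((∑ i, c i * ψ i g : ℤ) : ZMod ℓ) = φ g := by
  classical
  have hℓ : 0 < ℓ := (Fact.out : ℓ.Prime).pos
  -- the reductions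
  let v : Fin r → s16lb_killSub (ZMod ℓ) S := fun i =>
    ⟨s16lb_red ℓ (ψ i), fun g hg => by rw [s16lb_red_apply, hψ i g hg, Int.cast_zero]⟩
  have hv : LinearIndependent (ZMod ℓ) v := by
    rw [Fintype.linearIndependent_iff]
    intro c hc i
    -- lift the coefficients
    choose c' hc' using fun i => ZMod.intCast_surjective (c i)
    have hdvd : ∀ g : Additive G, (ℓ : ℤ) ∣ ∑ i, c' i * ψ i g := by
      intro g
      rw [← ZMod.intCast_zmod_eq_zero_iff_dvd]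
      have h1 := congrArg (fun w : s16lb_killSub (ZMod ℓ) S => (w : Additive G →+ ZMod ℓ) g) hc
      simp only [Submodule.coe_sum, Submodule.coe_smul, AddMonoidHom.finsetSum_apply,
        AddMonoidHom.smul_apply, Submodule.coe_zero, AddMonoidHom.zero_apply, smul_eq_mul] at h1
      rw [← h1]
      push_cast
      refine Finset.sum_congr rfl fun i _ => ?_
      rw [hc' i]
      rfl
    have := hsat ℓ hℓ c' hdvd i
    rw [← hc' i, ZMod.intCast_zmod_eq_zero_iff_dvd]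
    exact this
  have hcard : Fintype.card (Fin r) = finrank (ZMod ℓ) (s16lb_killSub (ZMod ℓ) S) := by
    have h1 := hv.fintype_card_le_finrank
    rw [Fintype.card_fin] at h1 ⊢
    omega
  have hspan := hv.span_eq_top_of_card_eq_finrank' hcard
  have hmem : (⟨φ, hφ⟩ : s16lb_killSub (ZMod ℓ) S) ∈ Submodule.span (ZMod ℓ) (Set.range v) := by
    rw [hspan]
    exact Submodule.mem_top
  obtain ⟨c, hc⟩ := (Submodule.mem_span_range_iff_exists_fun (ZMod ℓ)).mp hmem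
  choose c' hc' using fun i => ZMod.intCast_surjective (c i)
  refine ⟨c', fun g => ?_⟩
  have h1 := congrArg (fun w : s16lb_killSub (ZMod ℓ) S => (w : Additive G →+ ZMod ℓ) g) hc
  simp only [Submodule.coe_sum, Submodule.coe_smul, AddMonoidHom.finsetSum_apply,
    AddMonoidHom.smul_apply, smul_eq_mul] at h1
  rw [← h1]
  push_cast
  refine Finset.sum_congr rfl fun i _ => ?_
  rw [hc' i]
  rfl

/-- The map `ZMod n' → ZMod (ℓ * n')`, multiplication by `ℓ`. -/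
def s16lb_iota (ℓ n' : ℕ) : ZMod n' →+ ZMod (ℓ * n') :=
  ZMod.lift n' ⟨(AddMonoidHom.mulLeft ((ℓ : ℕ) : ZMod (ℓ * n'))).comp
      (Int.castAddHom (ZMod (ℓ * n'))), by
    show ((ℓ : ℕ) : ZMod (ℓ * n')) * (((n' : ℕ) : ℤ) : ZMod (ℓ * n')) = 0
    rw [Int.cast_natCast, ← Nat.cast_mul, ZMod.natCast_self]⟩

theorem s16lb_iota_intCast (ℓ n' : ℕ) (k : ℤ) :
    s16lb_iota ℓ n' ((k : ℤ) : ZMod n') = (((ℓ : ℤ) * k : ℤ) : ZMod (ℓ * n')) := by
  rw [s16lb_iota, ZMod.lift_coe]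
  show ((ℓ : ℕ) : ZMod (ℓ * n')) * ((k : ℤ) : ZMod (ℓ * n')) = _
  push_cast
  rfl

theorem s16lb_iota_injective (ℓ n' : ℕ) (hℓ : 0 < ℓ) :
    Function.Injective (s16lb_iota ℓ n') := by
  rw [injective_iff_map_eq_zero]
  intro y hy
  obtain ⟨k, rfl⟩ := ZMod.intCast_surjective y
  rw [s16lb_iota_intCast, ZMod.intCast_zmod_eq_zero_iff_dvd] at hy
  rw [ZMod.intCast_zmod_eq_zero_iff_dvd]
  push_cast at hy
  exact (mul_dvd_mul_iff_left (by exact_mod_cast hℓ.ne')).mp hy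

theorem s16lb_mem_range_iota (ℓ n' : ℕ) [NeZero ℓ] (x : ZMod (ℓ * n'))
    (hx : ZMod.castHom (Dvd.intro n' rfl : ℓ ∣ ℓ * n') (ZMod ℓ) x = 0) :
    x ∈ (s16lb_iota ℓ n').range := by
  obtain ⟨k, rfl⟩ := ZMod.intCast_surjective x
  rw [map_intCast, ZMod.intCast_zmod_eq_zero_iff_dvd] at hx
  obtain ⟨k', rfl⟩ := hx
  exact ⟨(k' : ZMod n'), s16lb_iota_intCast ℓ n' k'⟩

/-- **The dévissage**: from the prime case to every modulus. -/
theorem s16lb_lift (S : Set G) {r : ℕ} (ψ : Fin r → (Additive G →+ ℤ))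
    (hψ : ∀ i, ∀ g ∈ S, ψ i (Additive.ofMul g) = 0)
    (hsat : ∀ m : ℕ, 0 < m → ∀ c : Fin r → ℤ,
      (∀ g : Additive G, (m : ℤ) ∣ ∑ i, c i * ψ i g) → ∀ i, (m : ℤ) ∣ c i) :
    ∀ n : ℕ, 0 < n →
      (∀ ℓ : ℕ, ∀ _ : Fact ℓ.Prime, ℓ ∣ n →
        Module.Finite (ZMod ℓ) (s16lb_killSub (ZMod ℓ) S) ∧
          finrank (ZMod ℓ) (s16lb_killSub (ZMod ℓ) S) ≤ r) →
      ∀ φ : Additive G →+ ZMod n, (∀ g ∈ S, φ (Additive.ofMul g) = 0) →
        ∃ c : Fin r → ℤ, ∀ g : Additive G, ((∑ i, c i * ψ i g : ℤ) : ZMod n) = φ g := by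
  intro n
  induction n using Nat.strong_induction_on with
  | _ n ih =>
    intro hn hcount φ hφ
    rcases Nat.lt_or_ge 1 n with h1 | h1
    swap
    · -- n = 1
      have : n = 1 := by omega
      subst this
      exact ⟨0, fun g => Subsingleton.elim _ _⟩
    -- n > 1
    obtain ⟨ℓ, hp, n', hn'⟩ : ∃ ℓ : ℕ, ℓ.Prime ∧ ∃ n' : ℕ, n = ℓ * n' :=
      ⟨n.minFac, Nat.minFac_prime (by omega), Nat.minFac_dvd n⟩
    have : Fact ℓ.Prime := ⟨hp⟩
    have : NeZero ℓ := ⟨hp.ne_zero⟩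
    have hn'pos : 0 < n' := by
      rcases Nat.eq_zero_or_pos n' with h | h
      · rw [h, mul_zero] at hn'; omega
      · exact h
    have hn'lt : n' < n := by
      rw [hn']
      have := hp.two_le
      nlinarith
    subst hn'
    -- reduce mod ℓ
    have hdvd : ℓ ∣ ℓ * n' := Dvd.intro n' rfl
    obtain ⟨hfin, hcnt⟩ := hcount ℓ ⟨hp⟩ hdvd
    let φℓ : Additive G →+ ZMod ℓ := (ZMod.castHom hdvd (ZMod ℓ)).toAddMonoidHom.comp φ
    obtain ⟨c0, hc0⟩ := s16lb_lift_prime S ψ hψ hsat ℓ hfin hcnt φℓ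
      (fun g hg => by
        show ZMod.castHom hdvd (ZMod ℓ) (φ (Additive.ofMul g)) = 0
        rw [hφ g hg, map_zero])
    -- the difference
    let δ : Additive G →+ ZMod (ℓ * n') := φ - s16lb_red (ℓ * n') (s16lb_comb ψ c0)
    have hδ : ∀ g, δ g = φ g - ((∑ i, c0 i * ψ i g : ℤ) : ZMod (ℓ * n')) := by
      intro g
      show φ g - s16lb_red (ℓ * n') (s16lb_comb ψ c0) g = _
      rw [s16lb_red_apply, s16lb_comb_apply]
    have hδrange : ∀ g, δ g ∈ (s16lb_iota ℓ n').range := by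
      intro g
      apply s16lb_mem_range_iota
      rw [hδ, map_sub, map_intCast, hc0 g, sub_eq_zero]
      rfl
    let e := AddMonoidHom.ofInjective (s16lb_iota_injective ℓ n' hp.pos)
    let φ' : Additive G →+ ZMod n' :=
      e.symm.toAddMonoidHom.comp (δ.codRestrict (s16lb_iota ℓ n').range hδrange)
    have hφ' : ∀ g, s16lb_iota ℓ n' (φ' g) = δ g := by
      intro g
      have := e.apply_symm_apply (δ.codRestrict (s16lb_iota ℓ n').range hδrange g)
      exact congrArg Subtype.val this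
    have hφ'S : ∀ g ∈ S, φ' (Additive.ofMul g) = 0 := by
      intro g hg
      apply s16lb_iota_injective ℓ n' hp.pos
      rw [hφ', map_zero, hδ, hφ g hg, zero_sub, neg_eq_zero]
      have : ∑ i, c0 i * ψ i (Additive.ofMul g) = 0 :=
        Finset.sum_eq_zero fun i _ => by rw [hψ i g hg, mul_zero]
      rw [this, Int.cast_zero]
    obtain ⟨c1, hc1⟩ := ih n' hn'lt hn'pos
      (fun q hq hqn => hcount q hq (Dvd.dvd.mul_left hqn ℓ)) φ' hφ'S
    refine ⟨fun i => c0 i + (ℓ : ℤ) * c1 i, fun g => ?_⟩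
    have h2 := hφ' g
    rw [← hc1 g, s16lb_iota_intCast, hδ] at h2
    have h3 : φ g = (((ℓ : ℤ) * ∑ i, c1 i * ψ i g : ℤ) : ZMod (ℓ * n'))
        + ((∑ i, c0 i * ψ i g : ℤ) : ZMod (ℓ * n')) := by
      rw [h2]; ring
    rw [h3, ← Int.cast_add]
    congr 1
    rw [Finset.mul_sum, ← Finset.sum_add_distrib]
    refine Finset.sum_congr rfl fun i _ => ?_
    ring

end Abstract

section Special

open ModularCurve.Period
open scoped MatrixGroups

/-- Cayley–Hamilton for `SL(2, ℤ)`. -/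
theorem s16lb_cayley (g : SL(2, ℤ)) :
    (g : Matrix (Fin 2) (Fin 2) ℤ) * (g : Matrix (Fin 2) (Fin 2) ℤ) =
      (g : Matrix (Fin 2) (Fin 2) ℤ).trace • (g : Matrix (Fin 2) (Fin 2) ℤ) - 1 := by
  have hdet := g.det_coe
  rw [Matrix.det_fin_two] at hdet
  ext i j
  fin_cases i <;> fin_cases j <;>
    simp [Matrix.mul_apply, Fin.sum_univ_two, Matrix.trace_fin_two, Matrix.smul_apply,
      -zsmul_eq_mul] <;>
    first | ring1 | linear_combination (-1 : ℤ) * hdet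

/-- Elements of `SL(2, ℤ)` with `trace² < 4` have order dividing `12`. -/
theorem s16lb_pow_twelve (g : SL(2, ℤ))
    (h : (g : Matrix (Fin 2) (Fin 2) ℤ).trace ^ 2 < 4) : g ^ 12 = 1 := by
  apply Subtype.ext
  rw [Matrix.SpecialLinearGroup.coe_pow, Matrix.SpecialLinearGroup.coe_one]
  have hc := s16lb_cayley g
  set M := (g : Matrix (Fin 2) (Fin 2) ℤ) with hM
  set t := M.trace with ht
  have ht' : t = 0 ∨ t = 1 ∨ t = -1 := by
    have h1 : -2 < t := by nlinarith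
    have h2 : t < 2 := by nlinarith
    omega
  rcases ht' with h0 | h0 | h0
  · rw [h0, zero_smul, zero_sub] at hc
    calc M ^ 12 = (M * M) ^ 6 := by rw [← pow_two, ← pow_mul]
      _ = 1 := by rw [hc]; exact Even.neg_one_pow ⟨3, rfl⟩
  · rw [h0, one_smul] at hc
    have h3 : M ^ 3 = -1 := by
      calc M ^ 3 = M * M * M := by rw [pow_succ, pow_two]
        _ = -1 := by rw [hc, sub_mul, one_mul, hc]; abel
    calc M ^ 12 = (M ^ 3) ^ 4 := by rw [← pow_mul]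
      _ = 1 := by rw [h3]; norm_num
  · rw [h0, neg_one_smul] at hc
    have h3 : M ^ 3 = 1 := by
      calc M ^ 3 = M * M * M := by rw [pow_succ, pow_two]
        _ = 1 := by rw [hc, sub_mul, one_mul, neg_mul, hc]; abel
    calc M ^ 12 = (M ^ 3) ^ 4 := by rw [← pow_mul]
      _ = 1 := by rw [h3, one_pow]

variable (Γ : Subgroup SL(2, ℤ))

/-- The set of elements of `Γ` to be killed: parabolic (`trace² = 4`) or in `E`. -/
def s16lb_killSet (E : Γ → Prop) : Set Γ :=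
  {γ | ((γ : SL(2, ℤ)) : Matrix (Fin 2) (Fin 2) ℤ).trace ^ 2 = 4 ∨ E γ}

theorem s16lb_kills_iff {A : Type*} [AddCommGroup A] (E : Γ → Prop) (φ : Additive Γ →+ A) :
    (∀ g ∈ s16lb_killSet Γ E, φ (Additive.ofMul g) = 0) ↔
      (IsParabolicHom Γ φ ∧ ∀ γ : Γ, E γ → φ (Additive.ofMul γ) = 0) := by
  constructor
  · intro h
    exact ⟨fun γ hγ => h γ (Or.inl hγ), fun γ hγ => h γ (Or.inr hγ)⟩
  · rintro ⟨h1, h2⟩ γ (hγ | hγ)
    · exact h1 γ hγ
    · exact h2 γ hγ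

/-- **The integral lifting, finrank form.**  `E` is any property of elements of `Γ` implying
`trace² < 4` (elliptic elements). -/
theorem s16lb_lift_parabolic (E : Γ → Prop)
    (hE : ∀ γ : Γ, E γ → ((γ : SL(2, ℤ)) : Matrix (Fin 2) (Fin 2) ℤ).trace ^ 2 < 4)
    {r : ℕ} (ψ : Fin r → (Additive Γ →+ ℤ))
    (hψ : ∀ i, ψ i ∈ parabolicHoms ℤ Γ ℤ)
    (hsat : ∀ m : ℕ, 0 < m → ∀ c : Fin r → ℤ,
      (∀ g : Additive Γ, (m : ℤ) ∣ ∑ i, c i * ψ i g) → ∀ i, (m : ℤ) ∣ c i)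
    (n : ℕ) (hn : 0 < n)
    (hcount : ∀ ℓ : ℕ, ∀ _ : Fact ℓ.Prime, ℓ ∣ n →
      ∃ P : Submodule (ZMod ℓ) (Additive Γ →+ ZMod ℓ),
        (∀ φ, φ ∈ P ↔ (IsParabolicHom Γ φ ∧ ∀ γ : Γ, E γ → φ (Additive.ofMul γ) = 0)) ∧
        Module.Finite (ZMod ℓ) P ∧ finrank (ZMod ℓ) P ≤ r)
    (φ : Additive Γ →+ ZMod n) (hφ : IsParabolicHom Γ φ)
    (hφE : ∀ γ : Γ, E γ → φ (Additive.ofMul γ) = 0) :
    ∃ φ' : Additive Γ →+ ℤ, φ' ∈ parabolicHoms ℤ Γ ℤ ∧
      ∀ γ : Γ, ((φ' (Additive.ofMul γ) : ℤ) : ZMod n) = φ (Additive.ofMul γ) := by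
  -- the ψ i kill the whole kill set
  have hψS : ∀ i, ∀ g ∈ s16lb_killSet Γ E, ψ i (Additive.ofMul g) = 0 := by
    rintro i g (hg | hg)
    · exact hψ i g hg
    · refine s16lb_int_hom_finite_order (ψ i) g 12 (by norm_num) ?_
      apply Subtype.ext
      rw [Subgroup.coe_pow, Subgroup.coe_one]
      exact s16lb_pow_twelve _ (hE g hg)
  have hcount' : ∀ ℓ : ℕ, ∀ _ : Fact ℓ.Prime, ℓ ∣ n →
      Module.Finite (ZMod ℓ) (s16lb_killSub (ZMod ℓ) (s16lb_killSet Γ E)) ∧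
        finrank (ZMod ℓ) (s16lb_killSub (ZMod ℓ) (s16lb_killSet Γ E)) ≤ r := by
    intro ℓ hℓ hℓn
    obtain ⟨P, hP, hfin, hle⟩ := hcount ℓ hℓ hℓn
    have hPeq : P = s16lb_killSub (ZMod ℓ) (s16lb_killSet Γ E) := by
      ext φ
      rw [hP, s16lb_mem_killSub, s16lb_kills_iff]
    rw [← hPeq]
    exact ⟨hfin, hle⟩
  obtain ⟨c, hc⟩ := s16lb_lift (s16lb_killSet Γ E) ψ hψS hsat n hn hcount' φ
    ((s16lb_kills_iff Γ E φ).mpr ⟨hφ, hφE⟩)
  refine ⟨s16lb_comb ψ c, ?_, fun γ => ?_⟩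
  · exact Submodule.sum_mem _ fun i _ => Submodule.smul_mem _ _ (hψ i)
  · rw [s16lb_comb_apply]
    exact hc _

end Special

end Fermat.Agent.S16LB
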