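import Mathlib
import Fermat.Agent.S16.Low.LiftB
import Fermat.Agent.S16.Low.IntRank
import Fermat.Agent.S16.Low.Gamma0Bound
import Fermat.Agent.S16.Low.Shimura

/-!
# S16 [D] (L1): the integral lifting for `Γ₀(p)` (second engine)

Every homomorphism `Γ₀(p) → ZMod n` killing all `γ` with `(tr γ)² ≤ 4` (i.e. `±1`, parabolic and
elliptic elements) is the reduction mod `n` of an integral parabolic homomorphism.
Inputs: `s16r_exists_family` (saturated integral family of full rank, `IntRank.lean`),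
`s16l_gamma0_finrank_le` (the count over any field, `Gamma0Bound.lean`), `s16lb_lift_parabolic`
(the dévissage, `LiftB.lean`).
-/

set_option autoImplicit false

namespace Fermat.Agent.S16LB

open ModularCurve.Period CongruenceSubgroup Module
open scoped MatrixGroups

/-- The linear injection `Hom(Γ, k) → (Γ → k)`. -/
def s16lb_toFun (Γ : Subgroup SL(2, ℤ)) (k : Type*) [Field k] :
    (Additive Γ →+ k) →ₗ[k] (Γ → k) where
  toFun φ γ := φ (Additive.ofMul γ)
  map_add' _ _ := rfl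
  map_smul' _ _ := rfl

theorem s16lb_toFun_injective (Γ : Subgroup SL(2, ℤ)) (k : Type*) [Field k] :
    Function.Injective (s16lb_toFun Γ k) := by
  intro φ ψ h
  ext γ
  exact congrFun h (Additive.toMul γ)

/-- **The integral lifting for `Γ₀(p)`.** -/
theorem s16lb_lift_gamma0 (p : ℕ) [hp : Fact p.Prime] (n : ℕ) (hn : 0 < n)
    (φ : Additive (Gamma0 p) →+ ZMod n)
    (hφ : ∀ γ : Gamma0 p, (((γ : SL(2, ℤ)) : Matrix (Fin 2) (Fin 2) ℤ).trace) ^ 2 ≤ 4 →
      φ (Additive.ofMul γ) = 0) :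
    ∃ f : Additive (Gamma0 p) →+ ℤ, f ∈ parabolicHoms ℤ (Gamma0 p) ℤ ∧
      ∀ γ : Gamma0 p, ((f (Additive.ofMul γ) : ℤ) : ZMod n) = φ (Additive.ofMul γ) := by
  have : NeZero p := ⟨hp.out.ne_zero⟩
  obtain ⟨ψ, hψ, hsat⟩ := Fermat.Agent.S16D.s16r_exists_family p
  let E : Gamma0 p → Prop := fun γ =>
    (((γ : SL(2, ℤ)) : Matrix (Fin 2) (Fin 2) ℤ).trace) ^ 2 < 4
  refine s16lb_lift_parabolic (Gamma0 p) E (fun γ hγ => hγ) ψ hψ hsat n hn ?_ φ
    (fun γ hγ => hφ γ hγ.le) (fun γ hγ => hφ γ (le_of_lt hγ))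
  intro ℓ hℓ _
  have := hℓ
  refine ⟨s16lb_killSub (ZMod ℓ) (s16lb_killSet (Gamma0 p) E), fun χ => ?_, ?_⟩
  · rw [s16lb_mem_killSub, s16lb_kills_iff]
  · set P := s16lb_killSub (ZMod ℓ) (s16lb_killSet (Gamma0 p) E) with hP
    have hinj := s16lb_toFun_injective (Gamma0 p) (ZMod ℓ)
    obtain ⟨hfin, hle⟩ := Fermat.Agent.S16.s16l_gamma0_finrank_le p
      (P.map (s16lb_toFun (Gamma0 p) (ZMod ℓ)))
      (by
        rintro _ ⟨χ, -, rfl⟩ γ δ
        show χ (Additive.ofMul (γ * δ)) = χ (Additive.ofMul γ) + χ (Additive.ofMul δ)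
        rw [ofMul_mul, map_add])
      (by
        rintro _ ⟨χ, hχ, rfl⟩ γ hγ
        show χ (Additive.ofMul γ) = 0
        have hχ' := (s16lb_kills_iff (Gamma0 p) E χ).mp (s16lb_mem_killSub.mp hχ)
        rcases lt_or_eq_of_le hγ with h | h
        · exact hχ'.2 γ h
        · exact hχ'.1 γ h)
    let e := Submodule.equivMapOfInjective (s16lb_toFun (Gamma0 p) (ZMod ℓ)) hinj P
    refine ⟨Module.Finite.equiv e.symm, ?_⟩
    rw [LinearEquiv.finrank_eq e]
    exact hle

theorem s16lb_eisensteinNumerator_pos (p : ℕ) [hp : Fact p.Prime] :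
    0 < ModularCurve.eisensteinNumerator p := by
  have h1 : 0 < p - 1 := by have := hp.out.two_le; omega
  exact Nat.div_pos (Nat.le_of_dvd h1 (Nat.gcd_dvd_left _ _))
    (Nat.gcd_pos_of_pos_left _ h1)

/-- **The Shimura class lifts** to an integral parabolic homomorphism. -/
theorem s16lb_lift_shimura (p : ℕ) [Fact p.Prime] :
    ∃ f : Additive (Gamma0 p) →+ ℤ, f ∈ parabolicHoms ℤ (Gamma0 p) ℤ ∧
      ∀ γ : Additive (Gamma0 p),
        ((f γ : ℤ) : ZMod (ModularCurve.eisensteinNumerator p)) =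
          Fermat.Agent.S16D.s16h_phi p γ := by
  obtain ⟨f, hf, h⟩ := s16lb_lift_gamma0 p (ModularCurve.eisensteinNumerator p)
    (s16lb_eisensteinNumerator_pos p) (Fermat.Agent.S16D.s16h_phi p)
    (fun γ hγ => Fermat.Agent.S16D.s16h_phi_of_trace_sq_le p γ hγ)
  exact ⟨f, hf, fun γ => h (Additive.toMul γ)⟩

end Fermat.Agent.S16LB
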