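import Mathlib
import Fermat.Agent.S22.GammaFG
import Fermat.Agent.S16.Low.LiftAlg
import Fermat.Agent.S16.Low.Gamma0Bound
import Fermat.Agent.S16.Low.Shimura

/-!
# S16, stream [D] (LOW): the integral lifting (L1) for `Γ₀(p)` and for the Shimura class

`LiftAlg.s16la_lift_parabolic` (abstract lifting from a count mod primes) + `Gamma0Bound.s16l_card_le`
(the count mod primes for `Γ₀(p)`) give: every character `Γ₀(p) → ℤ/n` killing all elements with
`trace ^ 2 ≤ 4` lifts to a parabolic character `Γ₀(p) → ℤ`.  Applied to the Shimura class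
`Shimura.s16h_phi p`.
-/

set_option autoImplicit false
set_option linter.unusedSectionVars false
set_option linter.style.longLine false

namespace Fermat.Agent.S16L

open Module ModularCurve.Period CongruenceSubgroup

open scoped MatrixGroups

/-- an integer with square at most `4` has square `4` or is `0, 1, -1` -/
theorem s16la_sq_le_four (t : ℤ) (ht : t ^ 2 ≤ 4) : t ^ 2 = 4 ∨ t = 0 ∨ t = 1 ∨ t = -1 := by
  have h1 : -2 ≤ t := by nlinarith
  have h2 : t ≤ 2 := by nlinarith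
  interval_cases t <;> simp

/-- `trace ^ 2 ≤ 4`-killing is the same as parabolic + elliptic-killing -/
theorem s16la_isParEll_iff (Γ : Subgroup SL(2, ℤ)) {A : Type*} [AddCommGroup A]
    (φ : Additive Γ →+ A) :
    s16la_IsParEll Γ φ ↔ ∀ γ : Γ,
      (((γ : SL(2, ℤ)) : Matrix (Fin 2) (Fin 2) ℤ).trace) ^ 2 ≤ 4 → φ (Additive.ofMul γ) = 0 := by
  constructor
  · rintro ⟨h1, h2⟩ γ hγ
    rcases s16la_sq_le_four _ hγ with h | h
    · exact h1 γ h
    · exact h2 γ h
  · intro h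
    refine ⟨fun γ hγ => h γ hγ.le, fun γ hγ => h γ ?_⟩
    rcases hγ with h0 | h0 | h0 <;> rw [h0] <;> norm_num

/-- **(L1) for `Γ₀(p)`**: every character mod `n` killing the elements of `trace ^ 2 ≤ 4`
(parabolic, elliptic, `± 1`) lifts to an integral parabolic character. -/
theorem s16la_lift_gamma0 (p : ℕ) [Fact p.Prime] (n : ℕ) (φ : Additive (Gamma0 p) →+ ZMod n)
    (hφ : ∀ γ : Gamma0 p,
      (((γ : SL(2, ℤ)) : Matrix (Fin 2) (Fin 2) ℤ).trace) ^ 2 ≤ 4 → φ (Additive.ofMul γ) = 0) :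
    ∃ f : Additive (Gamma0 p) →+ ℤ, f ∈ parabolicHoms ℤ (Gamma0 p) ℤ ∧
      ∀ γ : Gamma0 p, ((f (Additive.ofMul γ) : ℤ) : ZMod n) = φ (Additive.ofMul γ) := by
  have hp : NeZero p := ⟨(Fact.out : p.Prime).ne_zero⟩
  have hfg : Group.FG (Gamma0 p) := Fermat.Agent.S22.Gamma0_fg p
  refine s16la_lift_parabolic (Gamma0 p) n (fun ℓ hℓ _ => ?_) φ ((s16la_isParEll_iff _ φ).mpr hφ)
  have : Fact ℓ.Prime := ⟨hℓ⟩
  exact Fermat.Agent.S16.s16l_card_le p ℓ (fun φ => s16la_IsParEll (Gamma0 p) φ)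
    (fun φ hφ => (s16la_isParEll_iff _ φ).mp hφ)

/-- **(L1) for the Shimura class**: `s16h_phi p : Γ₀(p) → ℤ/n`, `n = eisensteinNumerator p`, is the
reduction of an integral parabolic character. -/
theorem s16la_lift_shimura (p : ℕ) [Fact p.Prime] :
    ∃ f : Additive (Gamma0 p) →+ ℤ, f ∈ parabolicHoms ℤ (Gamma0 p) ℤ ∧
      ∀ γ : Gamma0 p, ((f (Additive.ofMul γ) : ℤ) : ZMod (ModularCurve.eisensteinNumerator p)) =
        Fermat.Agent.S16D.s16h_phi p (Additive.ofMul γ) :=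
  s16la_lift_gamma0 p _ (Fermat.Agent.S16D.s16h_phi p)
    (fun γ hγ => Fermat.Agent.S16D.s16h_phi_of_trace_sq_le p γ hγ)

end Fermat.Agent.S16L
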