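import Mathlib
import Fermat.Prelude.Def_HeckeGalois_EichlerShimura

set_option autoImplicit false

/-!
# S16, stream [D]: abstract polynomial transport (no commutativity on the function side)

Setting: `Θ : HeckeAlg →+* AddMonoid.End X` (the Hecke polynomials acting on a group `X`, e.g. the
complex parabolic classes, via the action on cusp forms and the period isomorphism), an "integral
structure" `inc : Z →+ X`, a reduction `red : Z →+ Y` to a `ZMod n`-module, and a class `φ : Y`.
If every generator `X_ℓ` maps integral classes whose reduction is a multiple of `φ` to integral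
classes and acts on these reductions through the scalar `eis ℓ`, then so does every polynomial `P`,
through `aeval eis P` (`s16t_transport`).  Consequently a polynomial acting as zero on `X` has
`aeval eis P ≡ 0 mod n` as soon as `φ` is the reduction of an integral class and has exact order `n`
(`s16t_dvd_of_eq_zero`).
-/

namespace Fermat.Agent.S16

open ModularCurve

section

variable {X Z Y : Type*} [AddCommGroup X] [AddCommGroup Z] [AddCommGroup Y]
  (n : ℕ) [Module (ZMod n) Y]
  (Θ : HeckeAlg →+* AddMonoid.End X) (inc : Z →+ X) (red : Z →+ Y) (φ : Y)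
  (eis : Nat.Primes → ℤ)

/-- the property transported along polynomials -/
def s16t_Good (P : HeckeAlg) : Prop :=
  ∀ (ψ : Z) (a : ZMod n), red ψ = a • φ →
    ∃ ψ' : Z, inc ψ' = Θ P (inc ψ) ∧
      red ψ' = ((MvPolynomial.aeval (R := ℤ) eis P : ℤ) : ZMod n) • a • φ

theorem s16t_good_C (c : ℤ) : s16t_Good n Θ inc red φ eis (MvPolynomial.C c) := by
  intro ψ a h
  refine ⟨c • ψ, ?_, ?_⟩
  · have h1 : Θ (MvPolynomial.C c) = (c : AddMonoid.End X) := by
      rw [← map_intCast Θ c]
      congr 1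
    rw [h1, map_zsmul]
    simp
  · rw [map_zsmul, h, MvPolynomial.aeval_C]
    simp only [eq_intCast, Int.cast_id]
    rw [← Int.cast_smul_eq_zsmul (ZMod n) c (a • φ)]

theorem s16t_good_add {P Q : HeckeAlg} (hP : s16t_Good n Θ inc red φ eis P)
    (hQ : s16t_Good n Θ inc red φ eis Q) : s16t_Good n Θ inc red φ eis (P + Q) := by
  intro ψ a h
  obtain ⟨ψ₁, h₁, h₁'⟩ := hP ψ a h
  obtain ⟨ψ₂, h₂, h₂'⟩ := hQ ψ a h
  refine ⟨ψ₁ + ψ₂, ?_, ?_⟩
  · rw [map_add, map_add, h₁, h₂]
    rfl
  · rw [map_add, h₁', h₂', map_add, Int.cast_add, add_smul]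

theorem s16t_good_mul {P Q : HeckeAlg} (hP : s16t_Good n Θ inc red φ eis P)
    (hQ : s16t_Good n Θ inc red φ eis Q) : s16t_Good n Θ inc red φ eis (P * Q) := by
  intro ψ a h
  obtain ⟨ψ₂, h₂, h₂'⟩ := hQ ψ a h
  obtain ⟨ψ₁, h₁, h₁'⟩ := hP ψ₂ (((MvPolynomial.aeval (R := ℤ) eis Q : ℤ) : ZMod n) * a)
    (by rw [h₂', mul_smul])
  refine ⟨ψ₁, ?_, ?_⟩
  · rw [h₁, h₂, map_mul]
    rfl
  · rw [h₁', map_mul, Int.cast_mul, mul_smul, mul_smul]

/-- **Transport along polynomials.** -/
theorem s16t_transport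
    (hgen : ∀ ℓ : Nat.Primes, s16t_Good n Θ inc red φ eis (MvPolynomial.X ℓ)) :
    ∀ P : HeckeAlg, s16t_Good n Θ inc red φ eis P := by
  intro P
  induction P using MvPolynomial.induction_on with
  | C c => exact s16t_good_C n Θ inc red φ eis c
  | add P Q hP hQ => exact s16t_good_add n Θ inc red φ eis hP hQ
  | mul_X P ℓ hP => exact s16t_good_mul n Θ inc red φ eis hP (hgen ℓ)

/-- **Conclusion**: a polynomial acting as zero has Eisenstein value divisible by `n`. -/
theorem s16t_dvd_of_eq_zero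
    (hgen : ∀ ℓ : Nat.Primes, s16t_Good n Θ inc red φ eis (MvPolynomial.X ℓ))
    (hinc : Function.Injective inc)
    (ψ₀ : Z) (hψ₀ : red ψ₀ = φ)
    (hφ : ∀ c : ZMod n, c • φ = 0 → c = 0)
    (P : HeckeAlg) (hP : Θ P = 0) :
    (n : ℤ) ∣ MvPolynomial.aeval (R := ℤ) eis P := by
  obtain ⟨ψ', h1, h2⟩ := s16t_transport n Θ inc red φ eis hgen P ψ₀ 1 (by rw [hψ₀, one_smul])
  rw [hP] at h1
  have h3 : ψ' = 0 := by
    apply hinc
    rw [h1, map_zero]
    rfl
  rw [h3, map_zero, one_smul] at h2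
  have h4 := hφ _ h2.symm
  exact (ZMod.intCast_zmod_eq_zero_iff_dvd _ _).mp h4

end

end Fermat.Agent.S16
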