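import Mathlib
import Fermat.Agent.S16.Contracts
import Fermat.Agent.S16.Low.OfEps
import Fermat.Agent.S16.Low.Transport
import Fermat.Agent.S21

set_option autoImplicit false

/-!
# S16, stream [D]: the Hecke polynomials acting on complex parabolic classes

`s16th_Phi p` : the Eichler–Shimura isomorphism `S₂ × S₂ ≃ parabolicHoms ℂ Γ₀(p) ℂ` (S21);
`s16th_ThetaL p : HeckeAlg →+* Module.End ℂ (parabolicHoms …)`, the transported Hecke action,
`Θ P (Φ (f, g)) = Φ (P f, P g)`; it vanishes on polynomials with `evalT p P = 0`.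
`s16th_low_of_gen` : LOW from the behaviour of the generators on integral classes + the lift of
the Shimura class.
-/

namespace Fermat.Agent.S16

open ModularCurve CuspForm Fermat.Agent.S16x ModularCurve.Period CongruenceSubgroup

noncomputable section

variable (p : ℕ) [Fact p.Prime]

/-- the space of weight-2 cusp forms -/
abbrev s16th_V : Type := CuspForm (Gamma0 p) 2

/-- the complex parabolic classes -/
abbrev s16th_X : Type := ↥(parabolicHoms ℂ (Gamma0 p) ℂ)

/-- Eichler–Shimura (S21) as a linear equivalence onto the parabolic classes. -/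
def s16th_Phi : (s16th_V p × s16th_V p) ≃ₗ[ℂ] s16th_X p :=
  (LinearEquiv.ofInjective (periodHomPair p) (Fermat.Agent.S21.result p).1).trans
    (LinearEquiv.ofEq _ _ (Fermat.Agent.S21.result p).2)

theorem s16th_Phi_coe (x : s16th_V p × s16th_V p) :
    ((s16th_Phi p x : s16th_X p) : Additive (Gamma0 p) →+ ℂ) = periodHomPair p x := rfl

/-- Hecke polynomials as operators on cusp forms. -/
def s16th_ev : HeckeAlg →+* Module.End ℂ (s16th_V p) :=
  ((heckeAlgebra p 2 ∅).val : ↥(heckeAlgebra p 2 ∅) →+* Module.End ℂ (s16th_V p)).comp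
    (heckeEvalForms p 2)

theorem s16th_ev_apply (P : HeckeAlg) :
    s16th_ev p P = ((heckeEvalForms p 2 P : heckeAlgebra p 2 ∅) : Module.End ℂ (s16th_V p)) := rfl

theorem s16th_ev_X_of_not_dvd (ℓ : Nat.Primes) (h : ¬ (ℓ : ℕ) ∣ p) :
    s16th_ev p (MvPolynomial.X ℓ) = heckeTLin 2 ℓ.2 h := by
  rw [s16th_ev_apply]
  have := heckeEvalForms_heckeGen_of_not_dvd (N := p) (k := 2) h
  rw [heckeGen] at this
  rw [this]
  rfl

theorem s16th_ev_X_of_dvd (ℓ : Nat.Primes) (h : (ℓ : ℕ) ∣ p) :
    s16th_ev p (MvPolynomial.X ℓ) = heckeULin 2 h := by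
  rw [s16th_ev_apply]
  have := heckeEvalForms_heckeGen_of_dvd (N := p) (k := 2) h
  rw [heckeGen] at this
  rw [this]
  rfl

theorem s16th_ev_eq_zero (P : HeckeAlg) (h : evalT p P = 0) : s16th_ev p P = 0 := by
  rw [s16th_ev_apply, s16o_heckeEvalForms_eq_zero p P h]
  rfl

/-- the diagonal action on pairs -/
def s16th_diag : Module.End ℂ (s16th_V p) →+* Module.End ℂ (s16th_V p × s16th_V p) :=
  (LinearMap.prodMapRingHom ℂ (s16th_V p) (s16th_V p)).comp
    ((RingHom.id _).prod (RingHom.id _))

theorem s16th_diag_apply (t : Module.End ℂ (s16th_V p)) (x : s16th_V p × s16th_V p) :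
    s16th_diag p t x = (t x.1, t x.2) := rfl

/-- the transported Hecke action on complex parabolic classes -/
def s16th_ThetaL : HeckeAlg →+* Module.End ℂ (s16th_X p) :=
  ((s16th_Phi p).conjRingEquiv : Module.End ℂ (s16th_V p × s16th_V p) →+*
      Module.End ℂ (s16th_X p)).comp ((s16th_diag p).comp (s16th_ev p))

theorem s16th_ThetaL_apply (P : HeckeAlg) (f g : s16th_V p) :
    s16th_ThetaL p P (s16th_Phi p (f, g)) = s16th_Phi p (s16th_ev p P f, s16th_ev p P g) := by
  simp [s16th_ThetaL, LinearEquiv.conjRingEquiv, LinearEquiv.conj_apply, s16th_diag_apply]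

theorem s16th_ThetaL_eq_zero (P : HeckeAlg) (h : evalT p P = 0) : s16th_ThetaL p P = 0 := by
  rw [s16th_ThetaL, RingHom.comp_apply, RingHom.comp_apply, s16th_ev_eq_zero p P h, map_zero,
    map_zero]

/-- the same as additive endomorphisms -/
def s16th_Theta : HeckeAlg →+* AddMonoid.End (s16th_X p) :=
  (Module.toAddMonoidEnd (Module.End ℂ (s16th_X p)) (s16th_X p)).comp (s16th_ThetaL p)

theorem s16th_Theta_apply (P : HeckeAlg) (x : s16th_X p) :
    s16th_Theta p P x = s16th_ThetaL p P x := rfl

theorem s16th_Theta_eq_zero (P : HeckeAlg) (h : evalT p P = 0) : s16th_Theta p P = 0 := by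
  rw [s16th_Theta, RingHom.comp_apply, s16th_ThetaL_eq_zero p P h, map_zero]


/-! ### integral classes, reduction, and LOW from the generators -/

/-- the integral parabolic classes -/
abbrev s16th_Z : Type := ↥(parabolicHoms ℤ (Gamma0 p) ℤ)

/-- integral classes as complex classes -/
def s16th_inc : s16th_Z p →+ s16th_X p where
  toFun ψ := ⟨(Int.castAddHom ℂ).comp ψ.1, fun γ hγ => by
    have := ψ.2 γ hγ
    simp [AddMonoidHom.comp_apply, this]⟩
  map_zero' := by
    apply Subtype.ext
    ext γ
    simp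
  map_add' a b := by
    apply Subtype.ext
    ext γ
    simp

theorem s16th_inc_apply (ψ : s16th_Z p) (γ : Additive (Gamma0 p)) :
    ((s16th_inc p ψ : s16th_X p) : Additive (Gamma0 p) →+ ℂ) γ = ((ψ.1 γ : ℤ) : ℂ) := rfl

theorem s16th_inc_injective : Function.Injective (s16th_inc p) := by
  intro a b h
  apply Subtype.ext
  ext γ
  have h1 := congrArg (fun x : s16th_X p => (x : Additive (Gamma0 p) →+ ℂ) γ) h
  simp only [s16th_inc_apply] at h1
  exact_mod_cast h1

/-- reduction of integral classes mod `n` -/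
def s16th_red (n : ℕ) : s16th_Z p →+ (Additive (Gamma0 p) →+ ZMod n) where
  toFun ψ := (Int.castAddHom (ZMod n)).comp ψ.1
  map_zero' := by
    ext γ
    simp
  map_add' a b := by
    ext γ
    simp

theorem s16th_red_apply (n : ℕ) (ψ : s16th_Z p) (γ : Additive (Gamma0 p)) :
    s16th_red p n ψ γ = ((ψ.1 γ : ℤ) : ZMod n) := rfl

/-- **LOW from the generators.**  If `φ : Γ₀(p) → ℤ/n` (`n = eisensteinNumerator p`) is surjective,
is the reduction of an integral parabolic class, and every generator `X_ℓ` maps integral classes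
with reduction in `(ℤ/n) φ` to integral classes, acting on the reductions by `eisensteinSystem p ℓ`,
then `ContractLOW p` holds. -/
theorem s16th_low_of_gen
    (φ : Additive (Gamma0 p) →+ ZMod (eisensteinNumerator p))
    (hφ : Function.Surjective φ)
    (hlift : ∃ ψ₀ : s16th_Z p, s16th_red p (eisensteinNumerator p) ψ₀ = φ)
    (hgen : ∀ ℓ : Nat.Primes, s16t_Good (eisensteinNumerator p) (s16th_Theta p) (s16th_inc p)
      (s16th_red p (eisensteinNumerator p)) φ (eisensteinSystem p) (MvPolynomial.X ℓ)) :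
    ContractLOW p := by
  intro P hP
  obtain ⟨ψ₀, hψ₀⟩ := hlift
  have hφ' : ∀ c : ZMod (eisensteinNumerator p), c • φ = 0 → c = 0 := by
    intro c hc
    obtain ⟨γ, hγ⟩ := hφ 1
    have := congrArg (fun f : Additive (Gamma0 p) →+ ZMod (eisensteinNumerator p) => f γ) hc
    simpa [hγ] using this
  exact s16t_dvd_of_eq_zero (eisensteinNumerator p) (s16th_Theta p) (s16th_inc p)
    (s16th_red p (eisensteinNumerator p)) φ (eisensteinSystem p) hgen (s16th_inc_injective p)
    ψ₀ hψ₀ hφ' P (s16th_Theta_eq_zero p P hP)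

end

end Fermat.Agent.S16
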